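import Fermat.Agent.ModularFunctionField.ModularPolynomial
import Mathlib.RingTheory.Polynomial.Cyclotomic.Basic
import Mathlib.FieldTheory.KummerExtension

/-!
# The Newton polygon of `Φ_N` at infinity, `N` prime

Writing `Φ_N(a, Y) = ∑ cᵢ(a) Yⁱ`: `c_{N+1} = 1`, `c_N` has degree `N` and leading coefficient `-1`,
`c₀` has degree `N + 1` and leading coefficient `1`, the other `cᵢ` have degree at most `N`.
-/

set_option autoImplicit false

noncomputable section

open ModularCurve Fermat.Agent.ModularFunctionField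
open scoped Polynomial

namespace Fermat.Agent.MazurPoint

section Series

variable {R : Type*} [CommRing R]

/-- The coefficient of a product at the sum of two lower bounds of the supports. -/
theorem coeff_mul_bottom {x y : LaurentSeries R} {m n : ℤ} (hx : ∀ i, i < m → x.coeff i = 0)
    (hy : ∀ i, i < n → y.coeff i = 0) :
    (x * y).coeff (m + n) = x.coeff m * y.coeff n ∧ ∀ i, i < m + n → (x * y).coeff i = 0 := by
  constructor
  · rw [HahnSeries.coeff_mul, Finset.sum_eq_single (m, n)]
    · intro p hp hne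
      rw [Finset.mem_antidiagonal] at hp
      rcases lt_trichotomy p.1 m with h | h | h
      · rw [hx _ h, zero_mul]
      · exact absurd (Prod.ext h (by show p.2 = n; linarith [hp.2.2])) hne
      · rw [hy _ (by linarith [hp.2.2]), mul_zero]
    · intro h
      rw [Finset.mem_antidiagonal] at h
      by_contra hne
      exact h ⟨left_ne_zero_of_mul hne, right_ne_zero_of_mul hne, rfl⟩
  · intro i hi
    rw [HahnSeries.coeff_mul]
    refine Finset.sum_eq_zero fun p hp => ?_
    rw [Finset.mem_antidiagonal] at hp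
    rcases lt_or_ge p.1 m with h | h
    · rw [hx _ h, zero_mul]
    · rw [hy _ (by linarith [hp.2.2]), mul_zero]

theorem coeff_prod_X_sub_C {ι : Type*} (S : Finset ι) (s : ι → LaurentSeries R)
    (hs : ∀ i ∈ S, ∀ j, j < -1 → (s i).coeff j = 0) :
    (∀ k : ℕ, ∀ j : ℤ, j < (k : ℤ) - S.card →
        ((∏ i ∈ S, (Polynomial.X - Polynomial.C (s i))).coeff k).coeff j = 0) ∧
      ((∏ i ∈ S, (Polynomial.X - Polynomial.C (s i))).coeff 0).coeff (-(S.card : ℤ)) =
        ∏ i ∈ S, -(s i).coeff (-1) := by
  classical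
  induction S using Finset.induction_on with
  | empty =>
    refine ⟨fun k j hj => ?_, by simp⟩
    rcases Nat.eq_zero_or_pos k with rfl | hk
    · simp only [Finset.prod_empty, Polynomial.coeff_one_zero]
      rw [HahnSeries.coeff_one, if_neg (by simp at hj; omega)]
    · simp [Polynomial.coeff_one, hk.ne']
  | insert a S ha ih =>
    obtain ⟨h1, h2⟩ := ih fun i hi => hs i (Finset.mem_insert_of_mem hi)
    have hsa := hs a (Finset.mem_insert_self a S)
    have hneg : ∀ j, j < -1 → (-s a).coeff j = 0 := fun j hj => by simp [hsa j hj]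
    rw [Finset.prod_insert ha, Finset.card_insert_of_notMem ha, sub_mul]
    refine ⟨fun k j hj => ?_, ?_⟩
    · push_cast at hj
      rw [Polynomial.coeff_sub, Polynomial.coeff_C_mul, HahnSeries.coeff_sub]
      have e2 := (coeff_mul_bottom hsa (h1 k)).2 j (by omega)
      rcases k with _ | k
      · rw [Polynomial.coeff_X_mul_zero, HahnSeries.coeff_zero, e2, sub_zero]
      · rw [Polynomial.coeff_X_mul, h1 k j (by push_cast at hj ⊢; omega), e2, sub_zero]
    · rw [Finset.prod_insert ha, Polynomial.coeff_sub, Polynomial.coeff_X_mul_zero,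
        Polynomial.coeff_C_mul, zero_sub, ← neg_mul,
        show -(((S.card + 1 : ℕ) : ℤ)) = -1 + -(S.card : ℤ) by push_cast; ring,
        (coeff_mul_bottom hneg (fun j hj => h1 0 j (by simpa using hj))).1, h2]
      simp

end Series

theorem coeff_evalJT_bottom (R : Type*) [CommRing R] (N : ℕ) [NeZero N] (p : R[X]) {D : ℕ}
    (hD : p.natDegree ≤ D) : (evalJT R N p).coeff (-((N * D : ℕ) : ℤ)) = p.coeff D := by
  conv_lhs => rw [p.as_sum_range' (D + 1) (by omega)]
  rw [map_sum, HahnSeries.coeff_sum, Finset.sum_eq_single D]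
  · rw [← Polynomial.C_mul_X_pow_eq_monomial, map_mul, map_pow, evalJT_C, evalJT_X,
      HahnSeries.C_mul_eq_smul, HahnSeries.coeff_smul, coeff_jT_pow_self, smul_eq_mul, mul_one]
  · intro i hi hne
    rw [← Polynomial.C_mul_X_pow_eq_monomial, map_mul, map_pow, evalJT_C, evalJT_X,
      HahnSeries.C_mul_eq_smul, HahnSeries.coeff_smul, coeff_jT_pow_of_lt, smul_zero]
    rw [Finset.mem_range] at hi
    have : i < D := by omega
    have := (Nat.mul_lt_mul_left (Nat.pos_of_ne_zero (NeZero.ne N))).mpr this
    omega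
  · simp

theorem natDegree_le_of_coeff_evalJT {R : Type*} [CommRing R] {N : ℕ} [NeZero N] {p : R[X]}
    {D : ℕ} (h : ∀ i : ℤ, i ≤ -((N * (D + 1) : ℕ) : ℤ) → (evalJT R N p).coeff i = 0) :
    p.natDegree ≤ D := by
  by_contra hc
  push Not at hc
  have h0 := coeff_evalJT_bottom R N p (D := p.natDegree) le_rfl
  rw [h _ (by have := Nat.mul_le_mul_left N (show D + 1 ≤ p.natDegree by omega); omega),
    Polynomial.coeff_natDegree] at h0
  have : p = 0 := Polynomial.leadingCoeff_eq_zero.mp h0.symm
  rw [this, Polynomial.natDegree_zero] at hc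
  exact absurd hc (Nat.not_lt_zero _)

/-- `evalPhi` is `evalJT` after mapping the coefficients into `R`. -/
theorem evalPhi_eq (N : ℕ) [NeZero N] (R : Type*) [CommRing R] (p : ℤ[X]) :
    evalPhi N R p = evalJT R N (p.map (Int.castRingHom R)) := rfl

section Prime

variable {N : ℕ} [NeZero N] (hN : N.Prime)
include hN

/-- The `N + 1` triples of prime level. -/
def triOfOption : Option (Fin N) → Tri N
  | none => Tri.top
  | some i => Tri.mk 1 i.1 N (one_mul N) i.2 (by simp [Nat.gcd_one_left])

/-- `triOfOption` parametrises the triples of prime level. -/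
theorem triOfOption_bijective : Function.Bijective (triOfOption (N := N)) := by
  constructor
  · rintro (_ | i) (_ | i') h
    · rfl
    · have : N = 1 := congrArg Tri.a h
      exact absurd this hN.ne_one
    · have : 1 = N := congrArg Tri.a h
      exact absurd this.symm hN.ne_one
    · have : i.1 = i'.1 := congrArg Tri.b h
      rw [Fin.ext this]
  · intro M
    rcases hN.eq_one_or_self_of_dvd M.a (Dvd.intro _ M.a_mul_d) with ha | ha
    · have hd : M.d = N := by have := M.a_mul_d; rwa [ha, one_mul] at this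
      exact ⟨some ⟨M.b, lt_of_lt_of_eq M.b_lt hd⟩, Tri.ext' ha.symm rfl hd.symm⟩
    · have hd : M.d = 1 := by
        have := M.a_mul_d
        rw [ha] at this
        exact (Nat.mul_eq_left (NeZero.ne N)).mp this
      exact ⟨none, Tri.ext' ha.symm (show 0 = M.b by have := M.b_lt; omega) hd.symm⟩

/-- `ψ(N) = N + 1`. -/
theorem dedekindPsi_prime : dedekindPsi N = N + 1 := by
  rw [← card_tri, ← Fintype.card_of_bijective (triOfOption_bijective hN), Fintype.card_option,
    Fintype.card_fin]

/-- `Φ_N` has degree `N + 1` in `Y`. -/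
theorem modularPoly_natDegree_prime : (modularPoly N).natDegree = N + 1 := by
  rw [modularPoly_natDegree, dedekindPsi_prime hN]

/-- `Φ_N` is monic in `Y`. -/
theorem coeff_modularPoly_succ : (modularPoly N).coeff (N + 1) = 1 := by
  have h := modularPoly_monic N
  rwa [Polynomial.Monic, Polynomial.leadingCoeff, modularPoly_natDegree_prime hN] at h

/-- The shape of `Φ_N` at infinity. -/
theorem modularPoly_shape :
    ((modularPoly N).coeff 0).natDegree ≤ N + 1 ∧ ((modularPoly N).coeff 0).coeff (N + 1) = 1 ∧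
    (∀ k, 1 ≤ k → k ≤ N → ((modularPoly N).coeff k).natDegree ≤ N) ∧
    ((modularPoly N).coeff N).coeff N = -1 := by
  classical
  set u := rootUnit N
  have hu : IsPrimitiveRoot u N := isPrimitiveRoot_rootUnit N
  set s : Fin N → LaurentSeries ℂ := fun i => jRoot u 1 (triOfOption (some i)) with hs
  set t : LaurentSeries ℂ := jRoot u 1 (Tri.top : Tri N) with ht
  set Q := ∏ i, (Polynomial.X - Polynomial.C (s i)) with hQ
  have hprod : (modularPoly N).map (evalPhi N ℂ) = (Polynomial.X - Polynomial.C t) * Q := by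
    rw [modularPoly_map_evalPhi hu, ← (Equiv.ofBijective _ (triOfOption_bijective hN)).prod_comp,
      Fintype.prod_option]
    rfl
  have hsc : ∀ i : Fin N, (s i).coeff (-1) = (((u⁻¹) ^ i.1 : ℂˣ) : ℂ) ∧
      ∀ j, j < -1 → (s i).coeff j = 0 := by
    intro i
    have h := coeff_jRoot u 1 (triOfOption (some i))
    have ha : (triOfOption (some i)).a = 1 := rfl
    have hb : (triOfOption (some i)).b = i.1 := rfl
    rw [ha, hb] at h
    simpa [inv_pow] using h
  obtain ⟨hlow, hbot⟩ := coeff_prod_X_sub_C Finset.univ s fun i _ => (hsc i).2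
  rw [Finset.card_univ, Fintype.card_fin] at hlow hbot
  rw [← hQ] at hlow hbot
  have hbot1 : (Q.coeff 0).coeff (-(N : ℤ)) = -1 := by
    rw [hbot]
    have hz : IsPrimitiveRoot (((u⁻¹ : ℂˣ)) : ℂ) N := IsPrimitiveRoot.coe_units_iff.mpr hu.inv
    have h := congrArg (Polynomial.eval 0) (X_pow_sub_C_eq_prod hz
      (Nat.pos_of_ne_zero (NeZero.ne N)) (α := 1) (a := 1) (one_pow N))
    simp only [Polynomial.eval_sub, Polynomial.eval_pow, Polynomial.eval_X, Polynomial.eval_C,
      zero_pow (NeZero.ne N), zero_sub, Polynomial.eval_prod, mul_one] at h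
    rw [h, ← Fin.prod_univ_eq_prod_range]
    refine Finset.prod_congr rfl fun i _ => ?_
    rw [(hsc i).1, Units.val_pow_eq_pow_val]
  have htc : t.coeff (-((N * N : ℕ) : ℤ)) = 1 ∧ ∀ j, j < -((N * N : ℕ) : ℤ) → t.coeff j = 0 := by
    have h := coeff_jRoot u 1 (Tri.top : Tri N)
    have ha : (Tri.top : Tri N).a = N := rfl
    have hb : (Tri.top : Tri N).b = 0 := rfl
    rw [ha, hb] at h
    simpa using h
  have hQdeg : Q.natDegree = N := by
    rw [hQ, Polynomial.natDegree_finsetProd_X_sub_C_eq_card, Finset.card_univ, Fintype.card_fin]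
  have hQN : Q.coeff N = 1 := by
    have hm : Q.Monic := Polynomial.monic_prod_of_monic _ _ fun i _ => Polynomial.monic_X_sub_C _
    rwa [Polynomial.Monic, Polynomial.leadingCoeff, hQdeg] at hm
  have hc : ∀ k, evalJT ℂ N (((modularPoly N).coeff k).map (Int.castRingHom ℂ)) =
      (Polynomial.X * Q).coeff k - t * Q.coeff k := fun k => by
    rw [← evalPhi_eq, ← Polynomial.coeff_map, hprod, sub_mul Polynomial.X (Polynomial.C t) Q,
      Polynomial.coeff_sub, Polynomial.coeff_C_mul]
  have hdeg : ∀ k D, (∀ i : ℤ, i ≤ -((N * (D + 1) : ℕ) : ℤ) →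
      ((Polynomial.X * Q).coeff k - t * Q.coeff k).coeff i = 0) →
        ((modularPoly N).coeff k).natDegree ≤ D := fun k D h => by
    rw [← Polynomial.natDegree_map_eq_of_injective (RingHom.injective_int (Int.castRingHom ℂ))]
    exact natDegree_le_of_coeff_evalJT fun i hi => by rw [hc]; exact h i hi
  have h2 := hN.two_le
  have hcN : ((modularPoly N).coeff 0).natDegree ≤ N + 1 := hdeg 0 (N + 1) fun i hi => by
    rw [Polynomial.coeff_X_mul_zero, HahnSeries.coeff_sub, HahnSeries.coeff_zero,
      (coeff_mul_bottom htc.2 (hlow 0)).2 i (by push_cast at hi ⊢; nlinarith), sub_zero]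
  have hmid : ∀ k, 1 ≤ k → k ≤ N → ((modularPoly N).coeff k).natDegree ≤ N := by
    intro k h1 hk
    obtain ⟨k, rfl⟩ : ∃ m, k = m + 1 := ⟨k - 1, by omega⟩
    refine hdeg (k + 1) N fun i hi => ?_
    push_cast at hi
    have hNN : (N : ℤ) ≤ (N : ℤ) * N := le_mul_of_one_le_right (by positivity) (by omega)
    rw [Polynomial.coeff_X_mul, HahnSeries.coeff_sub, hlow k i (by nlinarith),
      (coeff_mul_bottom htc.2 (hlow (k + 1))).2 i (by push_cast; nlinarith), sub_zero]
  refine ⟨hcN, ?_, hmid, ?_⟩
  · have h := coeff_evalJT_bottom ℂ N (((modularPoly N).coeff 0).map (Int.castRingHom ℂ))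
      ((Polynomial.natDegree_map_le).trans hcN)
    rw [hc, Polynomial.coeff_X_mul_zero, zero_sub, ← neg_mul, Polynomial.coeff_map,
      show -(((N * (N + 1) : ℕ)) : ℤ) = -((N * N : ℕ) : ℤ) + ((0 : ℕ) - (N : ℤ)) by push_cast; ring,
      (coeff_mul_bottom (x := -t) (fun i hi => by simp [htc.2 i hi]) (hlow 0)).1] at h
    rw [Nat.cast_zero, zero_sub, hbot1, HahnSeries.coeff_neg, htc.1] at h
    simpa using h.symm
  · obtain ⟨M, hM⟩ : ∃ M, N = M + 1 := ⟨N - 1, by omega⟩
    have h := coeff_evalJT_bottom ℂ N (((modularPoly N).coeff N).map (Int.castRingHom ℂ))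
      ((Polynomial.natDegree_map_le).trans (hmid N (by omega) le_rfl))
    rw [hc, hQN, mul_one, Polynomial.coeff_map, HahnSeries.coeff_sub, htc.1,
      show (Polynomial.X * Q : Polynomial (LaurentSeries ℂ)).coeff N = Q.coeff M by
        rw [hM, Polynomial.coeff_X_mul],
      hlow M _ (by subst hM; push_cast; nlinarith), zero_sub] at h
    have h' : ((((modularPoly N).coeff N).coeff N : ℤ) : ℂ) = ((-1 : ℤ) : ℂ) := by
      simpa using h.symm
    exact_mod_cast h'

end Prime

end Fermat.Agent.MazurPoint
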