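import Fermat.Agent.MazurPoint.DescentWiring
import Fermat.Agent.OrdinaryEisenstein.UnitRoot
import Fermat.Agent.EisensteinDescent.JZeroInputs
import Fermat.Agent.EisensteinDescent.JZeroRank
import Fermat.Agent.S17

/-!
# The Eisenstein descent on `J₀(N)` from the eigen decomposition and the ordinary family at `p`
-/

set_option autoImplicit false

noncomputable section

namespace Fermat.Agent.MazurPoint

open GaloisBasics EisensteinDescent EisensteinTate OrdinaryEisenstein ModCurveGenus
open ModularCurve (JZero)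
open scoped IsMulCommutative

variable (N p : ℕ) [NeZero N] [Fact p.Prime] [IsMulCommutative (awayAlg N)]
  [SMulCommClass GalQ (awayAlg N) (JZero N)]

/-- The rank of the `p`-adic Tate module of `J₀(N)`. -/
abbrev tateRank : ℕ :=
  2 * AlgebraicCurve.genusFF Qbar (ModularCurve.modularFunctionFieldBar N)

/-- The eigen decomposition of the Eisenstein part of the Tate module, with distinct characters,
none of which takes the value `± (q + 1)` at `T_q`. -/
def HasEigenDecomposition : Prop :=
  ∃ (E : Type) (_ : Field E) (_ : CharZero E) (_ : Algebra ℤ_[p] E)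
    (Eig : EigenData GalQ
      (primaryAct (J := JZero N) (p := p) (P := eisensteinIdeal N p)) E),
    Function.Injective Eig.θ ∧ ∀ i, ∀ q : ℕ, q.Prime → q ≠ N →
      Eig.θ i (awayTq N q) ≠ (q : E) + 1 ∧ Eig.θ i (awayTq N q) ≠ -((q : E) + 1)

/-- The ordinary family at `p`: maps of roots of unity meeting every component, intertwining a
Frobenius element with the unit root, and giving the Kummer cocycles of the points which
specialise to the cusp `∞`. -/
def HasOrdinaryFamily : Prop :=
  ∀ (h : HasTorsionRank (JZero N) p (tateRank N)) (E : Type) [Field E] [CharZero E]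
    [Algebra ℤ_[p] E]
    (Eig : EigenData GalQ
      (primaryAct (J := JZero N) (p := p) (P := eisensteinIdeal N p)) E)
    (α : ℕ → awayAlg N) (A : Module.End ℤ_[p] (primaryTate (JZero N) p (eisensteinIdeal N p)))
    (a : Eig.ι → E),
    Function.Injective Eig.θ →
    (∀ r, α r - 1 ∈ eisensteinIdeal N p) →
    (∀ r, ∀ x ∈ primary (JZero N) p (eisensteinIdeal N p) r,
      α r • α r • x - awayTq N p • α r • x + p • x = 0) →
    (∀ r, ∀ x ∈ primary (JZero N) p (eisensteinIdeal N p) r, α (r + 1) • x = α r • x) →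
    (∀ (x : primaryTate (JZero N) p (eisensteinIdeal N p)) (r : ℕ),
      (A x : CarayolReduction.tateModule (JZero N) p).1 r
        = α r • (x : CarayolReduction.tateModule (JZero N) p).1 r) →
    (∀ x i, Eig.coord (A x) i = a i • Eig.coord x i) →
    ∀ [Fact N.Prime] (P : AlgebraicCurve.Place Qbar (FN N)) (u v : ℚ),
      OverPoint P (u : Qbar) (v : Qbar) → padicValRat p u < 0 →
      padicValRat p v = N * padicValRat p u → (∀ g : GalQ, g • pointClass P = pointClass P) →
      ∃ Ap : ValuationSubring Qbar, Ap.LiesOverPrime p ∧ ∃ τ ∈ Ap.decompositionSubgroup ℚ,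
        ∃ (ι : Type) (_ : Fintype ι) (F : MuFamily p Ap (JZero N) (eisensteinIdeal N p) ι),
          (∀ (i : ι) (r : ℕ) (z : muPow p), p ^ r • (z : Qmul) = 0 →
            α r • τ • F.Φ i z = F.Φ i (muSmul τ z)) ∧
          (∀ θ : Eig.ι, ∃ i, Eig.coord (F.elem i) θ ≠ 0) ∧
          ∀ r, ∃ (w : JZero N) (c : ι → Qmul), p ^ r • w = pointClass P ∧
            (∀ i, p ^ r • c i ∈ unitsAt Ap) ∧
            ∃ htors : ∀ i, ∀ s ∈ Ap.inertiaSubgroupIn ℚ, p ^ r • (s • c i - c i) = 0,
              ∀ s (hs : s ∈ Ap.inertiaSubgroupIn ℚ),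
                h.idem (eisensteinIdeal N p) r • (s • w - w)
                  = ∑ i, F.Φ i ⟨s • c i - c i, mem_muPow (htors i s hs)⟩

/-- **The Eisenstein descent on `J₀(N)`.** -/
theorem descentKills_of_ordinaryFamily (hN : N.Prime) (hN5 : 5 ≤ N) (hpN : p ≠ N)
    (hmodel : ∀ ℓ : ℕ, ℓ.Prime → ¬ ℓ ∣ N → ∀ A : ValuationSubring Qbar, A.LiesOverPrime ℓ →
      Specialization.HasGaussModel A (Specialization.auxLevel N ℓ))
    (hcore : UnipotentInertia.UnipotentAtSplitLevels)
    (hEig : HasEigenDecomposition N p) (hord : HasOrdinaryFamily N p) :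
    DescentKills N p := by
  intro _ P u v hP hu hv hfix N₀ N₁ h₀y h₁y h₀inj h₁inj v' n' hC hCP
  have hp : p.Prime := Fact.out
  have h : HasTorsionRank (JZero N) p (tateRank N) := hasTorsionRank_jZero N p
  obtain ⟨E, _, _, _, Eig, hinj, hθ⟩ := hEig
  have hf : awayTq N p - (1 + (p : awayAlg N)) ∈ eisensteinIdeal N p :=
    sub_mem_eisensteinIdeal N p hp hpN
  obtain ⟨α, A, a, hα1, hαroot, hαcompat, hAα, hA, ha⟩ :=
    exists_unitRoot h (natCast_mem_eisensteinIdeal N p) hf Eig
  obtain ⟨Ap, hAp, τ, hτ, ι, _, F, hατ, hnz, hy⟩ :=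
    hord h E Eig α A a hinj hα1 hαroot hαcompat hAα hA P u v hP hu hv hfix
  exact nsmul_eq_zero_of_family
    (descentInputs_jZero N hN hpN h hmodel (jacobianUnipotent_prime N hcore hN hp hpN))
    h Eig hθ hAp hτ A a hA ha F
    (F.op_apply_of_levelwise A (fun r x ↦ α r • x) hAα hατ) hnz hfix hy
    (S17.result N hN hN5) N₀ N₁ h₀y h₁y h₀inj h₁inj hC ⟨v', hCP⟩

end Fermat.Agent.MazurPoint
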