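import Fermat.Agent.FreyUnramified.Frey
import Fermat.Agent.GaloisBasics.Place
import Fermat.Agent.ECReduction.Galois
import Mathlib.NumberTheory.Padics.PadicVal.Basic

/-!
# Rational numbers at a place of `ℚ̄` over a prime
-/

set_option autoImplicit false

namespace Fermat.Agent.MazurPoint

open Fermat.Agent.ECReduction

local notation "Qb" => AlgebraicClosure ℚ

variable {A : ValuationSubring (AlgebraicClosure ℚ)} {q : ℕ}

/-- The valuation of a prime number is positive. -/
lemma val_prime_pos (hq : q.Prime) : 0 < A.valuation (q : Qb) :=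
  (Valuation.pos_iff _).mpr (Nat.cast_ne_zero.mpr hq.ne_zero)

lemma val_intCast_eq (hA : A.LiesOverPrime q) (hq : q.Prime) {n : ℤ} (hn : n ≠ 0) :
    A.valuation (n : Qb) = A.valuation (q : Qb) ^ padicValInt q n := by
  have := Fact.mk hq
  obtain ⟨m, hm⟩ := padicValInt_dvd (p := q) n
  have hnd : ¬ (q : ℤ) ∣ m := by
    rintro ⟨r, rfl⟩
    have h : (q : ℤ) ^ (padicValInt q n + 1) ∣ n := ⟨r, by rw [pow_succ, mul_assoc]; exact hm⟩
    rcases (padicValInt_dvd_iff _ _).mp h with h' | h'
    · exact hn h'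
    · omega
  conv_lhs => rw [hm]
  push_cast
  rw [map_mul, map_pow, FreyUnramified.valuation_intCast_eq_one hA hq hnd, mul_one]

/-- The valuation of a rational number through `padicValRat`. -/
lemma val_rat (hA : A.LiesOverPrime q) (hq : q.Prime) {r : ℚ} (hr : r ≠ 0) :
    A.valuation (algebraMap ℚ Qb r) = A.valuation (q : Qb) ^ padicValRat q r := by
  have hd : (r.den : ℤ) ≠ 0 := by exact_mod_cast r.den_ne_zero
  rw [eq_ratCast, Rat.cast_def, map_div₀, val_intCast_eq hA hq (Rat.num_ne_zero.mpr hr),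
    show ((r.den : ℕ) : Qb) = ((r.den : ℤ) : Qb) by push_cast; rfl,
    val_intCast_eq hA hq hd, padicValRat_def, padicValInt.of_nat,
    zpow_sub₀ (val_prime_pos hq).ne', zpow_natCast, zpow_natCast]

lemma val_rat_lt_one_iff (hA : A.LiesOverPrime q) (hq : q.Prime) {r : ℚ} (hr : r ≠ 0) :
    A.valuation (algebraMap ℚ Qb r) < 1 ↔ 0 < padicValRat q r := by
  rw [val_rat hA hq hr, ← zpow_zero (A.valuation (q : Qb)),
    zpow_lt_zpow_iff_right_of_lt_one₀ (val_prime_pos hq) hA]

lemma val_rat_eq_one_iff (hA : A.LiesOverPrime q) (hq : q.Prime) {r : ℚ} (hr : r ≠ 0) :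
    A.valuation (algebraMap ℚ Qb r) = 1 ↔ padicValRat q r = 0 := by
  rw [val_rat hA hq hr, ← zpow_zero (A.valuation (q : Qb)),
    (zpow_right_injective₀ (val_prime_pos hq) (ne_of_lt hA)).eq_iff]

lemma val_rat_le_one_iff (hA : A.LiesOverPrime q) (hq : q.Prime) {r : ℚ} (hr : r ≠ 0) :
    A.valuation (algebraMap ℚ Qb r) ≤ 1 ↔ 0 ≤ padicValRat q r := by
  rw [le_iff_lt_or_eq, val_rat_lt_one_iff hA hq hr, val_rat_eq_one_iff hA hq hr]
  omega

/-- An element fixed by the Galois group is rational. -/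
lemma exists_rat {z : Qb} (h : ∀ σ : Qb ≃ₐ[ℚ] Qb, σ z = z) :
    ∃ r : ℚ, algebraMap ℚ Qb r = z :=
  (InfiniteGalois.mem_range_algebraMap_iff_fixed z).2 h

/-- The residue of a rational element of `A` lies in the prime field. -/
lemma exists_red_rat (hA : A.LiesOverPrime q) (hq : q.Prime) {r : ℚ}
    (hr : algebraMap ℚ Qb r ∈ A) :
    ∃ c : ℤ, Red (IsLocalRing.residue A) (algebraMap ℚ Qb r) (c : IsLocalRing.ResidueField A) := by
  have := Fact.mk hq
  have hden : ¬ (q : ℤ) ∣ (r.den : ℤ) := by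
    intro hh
    have hr0 : r ≠ 0 := by
      rintro rfl
      simp at hh
      exact hq.ne_one (Nat.dvd_one.mp (Int.natCast_dvd_natCast.mp hh))
    have hnum : ¬ (q : ℤ) ∣ r.num := fun h2 => hq.ne_one
      (Nat.eq_one_of_dvd_coprimes r.reduced (Int.natCast_dvd.mp h2)
        (Int.natCast_dvd_natCast.mp hh))
    have h1 : 1 ≤ padicValNat q r.den :=
      one_le_padicValNat_of_dvd r.den_ne_zero (Int.natCast_dvd_natCast.mp hh)
    have h0 : padicValInt q r.num = 0 := padicValInt.eq_zero_of_not_dvd hnum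
    have := (val_rat_le_one_iff hA hq hr0).mp ((A.valuation_le_one_iff _).mpr hr)
    rw [padicValRat_def, h0] at this
    omega
  obtain ⟨u, w, huw⟩ := ((Nat.prime_iff_prime_int.mp hq).coprime_iff_not_dvd).mpr hden
  refine ⟨r.num * w, ?_⟩
  -- `r - num * w = num * u * q / den`
  have key : algebraMap ℚ Qb r - ((r.num * w : ℤ) : Qb) = (q : Qb) * (u * algebraMap ℚ Qb r) := by
    have h1 : (u : Qb) * q + w * (r.den : Qb) = 1 := by exact_mod_cast huw
    have h2 : algebraMap ℚ Qb r * (r.den : Qb) = (r.num : Qb) := by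
      rw [eq_ratCast]; exact_mod_cast Rat.mul_den_eq_num r
    push_cast
    linear_combination (-(algebraMap ℚ Qb r)) * h1 + (w : Qb) * h2
  have hlt : A.valuation (algebraMap ℚ Qb r - ((r.num * w : ℤ) : Qb)) < 1 := by
    rw [key, map_mul]
    exact mul_lt_one_of_lt_of_le hA ((A.valuation_le_one_iff _).mpr
      (mul_mem (intCast_mem A u) hr))
  exact ((Red.of_valuation_lt_one _ hlt).add (Red.intCast _ (r.num * w))).congr_left
    (by ring) |>.congr_right (zero_add _)

end Fermat.Agent.MazurPoint
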