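import Fermat.Agent.MazurPoint.CuspZero
import Fermat.Agent.MazurPoint.RatVal
import Fermat.Agent.CuspidalC.Cusps
import Fermat.Prelude.Def_ModularCurve_ReductionModL
import Fermat.Prelude.Def_FLTPrelim_Ramification

/-!
# The place of a noncuspidal point and its Galois invariance

`N` prime, `(a, b)` a point of `Φ_N = 0`. A place over `(a, b)` exists, and it is unique when `b` is
a simple root of `Φ_N(a, Y)`. If `a`, `b` are rational with `v_q(b) = N v_q(a) < 0` at some prime
`q`, the root is simple and the place, as well as its class `[P - ∞]`, is fixed by Galois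
(`exists_point`).
-/

set_option autoImplicit false

noncomputable section

open ModularCurve IntermediateField Polynomial
open AlgebraicCurve (Place Divisor Pic0 SemilinearAut)
open Fermat.Agent.ModCurveGenus (Qb FN jEl)

namespace Fermat.Agent.MazurPoint

attribute [local instance 5000] SubalgebraClass.toAlgebra
attribute [-instance] IsLocalRing.ResidueField.algebraOfIsIntegral

variable {N : ℕ} [NeZero N]

/-- The two constructions of the cusp `∞` agree. -/
theorem cuspInf_eq : cuspInf N = CuspidalC.cuspInfty N := by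
  refine FunctionField.eq_of_le fun f hf => ?_
  rw [FFPlaces.mem_iff, CuspidalC.ord_cuspInfty]
  rwa [FFPlaces.mem_iff, ord_cuspInf] at hf

/-- The two constructions of the cusp `0` agree. -/
theorem cuspZero_eq (hN : N.Prime) [Fact N.Prime] : cuspZero hN = CuspidalC.cuspZero N := by
  rcases CuspidalC.eq_cusp_of_ord_neg N (ord_cuspZero_jEl_neg hN) with h | h
  · exact absurd (h.trans cuspInf_eq.symm) (cuspZero_ne_cuspInf hN)
  · exact h

/-! ### Places over a point -/

/-- `P` has `(j, j_N) = (a, b)`. -/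
def OverPoint (P : Place Qb (FN N)) (a b : Qb) : Prop :=
  P.adicValuation (jEl N - algebraMap Qb (FN N) a) < 1 ∧
    P.adicValuation (jNEl N - algebraMap Qb (FN N) b) < 1

/-- `j - a` is nonzero. -/
theorem jEl_sub_ne_zero (a : Qb) : jEl N - algebraMap Qb (FN N) a ≠ 0 := fun h =>
  ModCurveGenus.transcendental_jEl_sub N a (h ▸ isAlgebraic_zero)

/-- `j_N - b` is nonzero. -/
theorem jNEl_sub_ne_zero (b : Qb) : jNEl N - algebraMap Qb (FN N) b ≠ 0 := fun h =>
  transcendental_jNEl (by rw [sub_eq_zero.mp h]; exact isAlgebraic_algebraMap b)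

/-- A place over `(a, b)` forces `Φ_N(a, b) = 0`. -/
theorem OverPoint.root {P : Place Qb (FN N)} {a b : Qb} (h : OverPoint P a b) :
    (phiAt N a).eval b = 0 := by
  have h1 := evalXY_sub_lt P h.1 h.2 (curveEq N)
  rw [evalXY_curveEq, phiAt_jEl, evalAB_curveEq, zero_sub, Valuation.map_neg] at h1
  by_contra hne
  rw [FunctionField.adicValuation_algebraMap P hne] at h1
  exact lt_irrefl _ h1

/-- There is a place over every point of `Φ_N = 0`. -/
theorem exists_overPoint (hN : N.Prime) {a b : Qb} (hroot : (phiAt N a).eval b = 0) :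
    ∃ P : Place Qb (FN N), OverPoint P a b :=
  haveI := ModCurveGenus.isFunctionField_FN N
  exists_place_of_point
    (fun _ hp => evalAB_eq_zero_of_evalXY hN (by rwa [evalAB_curveEq]) hp) (jEl_sub_ne_zero a)

/-- There is only one place over a simple point. -/
theorem OverPoint.unique (hN : N.Prime) {P P' : Place Qb (FN N)} {a b : Qb}
    (h : OverPoint P a b) (h' : OverPoint P' a b)
    (hd : (phiAt N a).derivative.eval b ≠ 0) : P = P' :=
  place_eq_of_simple (R := curveEq N) (by rw [evalXY_curveEq, phiAt_jEl])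
    (by rw [evalAB_curveEq]; exact h.root) (by rwa [evalAB_derivative_curveEq]) (jEl_sub_ne_zero a)
    (exists_frac_xy hN) h.1 h.2 h'.1 h'.2

/-- A zero of `j - a` lies over some point `(a, b)`. -/
theorem exists_overPoint_of_ord_pos (hN : N.Prime) {P : Place Qb (FN N)} {a : Qb}
    (hP : 0 < P.ord (jEl N - algebraMap Qb (FN N) a)) : ∃ b, OverPoint P a b := by
  have hlt : P.adicValuation (jEl N - algebraMap Qb (FN N) a) < 1 :=
    (FunctionField.adicValuation_lt_one_iff P).mpr (Or.inr hP)
  have hj : P.adicValuation (jEl N) ≤ 1 := by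
    rw [← sub_add_cancel (jEl N) (algebraMap Qb (FN N) a)]
    exact (Valuation.map_add _ _ _).trans (max_le hlt.le (P.adicValuation_algebraMap_le_one a))
  obtain ⟨b, hb⟩ := FFPlaces.exists_residue (ModCurveGenus.finiteOverGen_FN N) P
    ((FFPlaces.mem_iff P).mp ((FunctionField.mem_iff_adicValuation_le_one P).mpr
      (valuation_root_le_one hN (valuation_intCast_le_one P) hj (phiAt_jEl N))))
  refine ⟨b, hlt, (FunctionField.adicValuation_lt_one_iff P).mpr (hb.imp (fun h => ?_) id)⟩
  rw [h, sub_self]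

/-- A place over an affine point is not the cusp `0`. -/
theorem OverPoint.ne_cuspZero (hN : N.Prime) {P : Place Qb (FN N)} {a b : Qb}
    (h : OverPoint P a b) : P ≠ cuspZero hN := by
  rintro rfl
  have h1 := (one_lt_valuation_iff (cuspZero hN) (jEl_ne_zero N)).mpr (ord_cuspZero_jEl_neg hN)
  have hle : (cuspZero hN).adicValuation (jEl N) ≤ 1 := by
    rw [← sub_add_cancel (jEl N) (algebraMap Qb (FN N) a)]
    exact (Valuation.map_add _ _ _).trans
      (max_le h.1.le (Place.adicValuation_algebraMap_le_one _ a))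
  exact absurd h1 hle.not_gt

/-! ### Galois -/

theorem galois_smul_jEl (σ : Qb ≃ₐ[ℚ] Qb) :
    arithmeticGalois (modularFunctionFieldFull N) σ • jEl N = jEl N := by
  refine Subtype.ext ((coe_arithmeticGalois_smul _ σ (jEl N)).trans ?_)
  rw [coe_jEl]
  exact coeffMap_coeffEmb σ _

theorem galois_smul_jNEl (σ : Qb ≃ₐ[ℚ] Qb) :
    arithmeticGalois (modularFunctionFieldFull N) σ • jNEl N = jNEl N := by
  refine Subtype.ext ((coe_arithmeticGalois_smul _ σ (jNEl N)).trans ?_)
  rw [coe_jNEl]
  exact coeffMap_coeffEmb σ _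

/-- Galois maps a place over a point with fixed coordinates to one over the same point. -/
theorem OverPoint.galois {P : Place Qb (FN N)} {a b : Qb} (h : OverPoint P a b)
    (σ : Qb ≃ₐ[ℚ] Qb) (ha : σ a = a) (hb : σ b = b) :
    OverPoint (arithmeticGalois (modularFunctionFieldFull N) σ • P) a b := by
  set g := arithmeticGalois (modularFunctionFieldFull N) σ
  have key : ∀ (f : FN N) (c : Qb), σ c = c → g • f = f → f - algebraMap Qb (FN N) c ≠ 0 →
      P.adicValuation (f - algebraMap Qb (FN N) c) < 1 →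
      (g • P).adicValuation (f - algebraMap Qb (FN N) c) < 1 := by
    intro f c hc hf hne hlt
    rw [FunctionField.adicValuation_lt_one_iff, or_iff_right hne] at hlt ⊢
    have h1 : g • (f - algebraMap Qb (FN N) c) = f - algebraMap Qb (FN N) c := by
      rw [smul_sub, hf, SemilinearAut.smul_algebraMap, baseAut_arithmeticGalois]
      show f - algebraMap Qb (FN N) (σ c) = _
      rw [hc]
    rw [← h1, SemilinearAut.ord_smul]
    exact hlt
  exact ⟨key _ _ ha (galois_smul_jEl σ) (jEl_sub_ne_zero a) h.1,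
    key _ _ hb (galois_smul_jNEl σ) (jNEl_sub_ne_zero b) h.2⟩

theorem galois_smul_cuspInf (hN : N.Prime) (σ : Qb ≃ₐ[ℚ] Qb) :
    arithmeticGalois (modularFunctionFieldFull N) σ • cuspInf N = cuspInf N := by
  set g := arithmeticGalois (modularFunctionFieldFull N) σ
  have h1 : (g • cuspInf N).ord (jEl N) = -1 := by
    conv_lhs => rw [← galois_smul_jEl σ]
    rw [SemilinearAut.ord_smul, ord_cuspInf_jEl]
  have h2 : (g • cuspInf N).ord (jNEl N) = -(N : ℤ) := by
    conv_lhs => rw [← galois_smul_jNEl σ]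
    rw [SemilinearAut.ord_smul, ord_cuspInf_jNEl]
  refine (eq_cusp_of_ord_neg hN (by rw [h1]; norm_num)).resolve_right fun h => ?_
  rw [h, ord_cuspZero_jNEl hN] at h2
  have := hN.two_le
  omega

/-- `[P] - [∞]`. -/
def pointDiv (P : Place Qb (FN N)) : Divisor.degZero (K := Qb) (F := FN N) :=
  ⟨Finsupp.single P 1 - Finsupp.single (CuspidalC.cuspInfty N) 1, by
    rw [Divisor.mem_degZero, map_sub, Divisor.degree_single, Divisor.degree_single,
      CuspidalC.deg_place, CuspidalC.deg_place, sub_self]⟩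

/-- The class `y = [P - ∞]`. -/
def pointClass (P : Place Qb (FN N)) : JZero N := Pic0.mk (pointDiv P)

/-- A point with rational coordinates and a simple root gives a Galois fixed class. -/
theorem pointClass_fixed (hN : N.Prime) {P : Place Qb (FN N)} {a b : Qb} (h : OverPoint P a b)
    (hd : (phiAt N a).derivative.eval b ≠ 0) (σ : Qb ≃ₐ[ℚ] Qb) (ha : σ a = a) (hb : σ b = b) :
    arithmeticGalois (modularFunctionFieldFull N) σ • P = P ∧
      σ • pointClass P = pointClass P := by
  have hP := (h.galois σ ha hb).unique hN h hd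
  refine ⟨hP, ?_⟩
  rw [galois_smul_pic0_def, pointClass, SemilinearAut.pic0_smul_mk]
  refine congrArg Pic0.mk (Subtype.ext ?_)
  rw [SemilinearAut.coe_degZeroSMulHom]
  show _ • (Finsupp.single P (1 : ℤ) - Finsupp.single (CuspidalC.cuspInfty N) 1) = _
  rw [smul_sub, SemilinearAut.smul_single, SemilinearAut.smul_single, hP, ← cuspInf_eq,
    galois_smul_cuspInf hN, cuspInf_eq]
  rfl

/-! ### Rational coordinates -/

/-- Integers are integral at every valuation subring of `ℚ̄`. -/
theorem valuation_intCast_le_one_base {A : ValuationSubring Qb} (n : ℤ) :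
    A.valuation (n : Qb) ≤ 1 :=
  (A.valuation_le_one_iff _).mpr (intCast_mem A n)

/-- `v_q(b) = N v_q(a) < 0` gives `1 < |a|` and `|b| = |a|^N` at a place over `q`. -/
theorem valuation_of_padicValRat {A : ValuationSubring Qb} {q : ℕ} (hq : q.Prime)
    (hA : A.LiesOverPrime q) {a b : ℚ} (ha : padicValRat q a < 0)
    (hb : padicValRat q b = N * padicValRat q a) :
    1 < A.valuation (a : Qb) ∧ A.valuation (b : Qb) = A.valuation (a : Qb) ^ N := by
  have hne : ∀ {x : ℚ}, padicValRat q x < 0 → x ≠ 0 := fun h h0 => by simp [h0] at h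
  have hN : (0 : ℤ) < N := by exact_mod_cast Nat.pos_of_ne_zero (NeZero.ne N)
  have hq0 : 0 < A.valuation (q : Qb) := zero_lt_iff.mpr
    ((Valuation.ne_zero_iff _).mpr (Nat.cast_ne_zero.mpr hq.ne_zero))
  rw [← eq_ratCast (algebraMap ℚ Qb) a, ← eq_ratCast (algebraMap ℚ Qb) b, val_rat hA hq (hne ha),
    val_rat hA hq (hne (x := b) (by rw [hb]; nlinarith))]
  refine ⟨one_lt_zpow_of_neg₀ hq0 (A.mem_nonunits_iff.mp hA) ha, ?_⟩
  rw [hb, ← zpow_natCast (A.valuation (q : Qb) ^ padicValRat q a), ← zpow_mul, mul_comm]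

/-- The point `x` with `(j, j_N) = (a, b)`, `a, b` rational, `v_q(b) = N v_q(a) < 0` for one
prime `q`: it is unique, Galois fixed, and so is `[x - ∞]`. -/
theorem exists_point (hN : N.Prime) {a b : ℚ} (hroot : (phiAt N (a : Qb)).eval (b : Qb) = 0)
    {q : ℕ} (hq : q.Prime) {A : ValuationSubring Qb} (hA : A.LiesOverPrime q)
    (ha : padicValRat q a < 0) (hb : padicValRat q b = N * padicValRat q a) :
    ∃ P : Place Qb (FN N), OverPoint P (a : Qb) (b : Qb) ∧
      (∀ P', OverPoint P' (a : Qb) (b : Qb) → P' = P) ∧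
      ∀ σ : Qb ≃ₐ[ℚ] Qb, arithmeticGalois (modularFunctionFieldFull N) σ • P = P ∧
        σ • pointClass P = pointClass P := by
  obtain ⟨h1, h2⟩ := valuation_of_padicValRat (N := N) hq hA ha hb
  have hd : (phiAt N (a : Qb)).derivative.eval (b : Qb) ≠ 0 :=
    derivative_eval_ne_zero hN valuation_intCast_le_one_base h1
      (h2 ▸ one_lt_pow₀ h1 (NeZero.ne N)) hroot (Or.inl h2)
  obtain ⟨P, hP⟩ := exists_overPoint hN hroot
  exact ⟨P, hP, fun P' hP' => hP'.unique hN hP hd, fun σ =>
    pointClass_fixed hN hP hd σ (map_ratCast σ a) (map_ratCast σ b)⟩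

end Fermat.Agent.MazurPoint
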