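import Fermat.Agent.FFPlaces.Basic
import Fermat.Agent.FunctionField.PlaceExists
import Mathlib.Algebra.Polynomial.Div

/-!
# Places over a point of a plane model

`F` is generated by `x, y` with `R(x, y) = 0`; if `R(a, b) = 0 ≠ ∂R/∂Y(a, b)` then at most one place
has values `(a, b)` at `(x, y)`; there is one as soon as the point lies on the curve.
-/

set_option autoImplicit false

noncomputable section

open Polynomial AlgebraicCurve

namespace Fermat.Agent.MazurPoint

variable {K F : Type*} [Field K] [Field F] [Algebra K F]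

/-- `p ↦ p(x, y)`. -/
def evalXY (x y : F) : K[X][X] →+* F := Polynomial.eval₂RingHom (Polynomial.aeval x).toRingHom y

/-- `p ↦ p(a, b)`. -/
def evalAB (a b : K) : K[X][X] →+* K := Polynomial.eval₂RingHom (Polynomial.evalRingHom a) b

theorem evalAB_eq (a b : K) (p : K[X][X]) : evalAB a b p = (p.eval (C b)).eval a := by
  induction p using Polynomial.induction_on' with
  | add p q hp hq => simp [map_add, hp, hq]
  | monomial n c => simp [evalAB, Polynomial.eval₂_monomial]

/-- Expansion of a polynomial at `(a, b)`. -/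
theorem exists_decomp (a b : K) (p : K[X][X]) :
    ∃ p₁ : K[X], ∃ p₂ : K[X][X],
      p = (X - C (C b)) * p₂ + C ((X - C a) * p₁) + C (C (evalAB a b p)) := by
  refine ⟨p.eval (C b) /ₘ (X - C a), p /ₘ (X - C (C b)), ?_⟩
  have h1 := Polynomial.modByMonic_add_div p (X - C (C b))
  rw [Polynomial.modByMonic_X_sub_C_eq_C_eval] at h1
  have h2 := Polynomial.modByMonic_add_div (p.eval (C b)) (X - C a)
  rw [Polynomial.modByMonic_X_sub_C_eq_C_eval, ← evalAB_eq] at h2
  rw [add_assoc, ← C_add, add_comm ((X - C a) * _) (C (evalAB a b p)), h2,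
    add_comm]
  exact h1.symm

variable {x y : F} {a b : K} (P : Place K F)

/-- At a place over `(a, b)` the value of `p(x, y)` is `p(a, b)`. -/
theorem evalXY_sub_lt (hx : P.adicValuation (x - algebraMap K F a) < 1)
    (hy : P.adicValuation (y - algebraMap K F b) < 1) (p : K[X][X]) :
    P.adicValuation (evalXY x y p - algebraMap K F (evalAB a b p)) < 1 := by
  have hmem : ∀ (z : F) (c : K), P.adicValuation (z - algebraMap K F c) < 1 →
      z ∈ P.toValuationSubring :=
    fun z c h => by
      simpa using add_mem ((FunctionField.mem_iff_adicValuation_le_one P).mpr h.le)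
        (P.algebraMap_mem' c)
  have hxm := hmem x a hx
  have hym := hmem y b hy
  have hpoly : ∀ q : K[X][X], P.adicValuation (evalXY x y q) ≤ 1 := by
    intro q
    rw [← FunctionField.mem_iff_adicValuation_le_one]
    induction q using Polynomial.induction_on' with
    | add p q hp hq => rw [map_add]; exact add_mem hp hq
    | monomial n c =>
      rw [evalXY, Polynomial.coe_eval₂RingHom, Polynomial.eval₂_monomial]
      refine mul_mem ?_ (pow_mem hym n)
      show Polynomial.aeval x c ∈ _
      rw [Polynomial.aeval_eq_sum_range]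
      exact sum_mem fun i _ => by
        rw [Algebra.smul_def]; exact mul_mem (P.algebraMap_mem' _) (pow_mem hxm i)
  obtain ⟨p₁, p₂, h⟩ := exists_decomp a b p
  generalize hc : evalAB a b p = c at h ⊢
  subst h
  have e : evalXY x y ((X - C (C b)) * p₂ + C ((X - C a) * p₁) + C (C c)) - algebraMap K F c =
      (y - algebraMap K F b) * evalXY x y p₂ + (x - algebraMap K F a) * evalXY x y (C p₁) := by
    simp [evalXY]
  rw [e]
  refine Valuation.map_add_lt _ ?_ ?_ <;> rw [map_mul]
  · exact (mul_le_of_le_one_right' (hpoly _)).trans_lt hy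
  · exact (mul_le_of_le_one_right' (hpoly _)).trans_lt hx

/-- If `p(a, b) ≠ 0` then `p(x, y)` has order `0` at a place over `(a, b)`. -/
theorem ord_evalXY_eq_zero (hx : P.adicValuation (x - algebraMap K F a) < 1)
    (hy : P.adicValuation (y - algebraMap K F b) < 1) {p : K[X][X]} (hp : evalAB a b p ≠ 0) :
    evalXY x y p ≠ 0 ∧ P.ord (evalXY x y p) = 0 := by
  have h := evalXY_sub_lt P hx hy p
  have h1 := FunctionField.adicValuation_algebraMap P hp
  have hv : P.adicValuation (evalXY x y p) = 1 := by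
    rw [← sub_add_cancel (evalXY x y p) (algebraMap K F (evalAB a b p)),
      Valuation.map_add_eq_of_lt_right _ (by rw [h1]; exact h), h1]
  have h0 : evalXY x y p ≠ 0 := fun h0 => by simp [h0] at hv
  exact ⟨h0, (FunctionField.adicValuation_eq_one_iff P h0).mp hv⟩

/-- `p(x, y)` is a power of `x - a` times a unit of the local ring at `(a, b)`. -/
theorem exists_pow_unit {R : K[X][X]} (hR : evalXY x y R = 0) (hRab : evalAB a b R = 0)
    (hd : evalAB a b (derivative R) ≠ 0) (hxa : x - algebraMap K F a ≠ 0)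
    (hx : P.adicValuation (x - algebraMap K F a) < 1)
    (hy : P.adicValuation (y - algebraMap K F b) < 1) (p : K[X][X]) (hp : evalXY x y p ≠ 0) :
    ∃ (k : ℕ) (u h : K[X][X]), evalAB a b u ≠ 0 ∧ evalAB a b h ≠ 0 ∧
      evalXY x y p * evalXY x y h = (x - algebraMap K F a) ^ k * evalXY x y u := by
  obtain ⟨G, H, hGH⟩ := exists_decomp a b R
  rw [hRab, map_zero, map_zero, add_zero] at hGH
  have hH : evalAB a b H ≠ 0 := by
    intro h0
    refine hd ?_
    rw [hGH, derivative_add, derivative_mul, derivative_C, add_zero]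
    simp only [map_add, map_mul, map_sub, derivative_X, derivative_C, sub_zero]
    simp [evalAB] at h0 ⊢
    exact h0
  obtain ⟨n, hn⟩ : ∃ n : ℕ, P.ord (evalXY x y p) ≤ n :=
    ⟨(P.ord (evalXY x y p)).toNat, Int.self_le_toNat _⟩
  induction n generalizing p with
  | zero =>
    refine ⟨0, p, 1, fun h0 => ?_, by simp, by simp⟩
    have := evalXY_sub_lt P hx hy p
    rw [h0, map_zero, sub_zero, FunctionField.adicValuation_lt_one_iff] at this
    have := this.resolve_left hp
    omega
  | succ n ih =>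
    by_cases h0 : evalAB a b p = 0
    swap
    · exact ⟨0, p, 1, h0, by simp, by simp⟩
    obtain ⟨p₁, p₂, hp12⟩ := exists_decomp a b p
    rw [h0, map_zero, map_zero, add_zero] at hp12
    set q := C p₁ * H - C G * p₂ with hq
    have e : evalXY x y p * evalXY x y H = (x - algebraMap K F a) * evalXY x y q := by
      have e1 : evalXY x y ((X - C (C b)) * H) = -evalXY x y (C ((X - C a) * G)) := by
        rw [eq_neg_iff_add_eq_zero, ← map_add, ← hGH, hR]
      simp [evalXY] at e1
      rw [hp12, hq]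
      simp [evalXY]
      linear_combination
        (Polynomial.eval₂ ((Polynomial.aeval x : K[X] →ₐ[K] F) : K[X] →+* F) y p₂) * e1
    have hH0 := ord_evalXY_eq_zero P hx hy hH
    have hq0 : evalXY x y q ≠ 0 := fun h => by
      rw [h, mul_zero] at e
      exact mul_ne_zero hp hH0.1 e
    have hord := congrArg P.ord e
    rw [P.ord_mul hp hH0.1, hH0.2, P.ord_mul hxa hq0, add_zero] at hord
    have hpos : 0 < P.ord (x - algebraMap K F a) :=
      ((FunctionField.adicValuation_lt_one_iff P).mp hx).resolve_left hxa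
    obtain ⟨k, u, h, hu, hh, e2⟩ := ih q hq0 (by push_cast at hn; omega)
    refine ⟨k + 1, u, H * h, hu, by rw [map_mul]; exact mul_ne_zero hH hh, ?_⟩
    rw [map_mul, ← mul_assoc, e, mul_assoc, e2]
    ring

/-- At most one place over a simple point. -/
theorem place_eq_of_simple {R : K[X][X]} (hR : evalXY x y R = 0) (hRab : evalAB a b R = 0)
    (hd : evalAB a b (derivative R) ≠ 0) (hxa : x - algebraMap K F a ≠ 0)
    (hgen : ∀ f : F, ∃ r s : K[X][X], evalXY x y s ≠ 0 ∧ f = evalXY x y r / evalXY x y s)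
    {P Q : Place K F} (hPx : P.adicValuation (x - algebraMap K F a) < 1)
    (hPy : P.adicValuation (y - algebraMap K F b) < 1)
    (hQx : Q.adicValuation (x - algebraMap K F a) < 1)
    (hQy : Q.adicValuation (y - algebraMap K F b) < 1) : P = Q := by
  refine FunctionField.eq_of_le fun f hf => ?_
  rcases eq_or_ne f 0 with rfl | hf0
  · exact zero_mem _
  obtain ⟨r, s, hs, rfl⟩ := hgen f
  have hr : evalXY x y r ≠ 0 := fun h => hf0 (by rw [h, zero_div])
  obtain ⟨k, u, h, hu, hh, e⟩ := exists_pow_unit P hR hRab hd hxa hPx hPy r hr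
  obtain ⟨l, u', h', hu', hh', e'⟩ := exists_pow_unit P hR hRab hd hxa hPx hPy s hs
  have key : ∀ (T : Place K F), T.adicValuation (x - algebraMap K F a) < 1 →
      T.adicValuation (y - algebraMap K F b) < 1 →
      T.ord (evalXY x y r / evalXY x y s) = ((k : ℤ) - l) * T.ord (x - algebraMap K F a) := by
    intro T hTx hTy
    obtain ⟨nu, ou⟩ := ord_evalXY_eq_zero T hTx hTy hu
    obtain ⟨nh, oh⟩ := ord_evalXY_eq_zero T hTx hTy hh
    obtain ⟨nu', ou'⟩ := ord_evalXY_eq_zero T hTx hTy hu'
    obtain ⟨nh', oh'⟩ := ord_evalXY_eq_zero T hTx hTy hh'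
    have o1 := congrArg T.ord e
    have o2 := congrArg T.ord e'
    rw [T.ord_mul hr nh, T.ord_mul (pow_ne_zero _ hxa) nu, FFPlaces.ord_pow] at o1
    rw [T.ord_mul hs nh', T.ord_mul (pow_ne_zero _ hxa) nu', FFPlaces.ord_pow] at o2
    rw [FFPlaces.ord_div T hr hs, sub_mul]
    linarith
  have posP : 0 < P.ord (x - algebraMap K F a) :=
    ((FunctionField.adicValuation_lt_one_iff P).mp hPx).resolve_left hxa
  have posQ : 0 < Q.ord (x - algebraMap K F a) :=
    ((FunctionField.adicValuation_lt_one_iff Q).mp hQx).resolve_left hxa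
  rw [FFPlaces.mem_iff, key P hPx hPy] at hf
  rw [FFPlaces.mem_iff, key Q hQx hQy]
  exact mul_nonneg (nonneg_of_mul_nonneg_left hf posP) posQ.le

/-- A place over a point of the curve. -/
theorem exists_place_of_point [FunctionField.IsFunctionField K F]
    (hker : ∀ p, evalXY x y p = 0 → evalAB a b p = 0) (hxa : x - algebraMap K F a ≠ 0) :
    ∃ P : Place K F, P.adicValuation (x - algebraMap K F a) < 1 ∧
      P.adicValuation (y - algebraMap K F b) < 1 := by
  set φ := evalXY (K := K) x y
  let ψ : φ.range →+* K := φ.rangeRestrict.liftOfSurjective φ.rangeRestrict_surjective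
    ⟨evalAB a b, fun p hp => hker p (congrArg Subtype.val hp)⟩
  have hψ : ∀ p, ψ (φ.rangeRestrict p) = evalAB a b p := fun p =>
    φ.rangeRestrict.liftOfRightInverse_comp_apply _ _ _ p
  let 𝔭 : Ideal φ.range := RingHom.ker ψ
  have h𝔭 : 𝔭.IsPrime := RingHom.ker_isPrime ψ
  obtain ⟨B, hB⟩ := (LocalSubring.ofPrime φ.range 𝔭).exists_le_valuationSubring
  have hle : φ.range ≤ B.toSubring := (LocalSubring.le_ofPrime _ _).trans hB.1
  have hK : ∀ c : K, algebraMap K F c ∈ B := fun c => hle ⟨C (C c), by simp [φ, evalXY]⟩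
  have hnu : ∀ p, evalAB a b p = 0 → ∀ hp : φ p ∈ B, ¬ IsUnit (⟨φ p, hp⟩ : B) := by
    intro p hp0 hp hu
    have hxl : φ p ∈ (LocalSubring.ofPrime φ.range 𝔭).toSubring :=
      LocalSubring.le_ofPrime _ _ ⟨p, rfl⟩
    have h1 : IsUnit (Subring.inclusion hB.1 ⟨φ p, hxl⟩) := hu
    have h3 : IsUnit (algebraMap φ.range
        (LocalSubring.ofPrime φ.range 𝔭).toSubring ⟨φ p, p, rfl⟩) := hB.2.1 _ h1
    rw [IsLocalization.AtPrime.isUnit_to_map_iff _ 𝔭] at h3
    exact h3 (RingHom.mem_ker.mpr ((hψ p).trans hp0))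
  have hX : φ (C X - C (C a)) = x - algebraMap K F a := by simp [φ, evalXY]
  have hY : φ (X - C (C b)) = y - algebraMap K F b := by simp [φ, evalXY]
  have hBtop : B ≠ ⊤ := by
    rintro rfl
    refine hnu _ (by simp [evalAB]) (hle ⟨C X - C (C a), rfl⟩)
      (isUnit_iff_exists_inv.mpr ⟨⟨(φ (C X - C (C a)))⁻¹, ValuationSubring.mem_top _⟩,
        Subtype.ext (mul_inv_cancel₀ (hX.symm ▸ hxa : φ (C X - C (C a)) ≠ 0))⟩)
  refine ⟨FunctionField.placeOfValuationSubring B hK hBtop, ?_, ?_⟩
  · rw [← hX]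
    exact lt_of_le_of_ne (Place.adicValuation_le_one_of_mem _ (hle ⟨_, rfl⟩)) fun h =>
      hnu _ (by simp [evalAB]) (hle ⟨_, rfl⟩)
        ((Place.adicValuation_coe_eq_one_iff _ ⟨_, hle ⟨_, rfl⟩⟩).mp h)
  · rw [← hY]
    exact lt_of_le_of_ne (Place.adicValuation_le_one_of_mem _ (hle ⟨_, rfl⟩)) fun h =>
      hnu _ (by simp [evalAB]) (hle ⟨_, rfl⟩)
        ((Place.adicValuation_coe_eq_one_iff _ ⟨_, hle ⟨_, rfl⟩⟩).mp h)

end Fermat.Agent.MazurPoint
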