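import Fermat.Agent.MazurPoint.PhiShape
import Mathlib.NumberTheory.Padics.PadicVal.Basic
import Mathlib.NumberTheory.Padics.PadicNumbers

/-!
# Roots of `Φ_N(a, Y)` when `a` is near infinity

`N` prime, `v` a valuation of a field `K`, bounded by `1` on integers, `1 < v a`, `1 < v b`.
A root `b` has `v b = v a ^ N` or `v a = v b ^ N`; it is simple in the first case, and in the second
case if `v N = 1`; there is at most one root of the first kind.
-/

set_option autoImplicit false

noncomputable section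

open ModularCurve Fermat.Agent.ModularFunctionField
open scoped Polynomial

namespace Fermat.Agent.MazurPoint

variable {N : ℕ} [NeZero N] {K : Type*} [Field K]

/-- `Φ_N(a, Y)`. -/
def phiAt (N : ℕ) [NeZero N] (a : K) : K[X] :=
  (modularPoly N).map (Polynomial.eval₂RingHom (Int.castRingHom K) a)

/-- `cᵢ(a)`, the coefficient of `Yⁱ` in `Φ_N(a, Y)`. -/
def phiCoeff (N : ℕ) [NeZero N] (a : K) (i : ℕ) : K :=
  ((modularPoly N).coeff i).eval₂ (Int.castRingHom K) a

theorem coeff_phiAt (a : K) (i : ℕ) : (phiAt N a).coeff i = phiCoeff N a i := by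
  simp [phiAt, phiCoeff]

section Valuation

variable {Γ₀ : Type*} [LinearOrderedCommGroupWithZero Γ₀] {v : Valuation K Γ₀}

/-- A valuation bounded by `1` on integers is so on natural numbers. -/
theorem valuation_natCast_le_one (hv : ∀ n : ℤ, v (n : K) ≤ 1) (n : ℕ) : v (n : K) ≤ 1 := by
  simpa using hv n

/-- An integral polynomial of degree at most `D` at a large argument. -/
theorem valuation_eval_le (hv : ∀ n : ℤ, v (n : K) ≤ 1) {a : K} (ha : 1 < v a) (p : ℤ[X]) {D : ℕ}
    (hD : p.natDegree ≤ D) : v (p.eval₂ (Int.castRingHom K) a) ≤ v a ^ D := by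
  rw [Polynomial.eval₂_eq_sum_range' _ (n := D + 1) (by omega)]
  refine v.map_sum_le fun i hi => ?_
  rw [Finset.mem_range] at hi
  rw [eq_intCast, map_mul, map_pow]
  exact (mul_le_of_le_one_left' (hv _)).trans (pow_le_pow_right₀ ha.le (by omega))

/-- An integral polynomial of degree at most `D` with unit `D`-th coefficient, at a large
argument, has size `v a ^ D`. -/
theorem valuation_eval_eq (hv : ∀ n : ℤ, v (n : K) ≤ 1) {a : K} (ha : 1 < v a) (p : ℤ[X]) {D : ℕ}
    (hD : p.natDegree ≤ D) (hlead : v (p.coeff D : K) = 1) :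
    v (p.eval₂ (Int.castRingHom K) a) = v a ^ D := by
  rw [Polynomial.eval₂_eq_sum_range' _ (n := D + 1) (by omega), Finset.sum_range_succ]
  have hlast : v ((Int.castRingHom K) (p.coeff D) * a ^ D) = v a ^ D := by
    rw [eq_intCast, map_mul, map_pow, hlead, one_mul]
  rw [v.map_add_eq_of_lt_right, hlast]
  rw [hlast]
  refine v.map_sum_lt (pow_ne_zero _ (ne_zero_of_lt ha)) fun i hi => ?_
  rw [Finset.mem_range] at hi
  rw [eq_intCast, map_mul, map_pow]
  exact (mul_le_of_le_one_left' (hv _)).trans_lt (pow_lt_pow_right₀ ha hi)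

variable (hN : N.Prime) (hv : ∀ n : ℤ, v (n : K) ≤ 1) {a b : K} (ha : 1 < v a)
include hN hv ha

omit hv ha in
theorem phiAt_natDegree : (phiAt N a).natDegree = N + 1 := by
  rw [phiAt, (modularPoly_monic N).natDegree_map, modularPoly_natDegree_prime hN]

omit hv ha in
theorem phiCoeff_succ : phiCoeff N a (N + 1) = 1 := by
  rw [phiCoeff, coeff_modularPoly_succ hN, Polynomial.eval₂_one]

/-- The constant coefficient `c₀(a)` has size `v a ^ (N + 1)`. -/
theorem valuation_phiCoeff_zero : v (phiCoeff N a 0) = v a ^ (N + 1) := by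
  obtain ⟨h1, h2, -, -⟩ := modularPoly_shape hN
  exact valuation_eval_eq hv ha _ h1 (by rw [h2, Int.cast_one, map_one])

/-- The other coefficients have size at most `v a ^ N`. -/
theorem valuation_phiCoeff_le {i : ℕ} (h1 : 1 ≤ i) (h2 : i ≤ N) :
    v (phiCoeff N a i) ≤ v a ^ N := by
  obtain ⟨-, -, h, -⟩ := modularPoly_shape hN
  exact valuation_eval_le hv ha _ (h i h1 h2)

/-- The coefficient `c_N(a)` has size exactly `v a ^ N`. -/
theorem valuation_phiCoeff_N : v (phiCoeff N a N) = v a ^ N := by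
  obtain ⟨-, -, h, h'⟩ := modularPoly_shape hN
  exact valuation_eval_eq hv ha _ (h N (by have := hN.two_le; omega) le_rfl)
    (by rw [h', Int.cast_neg, Int.cast_one, Valuation.map_neg, map_one])

omit hv ha in
/-- The equation `Φ_N(a, b) = 0` with its extreme terms separated. -/
theorem root_eq_sum (hroot : (phiAt N a).eval b = 0) :
    phiCoeff N a 0 + (∑ i ∈ Finset.Ico 1 N, phiCoeff N a i * b ^ i) + phiCoeff N a N * b ^ N +
      b ^ (N + 1) = 0 := by
  rw [Polynomial.eval_eq_sum_range, phiAt_natDegree hN, Finset.sum_range_succ,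
    Finset.sum_range_succ, Finset.range_eq_Ico,
    Finset.sum_eq_sum_Ico_succ_bot (Nat.pos_of_ne_zero (NeZero.ne N))] at hroot
  simp only [coeff_phiAt, phiCoeff_succ hN, pow_zero, mul_one, one_mul] at hroot
  linear_combination hroot

/-- The middle terms are negligible against `v a ^ N * v b ^ N`. -/
theorem valuation_mid_lt (hb : 1 < v b) :
    v (∑ i ∈ Finset.Ico 1 N, phiCoeff N a i * b ^ i) < v a ^ N * v b ^ N := by
  refine v.map_sum_lt (mul_ne_zero (pow_ne_zero _ (ne_zero_of_lt ha))
    (pow_ne_zero _ (ne_zero_of_lt hb))) fun i hi => ?_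
  rw [Finset.mem_Ico] at hi
  rw [map_mul, map_pow]
  calc v (phiCoeff N a i) * v b ^ i ≤ v a ^ N * v b ^ i :=
        mul_le_mul_left (valuation_phiCoeff_le hN hv ha hi.1 hi.2.le) _
    _ < v a ^ N * v b ^ N := by
        exact mul_lt_mul_of_pos_left (pow_lt_pow_right₀ hb hi.2)
          (pow_pos (zero_lt_one.trans ha) _)

/-- The two slopes. -/
theorem valuation_root (hb : 1 < v b) (hroot : (phiAt N a).eval b = 0) :
    v b = v a ^ N ∨ v a = v b ^ N := by
  have hA : 0 < v a := zero_lt_one.trans ha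
  have hB : 0 < v b := zero_lt_one.trans hb
  have e := root_eq_sum hN hroot
  have hmid := valuation_mid_lt hN hv ha hb
  have hcN : v (phiCoeff N a N * b ^ N) = v a ^ N * v b ^ N := by
    rw [map_mul, map_pow, valuation_phiCoeff_N hN hv ha]
  by_contra hcon
  push Not at hcon
  obtain ⟨h1, h2⟩ := hcon
  rcases lt_or_gt_of_ne h1 with hlt | hgt
  · rcases lt_or_gt_of_ne h2 with hlt' | hgt'
    · -- `c_N b^N` dominates
      have t0 : v (phiCoeff N a 0) < v a ^ N * v b ^ N := by
        rw [valuation_phiCoeff_zero hN hv ha, pow_succ]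
        exact mul_lt_mul_of_pos_left hlt' (pow_pos hA _)
      have t1 : v (b ^ (N + 1)) < v a ^ N * v b ^ N := by
        rw [map_pow, pow_succ']
        exact mul_lt_mul_of_pos_right hlt (pow_pos hB _)
      have : phiCoeff N a N * b ^ N =
          -(phiCoeff N a 0 + (∑ i ∈ Finset.Ico 1 N, phiCoeff N a i * b ^ i) + b ^ (N + 1)) := by
        linear_combination e
      rw [this, Valuation.map_neg] at hcN
      exact (v.map_add_lt (v.map_add_lt t0 hmid) t1).ne hcN
    · -- `c₀` dominates
      have t0 : v a ^ N * v b ^ N < v a ^ (N + 1) := by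
        rw [pow_succ]; exact mul_lt_mul_of_pos_left hgt' (pow_pos hA _)
      have t1 : v (b ^ (N + 1)) < v a ^ (N + 1) := by
        rw [map_pow, pow_succ']
        exact (mul_lt_mul_of_pos_right hlt (pow_pos hB _)).trans t0
      have h0 := valuation_phiCoeff_zero hN hv ha
      rw [show phiCoeff N a 0 = -((∑ i ∈ Finset.Ico 1 N, phiCoeff N a i * b ^ i) +
          phiCoeff N a N * b ^ N + b ^ (N + 1)) by linear_combination e, Valuation.map_neg] at h0
      exact (v.map_add_lt (v.map_add_lt (hmid.trans t0) (hcN.trans_lt t0)) t1).ne h0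
  · -- `b^(N+1)` dominates
    have hab : v a < v b := by
      refine lt_of_le_of_lt ?_ hgt
      conv_lhs => rw [← pow_one (v a)]
      exact pow_le_pow_right₀ ha.le (Nat.pos_of_ne_zero (NeZero.ne N))
    have t1 : v a ^ N * v b ^ N < v (b ^ (N + 1)) := by
      rw [map_pow, pow_succ']
      exact mul_lt_mul_of_pos_right hgt (pow_pos hB _)
    have t0 : v (phiCoeff N a 0) < v (b ^ (N + 1)) := by
      rw [valuation_phiCoeff_zero hN hv ha, map_pow]
      exact pow_lt_pow_left₀ hab hA.le (by omega)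
    have e' : b ^ (N + 1) = -(phiCoeff N a 0 + (∑ i ∈ Finset.Ico 1 N, phiCoeff N a i * b ^ i) +
        phiCoeff N a N * b ^ N) := by linear_combination e
    have hlt' := v.map_add_lt (v.map_add_lt t0 (hmid.trans t1)) (hcN.trans_lt t1)
    rw [e', Valuation.map_neg] at hlt'
    exact lt_irrefl _ hlt'

omit ha in
/-- Sums `∑ cᵢ Sᵢ` with `Sᵢ ≈ i b^(i-1)` do not vanish at a root of either slope. -/
theorem diffQuot_ne_zero (ha : 1 < v a) (hb : 1 < v b) (hroot : (phiAt N a).eval b = 0)
    (hslope : v b = v a ^ N ∨ v a = v b ^ N ∧ v (N : K) = 1) (S : ℕ → K)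
    (hS : ∀ i, 1 ≤ i → i ≤ N + 1 → v (S i - i * b ^ (i - 1)) < v b ^ (i - 1)) :
    (∑ i ∈ Finset.Ico 1 (N + 2), phiCoeff N a i * S i) ≠ 0 := by
  intro hzero
  obtain ⟨M, hM⟩ : ∃ M, N = M + 1 := ⟨N - 1, by have := hN.two_le; omega⟩
  have hA : 0 < v a := zero_lt_one.trans ha
  have hB : 0 < v b := zero_lt_one.trans hb
  have hSle : ∀ i, 1 ≤ i → i ≤ N + 1 → v (S i) ≤ v b ^ (i - 1) := fun i h1 h2 => by
    rw [show S i = (S i - i * b ^ (i - 1)) + i * b ^ (i - 1) by ring]
    refine v.map_add_le (hS i h1 h2).le ?_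
    rw [map_mul, map_pow]
    exact mul_le_of_le_one_left' (valuation_natCast_le_one hv i)
  rw [Finset.sum_Ico_succ_top (by omega : 1 ≤ N + 1), Finset.sum_Ico_succ_top (by omega : 1 ≤ N),
    phiCoeff_succ hN, one_mul] at hzero
  set T := v a ^ N * v b ^ M with hT
  have hmid : v (∑ i ∈ Finset.Ico 1 N, phiCoeff N a i * S i) < T := by
    refine v.map_sum_lt (mul_ne_zero (pow_ne_zero _ hA.ne') (pow_ne_zero _ hB.ne')) fun i hi => ?_
    rw [Finset.mem_Ico] at hi
    rw [map_mul]
    calc v (phiCoeff N a i) * v (S i) ≤ v a ^ N * v b ^ (i - 1) :=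
          mul_le_mul' (valuation_phiCoeff_le hN hv ha hi.1 hi.2.le) (hSle i hi.1 (by omega))
      _ < T := mul_lt_mul_of_pos_left (pow_lt_pow_right₀ hb (by omega)) (pow_pos hA _)
  have eN : v (phiCoeff N a N * S N - phiCoeff N a N * ((N : K) * b ^ M)) < T := by
    rw [← mul_sub, map_mul, valuation_phiCoeff_N hN hv ha]
    refine mul_lt_mul_of_pos_left ?_ (pow_pos hA _)
    simpa [hM] using hS N (by omega) (by omega)
  have e1 : v (S (N + 1) - ((N : K) + 1) * b ^ N) < v b ^ N := by
    simpa using hS (N + 1) (by omega) le_rfl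
  rcases hslope with hs | ⟨hs, hNu⟩
  · -- slope `N`
    have hT' : T = v b ^ N := by rw [hT, ← hs, hM, pow_succ']
    have hkey : v (b ^ N * (b + phiCoeff N a N)) < v b ^ (N + 1) := by
      rw [show b ^ N * (b + phiCoeff N a N) =
          -(phiCoeff N a 0 + ∑ i ∈ Finset.Ico 1 N, phiCoeff N a i * b ^ i) by
        linear_combination root_eq_sum hN hroot, Valuation.map_neg]
      refine v.map_add_lt ?_ ?_
      · rw [valuation_phiCoeff_zero hN hv ha]
        refine pow_lt_pow_left₀ ?_ hA.le (by omega)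
        rw [hs]
        conv_lhs => rw [← pow_one (v a)]
        exact pow_lt_pow_right₀ ha hN.one_lt
      · rw [pow_succ']
        exact (valuation_mid_lt hN hv ha hb).trans_le (by rw [hs])
    have hbc : v (b + phiCoeff N a N) < v b := by
      rw [map_mul, map_pow, pow_succ] at hkey
      exact lt_of_mul_lt_mul_left hkey zero_le
    have hmain : v (b ^ N) = v b ^ N := map_pow _ _ _
    refine lt_irrefl (v b ^ N) ?_
    conv_lhs => rw [← hmain]
    rw [show b ^ N = -((∑ i ∈ Finset.Ico 1 N, phiCoeff N a i * S i) +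
        (phiCoeff N a N * S N - phiCoeff N a N * ((N : K) * b ^ M)) +
        (S (N + 1) - ((N : K) + 1) * b ^ N) + (N : K) * b ^ M * (b + phiCoeff N a N)) by
      have hb' : b ^ N = b ^ M * b := by rw [hM, pow_succ]
      linear_combination hzero - (N : K) * hb', Valuation.map_neg]
    refine v.map_add_lt (v.map_add_lt (v.map_add_lt (hT' ▸ hmid) (hT' ▸ eN)) e1) ?_
    rw [map_mul, map_mul, map_pow]
    calc v (N : K) * v b ^ M * v (b + phiCoeff N a N) ≤ v b ^ M * v (b + phiCoeff N a N) :=
          mul_le_mul_left (mul_le_of_le_one_left' (valuation_natCast_le_one hv N)) _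
      _ < v b ^ M * v b := mul_lt_mul_of_pos_left hbc (pow_pos hB _)
      _ = v b ^ N := by rw [hM, pow_succ]
  · -- slope `1/N`
    have hlt : v b ^ N < T := by
      rw [hT, ← one_mul (v b ^ N), hs, hM, ← pow_mul, pow_succ' (v b) M, ← mul_assoc, one_mul]
      refine mul_lt_mul_of_pos_right ?_ (pow_pos hB _)
      conv_lhs => rw [← pow_one (v b)]
      exact pow_lt_pow_right₀ hb (by nlinarith [hN.two_le])
    have hmain : v (phiCoeff N a N * ((N : K) * b ^ M)) = T := by
      rw [map_mul, map_mul, map_pow, valuation_phiCoeff_N hN hv ha, hNu, one_mul]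
    refine lt_irrefl T ?_
    conv_lhs => rw [← hmain]
    rw [show phiCoeff N a N * ((N : K) * b ^ M) = -((∑ i ∈ Finset.Ico 1 N, phiCoeff N a i * S i) +
        (phiCoeff N a N * S N - phiCoeff N a N * ((N : K) * b ^ M)) + S (N + 1)) by
      linear_combination hzero, Valuation.map_neg]
    exact v.map_add_lt (v.map_add_lt hmid eN) ((hSle (N + 1) (by omega) le_rfl).trans_lt hlt)

/-- Simple root. -/
theorem derivative_eval_ne_zero (hb : 1 < v b) (hroot : (phiAt N a).eval b = 0)
    (hslope : v b = v a ^ N ∨ v a = v b ^ N ∧ v (N : K) = 1) :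
    (phiAt N a).derivative.eval b ≠ 0 := by
  have h := diffQuot_ne_zero hN hv ha hb hroot hslope (fun i => i * b ^ (i - 1))
    (fun i _ _ => by simpa using pow_pos (zero_lt_one.trans hb) _)
  refine fun h0 => h ?_
  rw [Polynomial.derivative_eval,
    Polynomial.sum_over_range' _ (by simp) (N + 2) (by rw [phiAt_natDegree hN]; omega),
    Finset.range_eq_Ico, Finset.sum_eq_sum_Ico_succ_bot (by omega)] at h0
  simp only [coeff_phiAt, Nat.cast_zero, mul_zero, zero_mul, zero_add] at h0
  rw [← h0]
  exact Finset.sum_congr rfl fun i _ => by ring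

/-- At most one root of slope `N`. -/
theorem root_unique {b' : K} (hb : v b = v a ^ N) (hb' : v b' = v a ^ N)
    (hroot : (phiAt N a).eval b = 0) (hroot' : (phiAt N a).eval b' = 0) : b = b' := by
  have hA : 0 < v a := zero_lt_one.trans ha
  have h1 : ∀ x : K, v x = v a ^ N → (phiAt N a).eval x = 0 →
      v (x + phiCoeff N a N) < v a ^ N := by
    intro x hx hr
    have hx1 : 1 < v x := hx ▸ one_lt_pow₀ ha (NeZero.ne N)
    have hkey : v (x ^ N * (x + phiCoeff N a N)) < v x ^ (N + 1) := by
      rw [show x ^ N * (x + phiCoeff N a N) =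
          -(phiCoeff N a 0 + ∑ i ∈ Finset.Ico 1 N, phiCoeff N a i * x ^ i) by
        linear_combination root_eq_sum hN hr, Valuation.map_neg]
      refine v.map_add_lt ?_ ?_
      · rw [valuation_phiCoeff_zero hN hv ha]
        refine pow_lt_pow_left₀ ?_ hA.le (by omega)
        rw [hx]
        conv_lhs => rw [← pow_one (v a)]
        exact pow_lt_pow_right₀ ha hN.one_lt
      · rw [pow_succ']
        exact (valuation_mid_lt hN hv ha hx1).trans_le (by rw [hx])
    rw [map_mul, map_pow, pow_succ] at hkey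
    exact (lt_of_mul_lt_mul_left hkey zero_le).trans_le hx.le
  have hd : v (b' - b) < v b := by
    rw [show b' - b = (b' + phiCoeff N a N) - (b + phiCoeff N a N) by ring, hb]
    exact v.map_sub_lt (h1 b' hb' hroot') (h1 b hb hroot)
  by_contra hne
  have hb1 : 1 < v b := hb ▸ one_lt_pow₀ ha (NeZero.ne N)
  refine diffQuot_ne_zero hN hv ha hb1 hroot (Or.inl hb)
    (fun i => ∑ j ∈ Finset.range i, b' ^ j * b ^ (i - 1 - j)) ?_ ?_
  · intro i hi _
    have : (i : K) * b ^ (i - 1) = ∑ j ∈ Finset.range i, b ^ j * b ^ (i - 1 - j) := by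
      rw [Finset.sum_congr rfl (g := fun _ => b ^ (i - 1)) fun j hj => by
        rw [← pow_add]; congr 1; rw [Finset.mem_range] at hj; omega]
      simp
    show v ((∑ j ∈ Finset.range i, b' ^ j * b ^ (i - 1 - j)) - _) < _
    rw [this, ← Finset.sum_sub_distrib]
    refine v.map_sum_lt (pow_ne_zero _ (ne_zero_of_lt hb1)) fun j hj => ?_
    rw [Finset.mem_range] at hj
    rw [← sub_mul, map_mul, map_pow,
      show v b ^ (i - 1) = v b ^ j * v b ^ (i - 1 - j) by rw [← pow_add]; congr 1; omega]
    refine mul_lt_mul_of_pos_right ?_ (pow_pos (zero_lt_one.trans hb1) _)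
    rcases j with _ | j
    · simp
    · rw [← geom_sum₂_mul b' b (j + 1), map_mul, pow_succ]
      refine lt_of_le_of_lt (mul_le_mul_left ?_ _) (mul_lt_mul_of_pos_left hd
        (pow_pos (zero_lt_one.trans hb1) _))
      refine v.map_sum_le fun k hk => ?_
      rw [Finset.mem_range] at hk
      rw [map_mul, map_pow, map_pow, hb', ← hb, ← pow_add]
      exact le_of_eq (by congr 1; omega)
  · refine mul_right_cancel₀ (sub_ne_zero.mpr (Ne.symm hne)) ?_
    rw [zero_mul, Finset.sum_mul]
    simp only [mul_assoc, geom_sum₂_mul]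
    simp only [mul_sub, Finset.sum_sub_distrib]
    have e := root_eq_sum hN hroot
    have e' := root_eq_sum hN hroot'
    have h1N := hN.one_le
    rw [Finset.sum_Ico_succ_top (by omega : 1 ≤ N + 1), Finset.sum_Ico_succ_top (by omega : 1 ≤ N),
      Finset.sum_Ico_succ_top (by omega : 1 ≤ N + 1), Finset.sum_Ico_succ_top (by omega : 1 ≤ N),
      phiCoeff_succ hN, one_mul, one_mul]
    linear_combination e' - e

end Valuation

/-- The polygon lemma over `ℚ`. -/
theorem padicValRat_or_of_root (hN : N.Prime) {q : ℕ} [Fact q.Prime] {a b : ℚ}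
    (hroot : (phiAt N a).eval b = 0) (ha : padicValRat q a < 0) (hb : padicValRat q b < 0) :
    padicValRat q b = N * padicValRat q a ∨ padicValRat q a = N * padicValRat q b := by
  set v : Valuation ℚ (WithZero (Multiplicative ℤ)) := Rat.padicValuation q
  have hv : ∀ x : ℚ, x ≠ 0 → v x = WithZero.exp (-padicValRat q x) := fun x hx => if_neg hx
  have hne : ∀ {x : ℚ}, padicValRat q x < 0 → x ≠ 0 := fun h h0 => by simp [h0] at h
  have h1 : ∀ {x : ℚ}, padicValRat q x < 0 → 1 < v x := fun {x} h => by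
    rw [hv _ (hne h), ← WithZero.exp_zero, WithZero.exp_lt_exp]; omega
  have := valuation_root (v := v) hN (fun n => by
    rcases eq_or_ne n 0 with rfl | hn
    · simp
    · rw [hv _ (by exact_mod_cast hn), ← WithZero.exp_zero, WithZero.exp_le_exp, padicValRat.of_int]
      omega) (h1 ha) (h1 hb) hroot
  rw [hv _ (hne ha), hv _ (hne hb), ← WithZero.exp_nsmul, ← WithZero.exp_nsmul, WithZero.exp_inj,
    WithZero.exp_inj, nsmul_eq_mul, nsmul_eq_mul] at this
  rcases this with h | h
  · left; linarith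
  · right; linarith

end Fermat.Agent.MazurPoint
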