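import Fermat.Agent.OrdinaryCurve.CurveDisc
import Fermat.Agent.MazurPoint.PlaceUnique
import Fermat.Agent.MazurPoint.Polygon

/-!
# The parameter of a point close to the cusp `∞`

`K` complete nonarchimedean, `N` prime, `1 < |a|`, `|b| = |a|^N`, `Φ_N(a, b) = 0`: there is a
point `Y` of the open unit disc with `(1/j)(Y) = 1/a` (defined over any closed subfield containing
`a`), and the place at `Y` is the place over `(j, j_N) = (a, b)`.
-/

set_option autoImplicit false

noncomputable section

open PowerSeries AlgebraicCurve ModularCurve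
open Fermat.Agent.OrdinaryCurve Fermat.Agent.FunctionField

namespace Fermat.Agent.MazurPoint

variable {K : Type*} [NormedField K] [IsUltrametricDist K] [CompleteSpace K]

section Inverse

/-- A series `c₂ X² + …` contracts small discs. -/
theorem norm_evBdd_sub_le (r : boundedSeries K) (h1 : coeff 1 (r : K⟦X⟧) = 0)
    (hle : ∀ l, ‖coeff l (r : K⟦X⟧)‖ ≤ 1) (x y : DiscPoint K) :
    ‖evBdd x r - evBdd y r‖ ≤ ‖x.val - y.val‖ * max ‖x.val‖ ‖y.val‖ := by
  set q : boundedSeries K := ⟨divX y (r : K⟦X⟧), divX_mem y r.2⟩ with hq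
  have e : r = ⟨X - C y.val, X_sub_C_mem_boundedSeries y.val⟩ * q +
      ⟨C (evBdd y r), C_mem_boundedSeries _⟩ := Subtype.ext (eq_mul_divX y r)
  have hb : ∀ l, ‖coeff l (q : K⟦X⟧)‖ ≤ 1 := divX_bound y hle
  have hev : ‖evBdd x q‖ ≤ max ‖x.val‖ ‖y.val‖ := by
    have h0 := tsum_coeff_succ x q.2 0
    simp only [zero_add] at h0
    rw [evBdd_apply, h0]
    refine (IsUltrametricDist.norm_add_le_max _ _).trans (max_le ?_ ?_)
    · refine le_max_of_le_right ?_
      rw [hq, Subtype.coe_mk, divX, coeff_mk]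
      refine IsUltrametricDist.norm_tsum_le_of_forall_le_of_nonneg (norm_nonneg _) fun n => ?_
      rcases n with _ | n
      · simp [h1]
      · rw [norm_mul, norm_pow, pow_succ]
        exact (mul_le_mul (hle _) (mul_le_of_le_one_left (norm_nonneg _)
          (pow_le_one₀ (norm_nonneg _) y.norm_lt.le)) (by positivity) zero_le_one).trans
          (one_mul _).le
    · refine le_max_of_le_left ?_
      rw [norm_mul]
      refine mul_le_of_le_one_right (norm_nonneg _) ?_
      refine IsUltrametricDist.norm_tsum_le_of_forall_le_of_nonneg zero_le_one fun n => ?_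
      rw [norm_mul, norm_pow]
      exact mul_le_one₀ (hb _) (pow_nonneg (norm_nonneg _) _)
        (pow_le_one₀ (norm_nonneg _) x.norm_lt.le)
  have hx : evBdd x r = (x.val - y.val) * evBdd x q + evBdd y r := by
    conv_lhs => rw [e]
    rw [map_add, map_mul, evBdd_X_sub_C, evBdd_C]
  rw [hx, add_sub_cancel_right, norm_mul]
  exact mul_le_mul_of_nonneg_left hev (norm_nonneg _)

theorem evBdd_of_val_zero (r : boundedSeries K) (h0 : constantCoeff (r : K⟦X⟧) = 0)
    {z : DiscPoint K} (hz : z.val = 0) : evBdd z r = 0 := by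
  rw [evBdd_apply]
  refine (tsum_congr fun n => ?_).trans tsum_zero
  rcases n with _ | n
  · simp [coeff_zero_eq_constantCoeff_apply, h0]
  · rw [hz, zero_pow (Nat.succ_ne_zero n), mul_zero]

variable (r : boundedSeries K) (h0 : constantCoeff (r : K⟦X⟧) = 0)
  (h1 : coeff 1 (r : K⟦X⟧) = 1) (hle : ∀ l, ‖coeff l (r : K⟦X⟧)‖ ≤ 1)

/-- `r - X`. -/
def tailSeries : boundedSeries K := r - ⟨X, X_mem_boundedSeries⟩

theorem evBdd_eq_add_tail (x : DiscPoint K) : evBdd x r = x.val + evBdd x (tailSeries r) := by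
  rw [tailSeries, map_sub, evBdd_X]
  ring

include h1 in
omit [CompleteSpace K] in
theorem coeff_one_tail : coeff 1 (tailSeries r : K⟦X⟧) = 0 := by
  simp [tailSeries, h1]

include h0 in
omit [CompleteSpace K] in
theorem constantCoeff_tail : constantCoeff (tailSeries r : K⟦X⟧) = 0 := by
  simp [tailSeries, h0]

include hle in
omit [CompleteSpace K] in
theorem norm_coeff_tail_le (l : ℕ) : ‖coeff l (tailSeries r : K⟦X⟧)‖ ≤ 1 := by
  rw [tailSeries, AddSubgroupClass.coe_sub, map_sub, sub_eq_add_neg]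
  refine (IsUltrametricDist.norm_add_le_max _ _).trans (max_le (hle l) ?_)
  rw [norm_neg, Subtype.coe_mk, coeff_X]
  split_ifs <;> simp

include h1 hle in
theorem norm_evBdd_tail_sub_le (x y : DiscPoint K) :
    ‖evBdd x (tailSeries r) - evBdd y (tailSeries r)‖ ≤
      ‖x.val - y.val‖ * max ‖x.val‖ ‖y.val‖ :=
  norm_evBdd_sub_le _ (coeff_one_tail r h1) (norm_coeff_tail_le r hle) x y

include h0 h1 hle in
theorem norm_evBdd_tail_le (x : DiscPoint K) :
    ‖evBdd x (tailSeries r)‖ ≤ ‖x.val‖ * ‖x.val‖ := by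
  have h := norm_evBdd_tail_sub_le r h1 hle x ⟨0, by simp⟩
  rw [evBdd_of_val_zero (tailSeries r) (constantCoeff_tail r h0) (z := ⟨0, by simp⟩) rfl,
    sub_zero] at h
  simpa using h

include h0 h1 hle in
/-- `|r(x)| = |x|`. -/
theorem norm_evBdd_eq (x : DiscPoint K) : ‖evBdd x r‖ = ‖x.val‖ := by
  rw [evBdd_eq_add_tail]
  rcases eq_or_ne x.val 0 with hx | hx
  · rw [evBdd_of_val_zero (tailSeries r) (constantCoeff_tail r h0) hx, add_zero]
  · have hlt : ‖evBdd x (tailSeries r)‖ < ‖x.val‖ :=
      (norm_evBdd_tail_le r h0 h1 hle x).trans_lt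
        (mul_lt_of_lt_one_left (norm_pos_iff.mpr hx) x.norm_lt)
    rw [IsUltrametricDist.norm_add_eq_max_of_norm_ne_norm hlt.ne', max_eq_left hlt.le]

variable (S : Subfield K) (hS : IsClosed (S : Set K))

include hS in
theorem evBdd_mem_subfield (s : boundedSeries K) (hs : ∀ l, coeff l (s : K⟦X⟧) ∈ S)
    {x : DiscPoint K} (hx : x.val ∈ S) : evBdd x s ∈ S := by
  rw [evBdd_apply]
  have hsum : Summable fun n => coeff n (s : K⟦X⟧) * x.val ^ n := by
    simpa using summable_bdd x s.2 0
  exact hS.mem_of_tendsto hsum.hasSum.tendsto_sum_nat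
    (Filter.Eventually.of_forall fun n => sum_mem fun l _ => mul_mem (hs l) (pow_mem hx l))

include h0 h1 hle hS in
/-- The inverse of a series `X + …` on the open disc, over a closed subfield. -/
theorem exists_evBdd_eq (hrS : ∀ l, coeff l (r : K⟦X⟧) ∈ S) {t : K} (ht : ‖t‖ < 1) (htS : t ∈ S) :
    ∃ Y : DiscPoint K, ‖Y.val‖ = ‖t‖ ∧ Y.val ∈ S ∧ evBdd Y r = t := by
  set B : Set K := {y | ‖y‖ ≤ ‖t‖} ∩ (S : Set K) with hB
  have hBc : IsClosed B := (isClosed_le continuous_norm continuous_const).inter hS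
  have : CompleteSpace B := hBc.completeSpace_coe
  have : Nonempty B := ⟨⟨t, Set.mem_inter (le_refl ‖t‖) htS⟩⟩
  let pt : B → DiscPoint K := fun y => ⟨(y : K), lt_of_le_of_lt y.2.1 ht⟩
  have hmem : ∀ y : B, t - evBdd (pt y) (tailSeries r) ∈ B := by
    intro y
    refine ⟨?_, S.sub_mem htS (evBdd_mem_subfield S hS _ (fun l => ?_) y.2.2)⟩
    · show ‖t - _‖ ≤ ‖t‖
      rw [sub_eq_add_neg]
      refine (IsUltrametricDist.norm_add_le_max _ _).trans (max_le le_rfl ?_)
      rw [norm_neg]
      refine (norm_evBdd_tail_le r h0 h1 hle (pt y)).trans ?_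
      exact (mul_le_of_le_one_left (norm_nonneg _) (pt y).norm_lt.le).trans y.2.1
    · rw [tailSeries, AddSubgroupClass.coe_sub, map_sub, Subtype.coe_mk, coeff_X]
      refine S.sub_mem (hrS l) ?_
      split_ifs
      · exact S.one_mem
      · exact S.zero_mem
  let φ : B → B := fun y => ⟨_, hmem y⟩
  have hφ : ContractingWith ⟨‖t‖, norm_nonneg _⟩ φ := by
    refine ⟨ht, LipschitzWith.of_dist_le_mul fun y z => ?_⟩
    rw [Subtype.dist_eq, Subtype.dist_eq, dist_eq_norm, dist_eq_norm]
    show ‖t - evBdd (pt y) (tailSeries r) - (t - evBdd (pt z) (tailSeries r))‖ ≤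
      ‖t‖ * ‖(y : K) - z‖
    rw [show t - evBdd (pt y) (tailSeries r) - (t - evBdd (pt z) (tailSeries r)) =
      -(evBdd (pt y) (tailSeries r) - evBdd (pt z) (tailSeries r)) by ring, norm_neg, mul_comm]
    exact (norm_evBdd_tail_sub_le r h1 hle (pt y) (pt z)).trans
      (mul_le_mul_of_nonneg_left (max_le y.2.1 z.2.1) (norm_nonneg _))
  set y₀ := ContractingWith.fixedPoint φ hφ
  have hfix : t - evBdd (pt y₀) (tailSeries r) = (y₀ : K) :=
    congrArg Subtype.val hφ.fixedPoint_isFixedPt
  have hY : evBdd (pt y₀) r = t := by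
    rw [evBdd_eq_add_tail]
    show (y₀ : K) + _ = t
    linear_combination -hfix
  exact ⟨pt y₀, by rw [← norm_evBdd_eq r h0 h1 hle, hY], y₀.2.2, hY⟩

end Inverse

theorem ordB_pos (a : DiscPoint K) {r : boundedSeries K} (hr : r ≠ 0) (h : evBdd a r = 0) :
    0 < ordB a r := by
  obtain ⟨s, hs⟩ := exists_eq_mul_of_evBdd_eq_zero a r h
  exact (exists_pow_dvd_iff a hr 1).mp ⟨s, by rw [pow_one]; exact hs⟩

section Place

omit [IsUltrametricDist K] [CompleteSpace K] in
/-- `Φ_N` as a plane curve over `K`. -/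
private theorem evalXY_modularPoly {F : Type*} [Field F] [Algebra K F] (N : ℕ) [NeZero N]
    (x y : F) : evalXY x y ((ModularFunctionField.modularPoly N).map
      (Polynomial.mapRingHom (Int.castRingHom K))) = (phiAt N x).eval y := by
  rw [evalXY, Polynomial.coe_eval₂RingHom, Polynomial.eval₂_map, phiAt, Polynomial.eval_map]
  congr 1
  exact Polynomial.ringHom_ext' (Subsingleton.elim _ _) (by simp)

omit [IsUltrametricDist K] [CompleteSpace K] in
private theorem map_modularPoly (N : ℕ) [NeZero N] (a : K) :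
    ((ModularFunctionField.modularPoly N).map (Polynomial.mapRingHom (Int.castRingHom K))).map
      (Polynomial.evalRingHom a) = phiAt N a := by
  rw [Polynomial.map_map, phiAt]
  congr 1
  exact Polynomial.ringHom_ext' (Subsingleton.elim _ _) (by simp)

omit [IsUltrametricDist K] [CompleteSpace K] in
private theorem evalAB_eq_eval_map (a b : K) (p : Polynomial (Polynomial K)) :
    evalAB a b p = (p.map (Polynomial.evalRingHom a)).eval b :=
  (Polynomial.eval_map _ _).symm

omit [CompleteSpace K] in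
private theorem normedValuation_intCast_le_one (n : ℤ) :
    NormedField.valuation (n : K) ≤ 1 :=
  IsUltrametricDist.norm_intCast_le_one K n

variable {F : IntermediateField K (LaurentSeries K)} [IsFunctionField K F] (D : DiscData F)
variable {N : ℕ} [NeZero N]

/-- A function whose inverse is the series `s` takes the value `(s Y)⁻¹` at `Y`. -/
theorem ord_sub_pos (Y : DiscPoint K) {f : F} {s : boundedSeries K}
    (hf : DiscData.Rep f 1 s) (hs : evBdd Y s ≠ 0) :
    (D.place Y).adicValuation (f - algebraMap K F (evBdd Y s)⁻¹) < 1 := by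
  rw [FunctionField.adicValuation_lt_one_iff]
  refine or_iff_not_imp_left.mpr fun hne => ?_
  have hrep : DiscData.Rep (f - algebraMap K F (evBdd Y s)⁻¹)
      (1 - ⟨C (evBdd Y s)⁻¹, C_mem_boundedSeries _⟩ * s) s := by
    refine ⟨hf.1, ?_⟩
    rw [AddSubgroupClass.coe_sub, sub_mul, hf.2, AddSubgroupClass.coe_sub, Subring.coe_mul, map_sub,
      map_mul, HahnSeries.ofPowerSeries_C, ← algebraMap_eq_C]
    rfl
  rw [D.place_ord_of_rep Y hne hrep, ordB_eq_zero Y hs]
  have := ordB_pos Y (hrep.ne_zero hne) (by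
    rw [map_sub, map_one, map_mul, evBdd_C, inv_mul_cancel₀ hs, sub_self])
  omega

variable (J JN : F)

/-- **The parameter of a point near `∞`.** -/
theorem exists_qParam (hN : N.Prime) (hhJ : D.h * J = 1)
    (hJN : (JN : LaurentSeries K) = qExpand K N (J : LaurentSeries K))
    (hΦ : (phiAt N J).eval JN = 0) (S : Subfield K) (hS : IsClosed (S : Set K))
    (hrS : ∀ l, coeff l D.hser ∈ S) {a b : K} (ha : 1 < ‖a‖) (hb : ‖b‖ = ‖a‖ ^ N)
    (hab : (phiAt N a).eval b = 0) (haS : a ∈ S) :
    ∃ Y : DiscPoint K, Y.val ∈ S ∧ ‖Y.val‖ = ‖a‖⁻¹ ∧ evBdd Y D.hbd = a⁻¹ ∧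
      evBdd (powPoint N (NeZero.ne N) Y) D.hbd = b⁻¹ ∧
      (D.place Y).adicValuation (J - algebraMap K F a) < 1 ∧
      (D.place Y).adicValuation (JN - algebraMap K F b) < 1 := by
  have ha0 : a ≠ 0 := norm_pos_iff.mp (zero_lt_one.trans ha)
  obtain ⟨Y, hYn, hYS, hY⟩ := exists_evBdd_eq D.hbd D.h_zero D.h_one D.h_le S hS hrS
    (t := a⁻¹) (by rw [norm_inv]; exact inv_lt_one_of_one_lt₀ ha) (S.inv_mem haS)
  rw [norm_inv] at hYn
  set Y' := powPoint N (NeZero.ne N) Y with hY'
  set b' := (evBdd Y' D.hbd)⁻¹ with hb'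
  have hY'n : ‖evBdd Y' D.hbd‖ = (‖a‖ ^ N)⁻¹ := by
    rw [norm_evBdd_eq D.hbd D.h_zero D.h_one D.h_le, hY', powPoint_val, norm_pow, hYn, inv_pow]
  have hY'0 : evBdd Y' D.hbd ≠ 0 := norm_pos_iff.mp (by rw [hY'n]; positivity)
  have hmul : HahnSeries.ofPowerSeries ℤ K D.hser * (J : LaurentSeries K) = 1 := by
    rw [← D.h_eq, ← MulMemClass.coe_mul, hhJ, OneMemClass.coe_one]
  have hhbd : D.hbd ≠ 0 := fun h => by
    have := congrArg (fun s : boundedSeries K => coeff 1 (s : K⟦X⟧)) h
    simp [DiscData.hbd, D.h_one] at this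
  have hJrep : DiscData.Rep J 1 D.hbd := by
    refine ⟨hhbd, ?_⟩
    rw [OneMemClass.coe_one, map_one, mul_comm]
    exact hmul
  have hJNrep : DiscData.Rep JN 1 (bddExpand N (NeZero.ne N) D.hbd) := by
    refine ⟨bddExpand_ne_zero N (NeZero.ne N) hhbd, ?_⟩
    rw [OneMemClass.coe_one, map_one, coe_bddExpand, ← qExpand_ofPowerSeries', hJN, ← map_mul,
      mul_comm]
    show qExpand K N (HahnSeries.ofPowerSeries ℤ K D.hser * _) = 1
    rw [hmul, map_one]
  have hvJ : (D.place Y).adicValuation (J - algebraMap K F a) < 1 := by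
    have := ord_sub_pos D Y hJrep (by rw [hY]; exact inv_ne_zero ha0)
    rwa [hY, inv_inv] at this
  have hvJN : (D.place Y).adicValuation (JN - algebraMap K F b') < 1 := by
    have := ord_sub_pos D Y hJNrep (by rw [evBdd_bddExpand]; exact hY'0)
    rwa [evBdd_bddExpand] at this
  have hroot : (phiAt N a).eval b' = 0 := by
    have h1 := evalXY_sub_lt (D.place Y) hvJ hvJN ((ModularFunctionField.modularPoly N).map
        (Polynomial.mapRingHom (Int.castRingHom K)))
    rw [evalXY_modularPoly, evalAB_eq_eval_map, map_modularPoly, hΦ, zero_sub,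
      Valuation.map_neg] at h1
    by_contra hne
    rw [FunctionField.adicValuation_algebraMap (D.place Y) hne] at h1
    exact lt_irrefl _ h1
  have hbb : b = b' := by
    refine root_unique (v := NormedField.valuation) hN normedValuation_intCast_le_one ?_ ?_ ?_
      hab hroot
    · rw [NormedField.valuation_apply, ← NNReal.coe_lt_coe, coe_nnnorm, NNReal.coe_one]
      exact ha
    · rw [NormedField.valuation_apply, NormedField.valuation_apply, ← NNReal.coe_inj]
      push_cast
      exact hb
    · rw [NormedField.valuation_apply, NormedField.valuation_apply, ← NNReal.coe_inj]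
      push_cast
      rw [hb', norm_inv, hY'n, inv_inv]
  refine ⟨Y, hYS, hYn, hY, ?_, hvJ, hbb ▸ hvJN⟩
  rw [hbb, hb', inv_inv]

end Place

section ModularCurve

variable [Algebra ℚ K] (N : ℕ) [NeZero N]

omit [IsUltrametricDist K] [CompleteSpace K] in
theorem jqNModC_mem_laurentBaseChange [CharZero K] :
    jqNModC K N ∈ laurentBaseChange K (modularFunctionFieldFull N) := by
  rw [GoodReductionS18.laurentBaseChange_full_eq,
    ModularFunctionField.modularFunctionFieldFullC_eq (Nat.cast_ne_zero.mpr (NeZero.ne N))]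
  exact IntermediateField.subset_adjoin K _ (by simp)

variable (K) in
/-- `j_N` over `K`. -/
def jNElt [CharZero K] : laurentBaseChange K (modularFunctionFieldFull N) :=
  ⟨jqNModC K N, jqNModC_mem_laurentBaseChange N⟩

omit [IsUltrametricDist K] [CompleteSpace K] in
/-- `Φ_N(j, j_N) = 0` over `K`. -/
theorem phiAt_jElt [CharZero K] : (phiAt N (Hecke.jElt K N)).eval (jNElt K N) = 0 := by
  apply Subtype.ext
  have h : (ModularFunctionField.modularPoly N).eval₂ evalAtJ (jqN N) = 0 :=
    (ModularFunctionField.modularPolynomialData N).eval_eq_zero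
  have h' := congrArg (coeffEmb K) h
  rw [Polynomial.hom_eval₂, map_zero] at h'
  rw [ZeroMemClass.coe_zero, ← h', phiAt, Polynomial.eval_map]
  show (laurentBaseChange K (modularFunctionFieldFull N)).val.toRingHom _ = _
  rw [Polynomial.hom_eval₂]
  congr 1
  · refine Polynomial.ringHom_ext' (Subsingleton.elim _ _) ?_
    rw [RingHom.comp_apply, RingHom.comp_apply, evalAtJ_X, Polynomial.coe_eval₂RingHom,
      Polynomial.eval₂_X]
    rfl
  · show jqNModC K N = coeffEmb K (jqN N)
    rw [jqN, coeffEmb, ModularFunctionField.coeffMap_qExpand', jqNModC]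
    exact congrArg _ Hecke.jC_eq_jqModC.symm

omit [IsUltrametricDist K] [CompleteSpace K] in
/-- `K(j, j_N)` is the whole function field. -/
theorem exists_frac_jElt [CharZero K] (f : (laurentBaseChange K (modularFunctionFieldFull N))) :
    ∃ r s : Polynomial (Polynomial K), evalXY (Hecke.jElt K N) (jNElt K N) s ≠ 0 ∧
      f = evalXY (Hecke.jElt K N) (jNElt K N) r / evalXY (Hecke.jElt K N) (jNElt K N) s := by
  rcases eq_or_ne f 0 with rfl | hf
  · exact ⟨0, 1, by simp, by simp⟩
  set g : Fin 2 → (laurentBaseChange K (modularFunctionFieldFull N)) :=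
    ![Hecke.jElt K N, jNElt K N] with hg
  have hconv : ∀ p : MvPolynomial (Fin 2) K, ∃ R : Polynomial (Polynomial K),
      evalXY (Hecke.jElt K N) (jNElt K N) R = MvPolynomial.aeval g p := by
    intro p
    induction p using MvPolynomial.induction_on with
    | C c => exact ⟨Polynomial.C (Polynomial.C c), by simp [evalXY]⟩
    | add p q hp hq =>
      obtain ⟨r, hr⟩ := hp
      obtain ⟨s, hs⟩ := hq
      exact ⟨r + s, by rw [map_add, map_add, hr, hs]⟩
    | mul_X p i hp =>
      obtain ⟨r, hr⟩ := hp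
      fin_cases i
      · exact ⟨r * Polynomial.C Polynomial.X, by
          rw [map_mul, map_mul, hr, MvPolynomial.aeval_X]; simp [evalXY, hg]⟩
      · exact ⟨r * Polynomial.X, by
          rw [map_mul, map_mul, hr, MvPolynomial.aeval_X]; simp [evalXY, hg]⟩
  have hmem : (f : LaurentSeries K) ∈
      IntermediateField.adjoin K (Set.range fun i => (g i : LaurentSeries K)) := by
    have hset : Set.range (fun i => (g i : LaurentSeries K)) = {jqModC K, jqNModC K N} := by
      ext x
      simp [hg, Fin.exists_fin_two, Set.mem_range, eq_comm, Hecke.jElt, Hecke.jC_eq_jqModC, jNElt]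
    rw [hset, ← modularFunctionFieldC, ← ModularFunctionField.modularFunctionFieldFullC_eq
      (Nat.cast_ne_zero.mpr (NeZero.ne N)), ← GoodReductionS18.laurentBaseChange_full_eq]
    exact f.2
  obtain ⟨r, s, hrs⟩ := (IntermediateField.mem_adjoin_range_iff K _ _).mp hmem
  obtain ⟨R, hR⟩ := hconv r
  obtain ⟨S, hS⟩ := hconv s
  have hcoe : ∀ p : MvPolynomial (Fin 2) K,
      MvPolynomial.aeval (fun i => (g i : LaurentSeries K)) p =
        ((MvPolynomial.aeval g p : (laurentBaseChange K (modularFunctionFieldFull N))) :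
          LaurentSeries K) := fun p =>
    (MvPolynomial.comp_aeval_apply g (laurentBaseChange K (modularFunctionFieldFull N)).val p).symm
  rw [hcoe, hcoe] at hrs
  refine ⟨R, S, fun h0 => hf (Subtype.ext ?_), Subtype.ext ?_⟩
  · rw [hrs, ← hS, h0]
    simp
  · rw [hrs, hR, hS]
    rfl

omit [IsUltrametricDist K] [CompleteSpace K] in
/-- The coefficients of `1/j` are rational. -/
theorem coeff_hser_mem (S : Subfield K) {hser : K⟦X⟧}
    (hD : HahnSeries.ofPowerSeries ℤ K hser * jqModC K = 1) (l : ℕ) : coeff l hser ∈ S := by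
  have h : HahnSeries.ofPowerSeries ℤ K hser = coeffEmb K jq⁻¹ := by
    rw [map_inv₀, show coeffEmb K jq = jqModC K from Hecke.jC_eq_jqModC]
    exact eq_inv_of_mul_eq_one_left hD
  rw [← HahnSeries.ofPowerSeries_apply_coeff (Γ := ℤ), h, coeffEmb_coeff, eq_ratCast]
  exact SubfieldClass.ratCast_mem S _

variable [CharZero K] [IsFunctionField K (laurentBaseChange K (modularFunctionFieldFull N))]

/-- **The place over `(a, b)` near `∞` is a disc place**, with parameter rational over any closed
subfield containing `a`; it is the only place over `(a, b)`. -/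
theorem exists_discPoint_overPoint (D : DiscData (laurentBaseChange K (modularFunctionFieldFull N)))
    (hD : (D.h : LaurentSeries K) * jqModC K = 1) (hN : N.Prime) (S : Subfield K)
    (hS : IsClosed (S : Set K)) {a b : K} (ha : 1 < ‖a‖) (hb : ‖b‖ = ‖a‖ ^ N)
    (hab : (phiAt N a).eval b = 0) (haS : a ∈ S) :
    ∃ Y : DiscPoint K, Y.val ∈ S ∧ ‖Y.val‖ = ‖a‖⁻¹ ∧ evBdd Y D.hbd = a⁻¹ ∧
      (D.place Y).adicValuation (Hecke.jElt K N - algebraMap K _ a) < 1 ∧
      (D.place Y).adicValuation (jNElt K N - algebraMap K _ b) < 1 ∧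
      ∀ P : Place K (laurentBaseChange K (modularFunctionFieldFull N)),
        P.adicValuation (Hecke.jElt K N - algebraMap K _ a) < 1 →
        P.adicValuation (jNElt K N - algebraMap K _ b) < 1 → P = D.place Y := by
  have hhJ : D.h * Hecke.jElt K N = 1 := Subtype.ext (by
    show (D.h : LaurentSeries K) * Hecke.jC K = 1
    rw [Hecke.jC_eq_jqModC]
    exact hD)
  have hJN : ((jNElt K N : (laurentBaseChange K (modularFunctionFieldFull N))) : LaurentSeries K) =
      qExpand K N
        ((Hecke.jElt K N : (laurentBaseChange K (modularFunctionFieldFull N))) :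
          LaurentSeries K) := by
    show jqNModC K N = qExpand K N (Hecke.jC K)
    rw [Hecke.jC_eq_jqModC, jqNModC]
  obtain ⟨Y, hYS, hYn, hY, -, hvJ, hvJN⟩ := exists_qParam D (Hecke.jElt K N) (jNElt K N) hN hhJ hJN
    (phiAt_jElt N) S hS (coeff_hser_mem S (by rw [← D.h_eq]; exact hD)) ha hb hab haS
  refine ⟨Y, hYS, hYn, hY, hvJ, hvJN, fun P hP hP' => ?_⟩
  refine place_eq_of_simple ((evalXY_modularPoly N _ _).trans (phiAt_jElt N))
    (by rw [evalAB_eq_eval_map, map_modularPoly, hab]) ?_ (fun h => ?_) (exists_frac_jElt N)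
    hP hP' hvJ hvJN
  · rw [evalAB_eq_eval_map, ← Polynomial.derivative_map, map_modularPoly]
    refine derivative_eval_ne_zero (v := NormedField.valuation) hN normedValuation_intCast_le_one
      ha ?_ hab (Or.inl ?_)
    · show 1 < ‖b‖
      rw [hb]
      exact one_lt_pow₀ ha (NeZero.ne N)
    · rw [NormedField.valuation_apply, NormedField.valuation_apply, ← NNReal.coe_inj]
      push_cast
      exact hb
  · exact Hecke.transcendental_jElt K N (by rw [sub_eq_zero.mp h]; exact isAlgebraic_algebraMap a)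

omit [CompleteSpace K] [NeZero N] [CharZero K]
  [IsFunctionField K (laurentBaseChange K (modularFunctionFieldFull N))] in
theorem discDataModular_h_mul : ((discDataModular K N).h : LaurentSeries K) * jqModC K = 1 := by
  show (invJ K N : LaurentSeries K) * jqModC K = 1
  rw [coe_invJ, ← Hecke.jC_eq_jqModC, mul_comm]
  exact invJSeries_mul K

/-- The same for the standard disc at infinity. -/
theorem exists_discPoint_overPoint_modular (hN : N.Prime) (S : Subfield K)
    (hS : IsClosed (S : Set K)) {a b : K} (ha : 1 < ‖a‖) (hb : ‖b‖ = ‖a‖ ^ N)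
    (hab : (phiAt N a).eval b = 0) (haS : a ∈ S) :
    ∃ Y : DiscPoint K, Y.val ∈ S ∧ ‖Y.val‖ = ‖a‖⁻¹ ∧ evBdd Y (discDataModular K N).hbd = a⁻¹ ∧
      ((discDataModular K N).place Y).adicValuation (Hecke.jElt K N - algebraMap K _ a) < 1 ∧
      ((discDataModular K N).place Y).adicValuation (jNElt K N - algebraMap K _ b) < 1 ∧
      ∀ P : Place K (laurentBaseChange K (modularFunctionFieldFull N)),
        P.adicValuation (Hecke.jElt K N - algebraMap K _ a) < 1 →
        P.adicValuation (jNElt K N - algebraMap K _ b) < 1 → P = (discDataModular K N).place Y :=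
  exists_discPoint_overPoint N _ (discDataModular_h_mul N) hN S hS ha hb hab haS

end ModularCurve

end Fermat.Agent.MazurPoint
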