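import Fermat.Agent.OrdinaryCurve.Bridge
import Fermat.Agent.OrdinaryCurve.ClassFamily
import Fermat.Agent.MazurPoint.QParam
import Fermat.Agent.MazurPoint.Place

/-!
# The class of the point near the cusp `∞` in `J₀(N)(ℂ_p)`

`N` prime, `(u, v)` rational with `v_p(v) = N v_p(u) < 0` and `P` the place over `(u, v)`: the
image of `[P - ∞]` in `Pic⁰` over `ℂ_p` is the disc class of one point `Y`, rational over `ℚ_p`
with `|Y| ≤ |p|`, that is the class at `Y` of the family `q = t`, with logarithm `lam A 1`.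
-/

set_option autoImplicit false

noncomputable section

open PowerSeries AlgebraicCurve ModularCurve
open Fermat.Agent.OrdinaryCurve Fermat.Agent.FunctionField
open Fermat.Agent.ModCurveGenus (Qb FN jEl)

namespace Fermat.Agent.MazurPoint

variable (p : ℕ) [hp : Fact p.Prime]

/-- `ℚ_p` inside `ℂ_p`. -/
def padicSub : Subfield ℂ_[p] := (algebraMap ℚ_[p] ℂ_[p]).fieldRange

theorem padic_coe_complex (x : ℚ_[p]) :
    algebraMap ℚ_[p] ℂ_[p] x = ((algebraMap ℚ_[p] (PadicAlgCl p) x : PadicAlgCl p) : ℂ_[p]) :=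
  IsScalarTower.algebraMap_apply ℚ_[p] (PadicAlgCl p) ℂ_[p] x

theorem norm_padic_complex (x : ℚ_[p]) : ‖algebraMap ℚ_[p] ℂ_[p] x‖ = ‖x‖ := by
  rw [padic_coe_complex, PadicComplex.norm_extends, norm_algebraMap']

theorem isClosed_padicSub : IsClosed (padicSub p : Set ℂ_[p]) := by
  rw [show (padicSub p : Set ℂ_[p]) = Set.range (algebraMap ℚ_[p] ℂ_[p]) from
    RingHom.coe_fieldRange _]
  exact ((AddMonoidHomClass.isometry_of_norm (algebraMap ℚ_[p] ℂ_[p])
    (norm_padic_complex p)).isClosedEmbedding).isClosed_range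

theorem completeGal_padicSub (g : PadicAlgCl p ≃ₐ[ℚ_[p]] PadicAlgCl p) {x : ℂ_[p]}
    (hx : x ∈ padicSub p) : completeGal p g x = x := by
  obtain ⟨y, rfl⟩ := hx
  rw [padic_coe_complex, completeGal_coe, AlgEquiv.commutes]

theorem mem_unramHat_of_padicSub {x : ℂ_[p]} (hx : x ∈ padicSub p) (h1 : ‖x‖ ≤ 1) :
    x ∈ unramHat p := by
  obtain ⟨y, rfl⟩ := hx
  rw [norm_padic_complex] at h1
  rw [padic_coe_complex]
  refine coe_mem_unramHat p ?_
  rw [show algebraMap ℚ_[p] (PadicAlgCl p) y = algebraMap ℤ_[p] (PadicAlgCl p) ⟨y, h1⟩ from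
    (algebraMap_int_apply p ⟨y, h1⟩).symm]
  exact Subalgebra.algebraMap_mem _ _

theorem norm_ratCast_complex {u : ℚ} (hu : u ≠ 0) :
    ‖(u : ℂ_[p])‖ = (p : ℝ) ^ (-padicValRat p u) := by
  rw [← map_ratCast (algebraMap ℚ_[p] ℂ_[p]) u, norm_padic_complex, Padic.eq_padicNorm,
    padicNorm.eq_zpow_of_nonzero hu]
  push_cast
  rfl

variable (N : ℕ) [NeZero N]

theorem upHom_pointClass (P : Place Qb (FN N)) (Y : DiscPoint ℂ_[p])
    (hY : upPlace p N P = (discData p N).place Y) :
    upHom p N (pointClass P) = (discData p N).discClass {Y} := by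
  have h0 : upPlace p N (CuspidalC.cuspInfty N) = (discData p N).place (discZero ℂ_[p]) :=
    upPlace_eq_place_discZero p N (CuspidalC.ord_cuspInfty N)
  rw [pointClass, pointDiv, upHom_mk, DiscData.discClass]
  refine congrArg Pic0.mk (Subtype.ext ?_)
  rw [CurveBaseChange.coe_liftDegZero, map_sub, CurveBaseChange.liftDiv_single,
    CurveBaseChange.liftDiv_single]
  show Finsupp.single (upPlace p N P) (1 : ℤ) -
    Finsupp.single (upPlace p N (CuspidalC.cuspInfty N)) 1 = DiscData.discDiv _ _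
  rw [hY, h0]
  simp [DiscData.discDiv]

/-- **The disc point of the point over `(u, v)`.** -/
theorem exists_discPoint_pointClass (hN : N.Prime) {P : Place Qb (FN N)} {u v : ℚ}
    (hP : OverPoint P (u : Qb) (v : Qb)) (hu : padicValRat p u < 0)
    (hv : padicValRat p v = N * padicValRat p u) :
    ∃ Y : DiscPoint ℂ_[p], Y.val ∈ padicSub p ∧ Y.val ∈ unramHat p ∧
      ‖Y.val‖ ≤ ‖(p : ℂ_[p])‖ ∧ (∀ g, completeGal p g Y.val = Y.val) ∧
      evBdd Y (discData p N).hbd = (u : ℂ_[p])⁻¹ ∧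
      upPlace p N P = (discData p N).place Y ∧
      upHom p N (pointClass P) = (discData p N).discClass {Y} := by
  have hu0 : u ≠ 0 := by rintro rfl; simp at hu
  have hv0 : v ≠ 0 := by
    rintro rfl
    simp only [padicValRat.zero, zero_eq_mul, Nat.cast_eq_zero] at hv
    rcases hv with h | h
    · exact NeZero.ne N h
    · omega
  have hp1 : (1 : ℝ) < p := by exact_mod_cast hp.out.one_lt
  have hnu := norm_ratCast_complex p hu0
  have hpu : (p : ℝ) ≤ ‖(u : ℂ_[p])‖ := by
    rw [hnu]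
    calc (p : ℝ) = (p : ℝ) ^ (1 : ℤ) := (zpow_one _).symm
      _ ≤ _ := zpow_le_zpow_right₀ hp1.le (by omega)
  have ha : 1 < ‖(u : ℂ_[p])‖ := hp1.trans_le hpu
  have hb : ‖(v : ℂ_[p])‖ = ‖(u : ℂ_[p])‖ ^ N := by
    rw [norm_ratCast_complex p hv0, hnu, hv, ← zpow_natCast, ← zpow_mul]
    congr 1
    ring
  have hroot : (phiAt N (u : ℂ_[p])).eval (v : ℂ_[p]) = 0 := by
    have h := congrArg (complexEmb p) hP.root
    rw [map_zero, ← Polynomial.eval_map_apply, phiAt, Polynomial.map_map, map_ratCast] at h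
    rw [phiAt, ← h]
    congr 2
    exact Polynomial.ringHom_ext' (Subsingleton.elim _ _) (by simp)
  obtain ⟨Y, hYS, hYn, hYh, -, -, huniq⟩ := exists_discPoint_overPoint_modular (K := ℂ_[p]) N hN
    (padicSub p) (isClosed_padicSub p) ha hb hroot ⟨u, map_ratCast _ _⟩
  have hYp : ‖Y.val‖ ≤ ‖(p : ℂ_[p])‖ := by
    rw [hYn, norm_prime_complex]
    exact inv_anti₀ (zero_lt_one.trans hp1) hpu
  have hup : ∀ (f : FN N) (c : ℚ) (f' : curveField p N), f - algebraMap Qb (FN N) (c : Qb) ≠ 0 →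
      coeffMap (complexEmb p) (f : LaurentSeries Qb) = (f' : LaurentSeries ℂ_[p]) →
      P.adicValuation (f - algebraMap Qb (FN N) (c : Qb)) < 1 →
      (upPlace p N P).adicValuation (f' - algebraMap ℂ_[p] (curveField p N) (c : ℂ_[p])) < 1 := by
    intro f c f' hne hf hlt
    have e : f' - algebraMap ℂ_[p] (curveField p N) (c : ℂ_[p]) =
        algebraMap (FN N) (curveField p N) (f - algebraMap Qb (FN N) (c : Qb)) := by
      rw [map_sub, map_ratCast, map_ratCast, map_ratCast]
      exact congrArg (· - _) (Subtype.ext ((coe_algebraMap_bar p N f).trans hf).symm)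
    rw [adicValuation_lt_one_iff, or_iff_right hne] at hlt
    rw [adicValuation_lt_one_iff, e, ord_upPlace]
    exact Or.inr hlt
  have hj : upPlace p N P = (discData p N).place Y := by
    refine huniq _ (hup (jEl N) u _ (jEl_sub_ne_zero _) ?_ hP.1)
      (hup (jNEl N) v _ (jNEl_sub_ne_zero _) ?_ hP.2)
    · rw [coe_jEl]
      refine Eq.trans ?_ (show coeffEmb ℂ_[p] jq = _ from rfl)
      rw [coeffEmb, coeffEmb, ← RingHom.comp_apply]
      congr 1
      exact RingHom.ext fun x => HahnSeries.ext (funext fun m => by simp)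
    · rw [coe_jNEl]
      show _ = jqNModC ℂ_[p] N
      rw [jqN, coeffEmb, ModularFunctionField.coeffMap_qExpand',
        ModularFunctionField.coeffMap_qExpand', jqNModC, ← Hecke.jC_eq_jqModC]
      refine congrArg _ ?_
      refine HahnSeries.ext (funext fun m => ?_)
      simp [Hecke.jC]
  exact ⟨Y, hYS, mem_unramHat_of_padicSub p hYS Y.norm_lt.le, hYp,
    fun g => completeGal_padicSub p g hYS, hYh, hj, upHom_pointClass p N P Y hj⟩

/-- The term `q = t`. -/
def idTerm (K : Type*) [NormedField K] [IsUltrametricDist K] : DiscTerm K :=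
  ⟨1, one_ne_zero, PowerSeries.X, constantCoeff_X⟩

theorem famLog_idTerm {K : Type*} [NormedField K] [IsUltrametricDist K] [CharZero K]
    {ι : Type*} [Fintype ι] (A : ℕ → ι → K) (i : ι) : famLog A [idTerm K] i = lam A 1 i := by
  simp [famLog, idTerm, DiscTerm.serK]

theorem listPts_idTerm {K : Type*} [NormedField K] [IsUltrametricDist K] [CompleteSpace K]
    [IsAlgClosed K] [CharZero K] (a : DiscPoint K) :
    Fermat.Agent.OrdinaryCurve.listPts a [idTerm K] = {a} := by
  apply splitSeries_injective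
  rw [splitSeries_listPts]
  simp [idTerm, evalAt_X, splitSeries]

/-- **The class of the point**: `upHom [P - ∞]` is the class at `Y` with logarithms `lam A 1`. -/
theorem exists_isClass_pointClass {ι : Type*} [Fintype ι]
    (S : DiscCurve (curveField p N) ι) (hS : S.disc = discData p N) (hN : N.Prime)
    {P : Place Qb (FN N)} {u v : ℚ} (hP : OverPoint P (u : Qb) (v : Qb))
    (hu : padicValRat p u < 0) (hv : padicValRat p v = N * padicValRat p u)
    (hwit : ∀ a : DiscPoint ℂ_[p], ∃ x, S.IsClass a (lam S.curve.A 1) x) :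
    ∃ Y : DiscPoint ℂ_[p], Y.val ∈ unramHat p ∧ ‖Y.val‖ ≤ ‖(p : ℂ_[p])‖ ∧
      (∀ g, completeGal p g Y.val = Y.val) ∧
      S.IsClass Y (lam S.curve.A 1) (upHom p N (pointClass P)) := by
  obtain ⟨Y, -, hYW, hYp, hYg, -, -, hY⟩ := exists_discPoint_pointClass p N hN hP hu hv
  obtain ⟨x, F, G, -, hG, -⟩ := hwit Y
  refine ⟨Y, hYW, hYp, hYg, [idTerm ℂ_[p]], G, famLog_idTerm _, hG, ?_⟩
  rw [hY, DiscCurve.famClass, hS, listPts_idTerm]

end Fermat.Agent.MazurPoint
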