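import Fermat.Agent.MazurPoint.Top
import Fermat.Agent.OrdinaryEisenstein.Final

/-!
# Mazur's third step
-/

set_option autoImplicit false

noncomputable section

namespace Fermat.Agent.MazurPoint

/-- **Mazur's third step.** -/
theorem mazurStep : FreyHeight.MazurStep :=
  mazurStep_of_ordinary fun N p _ _ hN h11 hdvd => by
    have : Fact N.Prime := ⟨hN⟩
    refine OrdinaryEisenstein.hasOrdinaryFamily fun hpN => ?_
    have hpos : 0 < (N - 1) / Nat.gcd (N - 1) 12 :=
      Nat.div_pos (Nat.le_of_dvd (by omega) (Nat.gcd_dvd_left _ _))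
        (Nat.gcd_pos_of_pos_left _ (by omega))
    have h1 := Nat.le_of_dvd hpos hdvd
    have h2 := Nat.div_le_self (N - 1) (Nat.gcd (N - 1) 12)
    omega

end Fermat.Agent.MazurPoint
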