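import Fermat.Agent.Specialization.JZero
import Fermat.Agent.EisensteinDescent.JZeroLocal

/-!
# The kernel of reduction on divisors, at level `N` through a good model of level `M`

For a good model `G` of level `M` and `L = G.lowerDivMap ι` on divisors of level `N`:

* a positive map on divisors whose value on the divisor of a normalised function depends only on
  the residue of the function kills every divisor of degree zero killed by `L`;
* `L ∘ T_r` is such a map for every prime `r ∤ N`;
* hence the classes of `D` with `deg D = 0`, `L D = 0` form a module over the anemic Hecke algebra,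
  without torsion of order prime to the residue characteristic.
-/

set_option autoImplicit false

noncomputable section

open AlgebraicCurve ModularCurve
open Fermat.Agent.GoodReduction Fermat.Agent.Specialization
open Fermat.Agent.ModularFunctionField (twist)

namespace Fermat.Agent.MazurPoint

attribute [local instance 5000] SubalgebraClass.toAlgebra
attribute [-instance] IsLocalRing.ResidueField.algebraOfIsIntegral

section Abstract

variable {K k F κ : Type*} [Field K] [Field k] [Field F] [Field κ] [Algebra K F] [Algebra k κ]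
variable {A : ValuationSubring K} {π : A →+* k} {red : Reduction F κ A π}
variable {g : ℕ} {c : ℤ} {H : Divisor K F} {Hb : Divisor k κ}
variable {F₀ : Type*} [Field F₀] [Algebra K F₀] [HasPrincipalDivisors K F]

/-- A positive map which sees only residues of normalised functions kills the divisors of degree
zero killed by the reduction. -/
theorem map_eq_zero_of_lowerDivMap_eq_zero (G : GoodModel red g c H Hb) (ι : F₀ →ₐ[K] F)
    (hι : ι.toRingHom.IsIntegral) (hFI : FundamentalIdentityAlong K ι hι)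
    {g₀ : ℕ} {c₀ : ℤ} (R₀ : RiemannData K F₀ g₀ c₀)
    {ψ : Divisor K F₀ →+ Divisor k κ} {b : ℕ} (h : Scales ψ b)
    (hcompat : ∀ (f f' : F₀) (x y : red.V), (x : F) = ι f → (y : F) = ι f' → red.res x ≠ 0 →
      red.res x = red.res y → ψ (R₀.div f) = ψ (R₀.div f'))
    {D : Divisor K F₀} (hD : Divisor.degree D = 0) (hLD : G.lowerDivMap ι hι D = 0) :
    ψ D = 0 := by
  classical
  obtain ⟨E₀, hE⟩ := R₀.exists_effectiveUpTo
  set L := G.lowerDivMap ι hι with hL
  have hLs : Scales L (1 * finrankAlong K ι) := G.scales_lowerDivMap ι hι hFI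
  set S : Submodule k κ := red.resSpace (LinearMap.range ι.toLinearMap) ⊓ LSpace (L E₀) with hS
  have := G.riemann'.finite (L E₀)
  have : FiniteDimensional k S := Submodule.finiteDimensional_of_le inf_le_right
  obtain ⟨s, hs⟩ := (Submodule.fg_iff_finiteDimensional S).mpr inferInstance
  have hlift : ∀ y ∈ s, ∃ (f : F₀) (x : red.V), (x : F) = ι f ∧ red.res x = y := by
    intro y hy
    have hyS : y ∈ S := hs ▸ Submodule.subset_span hy
    obtain ⟨x, ⟨f, hf⟩, hxy⟩ := red.exists_of_mem_resSpace hyS.1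
    exact ⟨f, x, hf.symm, hxy⟩
  choose φ xφ hxφ hresφ using hlift
  set PB : Divisor K F₀ := ∑ y ∈ s.attach, (-(R₀.div (φ y.1 y.2))) ⊔ 0 with hPB
  set W : Submodule K F := (LSpace PB).map ι.toLinearMap with hW
  have hSW : S ≤ red.resSpace W := by
    rw [← hs, Submodule.span_le]
    intro y hy
    rw [SetLike.mem_coe, ← hresφ y hy]
    refine red.res_mem ⟨φ y hy, ?_, (hxφ y hy).symm⟩
    rcases eq_or_ne (φ y hy) 0 with h0 | h0
    · rw [h0]; exact zero_mem _
    rw [SetLike.mem_coe, mem_LSpace h0]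
    intro v
    have h1 : (-(R₀.div (φ y hy))) v ≤ PB v := by
      rw [hPB, Finsupp.finsetSum_apply]
      refine le_trans ?_ (Finset.single_le_sum (f := fun i : s => ((-(R₀.div (φ i.1 i.2))) ⊔ 0) v)
        (fun i _ => ?_) (Finset.mem_attach s ⟨y, hy⟩))
      · simp only [Finsupp.sup_apply]; exact le_sup_left
      · simp only [Finsupp.sup_apply, Finsupp.coe_zero, Pi.zero_apply]; exact le_sup_right
    rw [Finsupp.neg_apply, R₀.div_apply] at h1
    omega
  ext Q
  by_contra hne
  rw [Finsupp.coe_zero, Pi.zero_apply] at hne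
  set C : ℤ := b * Divisor.degree E₀ + |ψ E₀ Q| + b * Divisor.degree PB + |ψ PB Q| with hC
  set n : ℕ := C.toNat + 1 with hn
  obtain ⟨f, hf, heff⟩ : ∃ f : F₀, f ≠ 0 ∧ 0 ≤ n • D + E₀ + R₀.div f := by
    obtain ⟨D', ⟨f, hf, hDf⟩, hpos⟩ :=
      hE.exists_effective (n • D) (by rw [map_nsmul, hD, smul_zero])
    exact ⟨f, hf, by rwa [← R₀.div_eq hDf]⟩
  obtain ⟨a, ha, x, hx, hx0⟩ :=
    red.exists_smul_res_ne_zero ((map_ne_zero_iff _ ι.toRingHom.injective).mpr hf)
  have haf : R₀.div (a • f) = R₀.div f := (R₀.div_eq fun v => by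
    rw [R₀.div_apply, Algebra.smul_def, v.ord_mul (by simpa using ha) hf, ord_algebraMap_eq_zero,
      zero_add]).symm
  have hx' : (x : F) = ι (a • f) := hx.trans (map_smul ι a f).symm
  have hres : L (R₀.div f) = G.riemann'.div (red.res x) :=
    G.lowerDivMap_div ι hι (f := a • f) (fun v => by rw [← haf, R₀.div_apply]) hx' hx0
  have hmem : red.res x ∈ S := by
    refine ⟨red.res_mem ⟨a • f, hx'.symm⟩, (mem_LSpace hx0).mpr fun v => ?_⟩
    have h1 := hLs.nonneg _ heff v
    rw [map_add, map_add, map_nsmul, hLD, smul_zero, zero_add, hres, Finsupp.add_apply,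
      G.riemann'.div_apply, Finsupp.coe_zero, Pi.zero_apply] at h1
    exact h1
  obtain ⟨z, ⟨h', hh'mem, hh'⟩, hzres⟩ := red.exists_of_mem_resSpace (hSW hmem)
  have hh'0 : h' ≠ 0 := by
    rintro rfl
    exact red.coe_ne_zero (hzres ▸ hx0) (by rw [← hh', map_zero])
  have hψ : ψ (R₀.div f) = ψ (R₀.div h') :=
    haf ▸ hcompat (a • f) h' x z hx' hh'.symm hx0 hzres.symm
  have hpos' : 0 ≤ R₀.div h' + PB := fun v => by
    have := (mem_LSpace hh'0).mp hh'mem v
    rw [Finsupp.add_apply, R₀.div_apply, Finsupp.coe_zero, Pi.zero_apply]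
    omega
  have b1 := abs_apply_le_degree G.riemann'.deg_one (h.nonneg _ heff) Q
  have b2 := abs_apply_le_degree G.riemann'.deg_one (h.nonneg _ hpos') Q
  rw [h.degree, show Divisor.degree (n • D + E₀ + R₀.div f) = Divisor.degree E₀ by
    rw [map_add, map_add, map_nsmul, hD, smul_zero, zero_add, R₀.degree_div, add_zero]] at b1
  rw [h.degree, show Divisor.degree (R₀.div h' + PB) = Divisor.degree PB by
    rw [map_add, R₀.degree_div, zero_add]] at b2
  rw [map_add, map_add, map_nsmul, hψ, Finsupp.add_apply, Finsupp.add_apply, Finsupp.smul_apply,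
    nsmul_eq_mul] at b1
  rw [map_add, Finsupp.add_apply] at b2
  have hn1 : (C : ℤ) < n := by rw [hn]; omega
  have habs : (1 : ℤ) ≤ |ψ D Q| := Int.one_le_abs hne
  have hnD : (n : ℤ) ≤ |(n : ℤ) * ψ D Q| := by
    rw [abs_mul, abs_of_nonneg (Int.natCast_nonneg n)]
    exact le_mul_of_one_le_right (Int.natCast_nonneg n) habs
  obtain ⟨l1, u1⟩ := abs_le.mp b1
  obtain ⟨l2, u2⟩ := abs_le.mp b2
  have e1 := abs_le.mp (le_refl |ψ E₀ Q|)
  have e2 := abs_le.mp (le_refl |ψ PB Q|)
  rcases abs_choice ((n : ℤ) * ψ D Q) with h' | h' <;> rw [h'] at hnD <;>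
    linarith [e1.1, e1.2, e2.1, e2.2]

end Abstract

local notation "ℚbar" => AlgebraicClosure ℚ

section Norm

variable {A : ValuationSubring (AlgebraicClosure ℚ)} {M : ℕ} {k : Type*} [Field k] {π : A →+* k}
variable {red : GoodReduction.Reduction (modularFunctionFieldBar M)
  (modularFunctionFieldFullC k M) A π}

/-- The residue of a Hecke norm is determined by the residue, for any prime `r ∤ N`. -/
theorem exists_norm_residue (hred : IsSeriesReduction red) {N : ℕ} [NeZero N]
    (ι : modularFunctionFieldBar N →ₐ[ℚbar] modularFunctionFieldBar M)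
    (hι : ∀ f, (ι f : LaurentSeries ℚbar) = (f : LaurentSeries ℚbar))
    {r : ℕ} [NeZero r] (hr : r.Prime) (hN : ¬ r ∣ N) {u : Aˣ}
    (hu : IsPrimitiveRoot (Units.map (A.subtype : A →* ℚbar) u) r)
    (f : modularFunctionFieldBar N) (x : red.V)
    (hx : (x : modularFunctionFieldBar M) = ι f) (hx0 : red.res x ≠ 0) :
    ∃ x' : red.V, (x' : modularFunctionFieldBar M) = ι (Hecke.heckeNorm ℚbar N r f) ∧
      red.res x' ≠ 0 ∧ qExpand k r (red.res x' : LaurentSeries k)
        = normSeries r (Units.map (π : A →* k) u) (red.res x : LaurentSeries k) := by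
  set ub := Units.map (π : A →* k) u with hub
  have hπn : ∀ y : LaurentSeries A,
      coeffMap π (normSeries r u y) = normSeries r ub (coeffMap π y) := fun y =>
    coeffMap_normSeries r π u y
  obtain ⟨y₁, y₂, hy₁, hy₂, hy₂0, hy⟩ := hred.exists_quot x
  have hres := hred.res_mul_eq x hy₁ hy₂ hy
  rw [hx, hι] at hy
  have hr0 : (red.res x : LaurentSeries k) ≠ 0 := fun h => hx0 (Subtype.ext h)
  have hy₁0 : coeffMap π y₁ ≠ 0 := hres ▸ mul_ne_zero hr0 hy₂0
  set ν : LaurentSeries ℚbar := (Hecke.heckeNorm ℚbar N r f : LaurentSeries ℚbar) with hν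
  have hid : qExpand ℚbar r ν * coeffMap A.subtype (normSeries r u y₂)
      = coeffMap A.subtype (normSeries r u y₁) := by
    rw [hν, Hecke.qExpand_heckeNorm N r hr hN hu, coeffMap_normSeries, coeffMap_normSeries,
      ← normSeries_apply, ← map_mul, hy]
  have hqne : ∀ (y : LaurentSeries k), y ≠ 0 → qExpand k r y ≠ 0 :=
    fun y h => (map_ne_zero_iff _ (qExpand_injective r)).mpr h
  have htw : ∀ (v : kˣ) (y : LaurentSeries k), y ≠ 0 → twist v y ≠ 0 := fun v y h h0 => h <| by
    ext n
    have := congrArg (fun z => HahnSeries.coeff z n) h0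
    simpa [zpow_ne_zero] using this
  have hnne : ∀ y : LaurentSeries k, y ≠ 0 → normSeries r ub y ≠ 0 := fun y h => by
    rw [normSeries_apply]
    exact mul_ne_zero ((map_ne_zero_iff _ (qExpand_injective (r * r))).mpr h)
      (Finset.prod_ne_zero_iff.mpr fun i _ => htw _ _ h)
  have hν0 : ι (Hecke.heckeNorm ℚbar N r f) ≠ 0 := by
    intro h
    have h0 : ν = 0 := by
      rw [hν, ← hι, h]
      rfl
    rw [h0, map_zero, zero_mul] at hid
    refine hnne _ hy₁0 ?_
    rw [← hπn, ModularFunctionField.coeffMap_injective _ Subtype.val_injective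
      (hid.symm.trans (map_zero _).symm), map_zero]
  obtain ⟨c, hc, x₁, hx₁, hx₁0⟩ := red.exists_smul_res_ne_zero hν0
  obtain ⟨w₁, w₂, hw₁, hw₂, hw₂0, hw⟩ := hred.exists_quot x₁
  have hwres := hred.res_mul_eq x₁ hw₁ hw₂ hw
  have hw₁0 : coeffMap π w₁ ≠ 0 := hwres ▸ mul_ne_zero (fun h => hx₁0 (Subtype.ext h)) hw₂0
  rw [hx₁] at hw
  push_cast at hw
  rw [hι, ← hν, Algebra.smul_def, algebraMap_laurentSeries_eq_single, ← HahnSeries.C_apply] at hw
  have hkey : HahnSeries.C c * (coeffMap A.subtype (normSeries r u y₁)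
        * qExpand ℚbar r (coeffMap A.subtype w₂))
      = coeffMap A.subtype (normSeries r u y₂) * qExpand ℚbar r (coeffMap A.subtype w₁) := by
    rw [← hid, ← hw, map_mul, map_mul, qExpand_C]
    ring
  have hLHS : coeffMap π (normSeries r u y₂ * qExpand A r w₁) ≠ 0 := by
    rw [map_mul, hπn, ModularFunctionField.coeffMap_qExpand']
    exact mul_ne_zero (hnne _ hy₂0) (hqne _ hw₁0)
  have hcA : c⁻¹ ∈ A := by
    by_contra h
    have hcm : c ∈ A := (A.mem_or_inv_mem c).resolve_right h
    have hnu : ¬ IsUnit (⟨c, hcm⟩ : A) := by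
      rintro ⟨v, hv⟩
      have h1 : ((v : A) : ℚbar) * ((↑v⁻¹ : A) : ℚbar) = 1 := congrArg Subtype.val v.mul_inv
      rw [hv] at h1
      exact h (eq_inv_of_mul_eq_one_right h1 ▸ (↑v⁻¹ : A).2)
    refine hLHS ?_
    have h2 : HahnSeries.C (⟨c, hcm⟩ : A) * (normSeries r u y₁ * qExpand A r w₂)
        = normSeries r u y₂ * qExpand A r w₁ :=
      ModularFunctionField.coeffMap_injective A.subtype Subtype.val_injective (by
        simp only [map_mul, ModularFunctionField.coeffMap_C,
          ModularFunctionField.coeffMap_qExpand']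
        exact hkey)
    rw [← h2, map_mul, ModularFunctionField.coeffMap_C, (red.map_eq_zero_iff _).mpr hnu,
      HahnSeries.C_apply, HahnSeries.single_eq_zero, zero_mul]
  set d : A := ⟨c⁻¹, hcA⟩ with hd
  have hkey' : normSeries r u y₁ * qExpand A r w₂
      = HahnSeries.C d * (normSeries r u y₂ * qExpand A r w₁) := by
    refine ModularFunctionField.coeffMap_injective A.subtype Subtype.val_injective ?_
    simp only [map_mul, ModularFunctionField.coeffMap_C, ModularFunctionField.coeffMap_qExpand']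
    rw [← hkey, ← mul_assoc (HahnSeries.C (A.subtype d)), ← map_mul,
      show A.subtype d * c = 1 from inv_mul_cancel₀ hc, map_one, one_mul]
  have heq : qExpand k r ((red.res (⟨_, red.algebraMap_mem d⟩ * x₁) :
      modularFunctionFieldFullC k M) : LaurentSeries k) = normSeries r ub (red.res x) := by
    refine mul_right_cancel₀ (hnne _ hy₂0) (mul_right_cancel₀ (hqne _ hw₂0) ?_)
    have h := congrArg (coeffMap π) hkey'
    simp only [map_mul, hπn, ModularFunctionField.coeffMap_C,
      ModularFunctionField.coeffMap_qExpand', ← hwres] at h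
    have hres' : red.res (⟨_, red.algebraMap_mem d⟩ * x₁)
        = algebraMap k (modularFunctionFieldFullC k M) (π d) * red.res x₁ :=
      (map_mul _ _ _).trans (congrArg (· * red.res x₁) (red.res_algebraMap d))
    rw [hres']
    push_cast
    rw [← map_mul (normSeries r ub), hres, h,
      algebraMap_laurentSeries_eq_single, ← HahnSeries.C_apply, map_mul, qExpand_C]
    ring
  generalize hxd : (⟨_, red.algebraMap_mem d⟩ : red.V) * x₁ = xd at heq
  refine ⟨xd, ?_, ?_, heq⟩
  · rw [← hxd]
    show algebraMap ℚbar _ c⁻¹ * (x₁ : modularFunctionFieldBar M) = _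
    rw [hx₁, Algebra.smul_def, ← mul_assoc, ← map_mul, inv_mul_cancel₀ hc, map_one, one_mul]
  · intro h0
    rw [h0] at heq
    refine hnne _ hr0 (heq.symm.trans ?_)
    rw [show ((0 : modularFunctionFieldFullC k M) : LaurentSeries k) = 0 from rfl, map_zero]

end Norm

section Kernel

variable {A : ValuationSubring (AlgebraicClosure ℚ)} {M : ℕ} [NeZero M] {g : ℕ} {c : ℤ}
  {H : Divisor ℚbar (modularFunctionFieldBar M)}
  {Hb : Divisor (IsLocalRing.ResidueField A)
    (modularFunctionFieldFullC (IsLocalRing.ResidueField A) M)}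
  {red : Reduction (modularFunctionFieldBar M)
    (modularFunctionFieldFullC (IsLocalRing.ResidueField A) M) A (IsLocalRing.residue A)}
variable {N : ℕ} [NeZero N] (G : GoodModel red g c H Hb)
  (ι : modularFunctionFieldBar N →ₐ[ℚbar] modularFunctionFieldBar M)
  (hιint : ι.toRingHom.IsIntegral)

/-- A Hecke operator at `r ∤ N` preserves the kernel of reduction on divisors of degree zero. -/
theorem lowerDivMap_hecke_eq_zero (hred : IsSeriesReduction red)
    (hι : ∀ f, (ι f : LaurentSeries ℚbar) = (f : LaurentSeries ℚbar))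
    {r : ℕ} [NeZero r] (hr : r.Prime) (hrN : ¬ r ∣ N)
    {T : Divisor ℚbar (modularFunctionFieldBar N) →+ Divisor ℚbar (modularFunctionFieldBar N)}
    {b : ℕ} (hT : Scales T b)
    (hTdiv : ∀ (f : modularFunctionFieldBar N) (D : Divisor ℚbar (modularFunctionFieldBar N)),
        f ≠ 0 → (∀ v, D v = v.ord f) → ∀ v, T D v = v.ord (Hecke.heckeNorm ℚbar N r f))
    {D : Divisor ℚbar (modularFunctionFieldBar N)} (hD : Divisor.degree D = 0)
    (hLD : G.lowerDivMap ι hιint D = 0) : G.lowerDivMap ι hιint (T D) = 0 := by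
  have : NeZero ((r : ℕ) : ℚbar) := ⟨Nat.cast_ne_zero.mpr (NeZero.ne r)⟩
  obtain ⟨z₀, hz₀⟩ := HasEnoughRootsOfUnity.exists_primitiveRoot ℚbar r
  obtain ⟨z, rfl⟩ := hz₀.isUnit (NeZero.ne r)
  replace hz₀ := IsPrimitiveRoot.coe_units_iff.mp hz₀
  obtain ⟨u, hu, -⟩ := exists_unit_val_eq A (NeZero.ne r) hz₀.pow_eq_one
  rw [← hu] at hz₀
  obtain ⟨c₀, hc₀⟩ := exists_riemannData ℚbar (modularFunctionFieldBar N)
  set R₀ := hc₀ c₀ le_rfl with hR₀
  refine map_eq_zero_of_lowerDivMap_eq_zero G ι hιint (Hecke.fundamentalIdentityAlong ι hιint) R₀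
    (ψ := (G.lowerDivMap ι hιint).comp T)
    (hT.comp (G.scales_lowerDivMap ι hιint (Hecke.fundamentalIdentityAlong ι hιint)))
    (fun f f' x y hx hy hx0 hxy => ?_) hD hLD
  have key : ∀ (f : modularFunctionFieldBar N) (x : red.V),
      (x : modularFunctionFieldBar M) = ι f → red.res x ≠ 0 →
      ∃ x' : red.V, G.lowerDivMap ι hιint (T (R₀.div f)) = G.riemann'.div (red.res x') ∧
        qExpand _ r (red.res x' : LaurentSeries (IsLocalRing.ResidueField A))
          = normSeries r (Units.map (IsLocalRing.residue A : A →* IsLocalRing.ResidueField A) u)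
              (red.res x : LaurentSeries (IsLocalRing.ResidueField A)) := by
    intro f x hx hx0
    have hf : f ≠ 0 := fun h => red.coe_ne_zero hx0 (by rw [hx, h, map_zero])
    obtain ⟨x', hx', hx'0, hq⟩ := exists_norm_residue hred ι hι hr hrN hz₀ f x hx hx0
    exact ⟨x', G.lowerDivMap_div ι hιint (fun v => hTdiv f _ hf (fun w => R₀.div_apply f w) v)
      hx' hx'0, hq⟩
  obtain ⟨x', h1, h2⟩ := key f x hx hx0
  obtain ⟨y', h3, h4⟩ := key f' y hy (hxy ▸ hx0)
  rw [AddMonoidHom.comp_apply, AddMonoidHom.comp_apply, h1, h3,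
    show red.res x' = red.res y' from Subtype.ext (qExpand_injective r (by rw [h2, h4, hxy]))]

/-- The classes of divisors of degree zero killed by the reduction, as a subgroup. -/
def divisorKernel : AddSubgroup (JZero N) where
  carrier := {x | ∃ D : Divisor.degZero (K := ℚbar) (F := modularFunctionFieldBar N),
    G.lowerDivMap ι hιint (D : Divisor ℚbar (modularFunctionFieldBar N)) = 0 ∧ Pic0.mk D = x}
  zero_mem' := ⟨0, map_zero _, rfl⟩
  add_mem' := by
    rintro _ _ ⟨D, hD, rfl⟩ ⟨E, hE, rfl⟩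
    exact ⟨D + E, by rw [AddSubgroup.coe_add, map_add, hD, hE, add_zero], rfl⟩
  neg_mem' := by
    rintro _ ⟨D, hD, rfl⟩
    exact ⟨-D, by rw [AddSubgroup.coe_neg, map_neg, hD, neg_zero], rfl⟩

variable {G ι hιint}

omit [NeZero N] in
/-- The class of a divisor killed by the reduction lies in the kernel. -/
theorem mk_mem_divisorKernel {D : Divisor.degZero (K := ℚbar) (F := modularFunctionFieldBar N)}
    (hD : G.lowerDivMap ι hιint (D : Divisor ℚbar (modularFunctionFieldBar N)) = 0) :
    (Pic0.mk D : JZero N) ∈ divisorKernel G ι hιint :=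
  ⟨D, hD, rfl⟩

/-- The kernel is stable under the anemic Hecke algebra. -/
theorem smul_mem_divisorKernel (hN : N.Prime) (hcomm : HeckeOperatorsCommuteBar N)
    (hred : IsSeriesReduction red)
    (hι : ∀ f, (ι f : LaurentSeries ℚbar) = (f : LaurentSeries ℚbar))
    (t : EisensteinDescent.awayAlg N) {x : JZero N} (hx : x ∈ divisorKernel G ι hιint) :
    t • x ∈ divisorKernel G ι hιint := by
  obtain ⟨t, ht⟩ := t
  show t x ∈ _
  induction ht using Algebra.adjoin_induction generalizing x with
  | mem y hy =>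
    obtain ⟨⟨r, hr⟩, hrne, rfl⟩ := hy
    have : NeZero r := ⟨hr.ne_zero⟩
    obtain ⟨D, hD, rfl⟩ := hx
    obtain ⟨T, b, hT, hTdiv, hgen⟩ := exists_heckeGen_smul_eq N hcomm hr
    obtain ⟨hTD, hgen⟩ := hgen D
    have hop : heckeOperatorBar N ⟨r, hr⟩ (Pic0.mk D) = Pic0.mk ⟨T _, hTD⟩ :=
      (letI := heckeModuleBar N
       (heckeModuleBar_heckeGen_smul hcomm ⟨r, hr⟩ (Pic0.mk D)).symm).trans hgen
    rw [hop]
    exact mk_mem_divisorKernel (lowerDivMap_hecke_eq_zero G ι hιint hred hι hr
      (fun hd => hrne ((Nat.prime_dvd_prime_iff_eq hr hN).mp hd)) hT hTdiv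
      (Divisor.mem_degZero.mp D.2) hD)
  | algebraMap a =>
    rw [Module.algebraMap_end_apply]
    exact zsmul_mem hx a
  | add y z _ _ hy hz => rw [LinearMap.add_apply]; exact add_mem (hy hx) (hz hx)
  | mul y z _ _ hy hz => rw [Module.End.mul_apply]; exact hy (hz hx)

variable (G ι hιint) in
/-- The kernel of reduction as a module over the anemic Hecke algebra. -/
def kernelModule (hN : N.Prime) (hcomm : HeckeOperatorsCommuteBar N)
    (hred : IsSeriesReduction red)
    (hι : ∀ f, (ι f : LaurentSeries ℚbar) = (f : LaurentSeries ℚbar)) :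
    Submodule (EisensteinDescent.awayAlg N) (JZero N) :=
  { (divisorKernel G ι hιint).toAddSubmonoid with
    smul_mem' := fun t _ hx => smul_mem_divisorKernel hN hcomm hred hι t hx }

@[simp] theorem mem_kernelModule {hN : N.Prime} {hcomm : HeckeOperatorsCommuteBar N}
    {hred : IsSeriesReduction red}
    {hι : ∀ f, (ι f : LaurentSeries ℚbar) = (f : LaurentSeries ℚbar)} {x : JZero N} :
    x ∈ kernelModule G ι hιint hN hcomm hred hι ↔ x ∈ divisorKernel G ι hιint :=
  Iff.rfl

/-- The kernel meets the torsion prime to the residue characteristic trivially. -/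
theorem eq_zero_of_mem_divisorKernel {ℓ : ℕ} (hℓ : ℓ.Prime) (hA : A.LiesOverPrime ℓ)
    (hpull : ∀ m : ℕ, ¬ ℓ ∣ m → ∀ D : Divisor ℚbar (modularFunctionFieldBar N),
      Divisor.degree D = 0 → (m • D).IsPrincipal →
      (Divisor.pullbackAlong ι hιint D).IsPrincipal → D.IsPrincipal)
    {p : ℕ} (hp : ¬ ℓ ∣ p) {x : JZero N} (hx : x ∈ divisorKernel G ι hιint) {n : ℕ}
    (hn : p ^ n • x = 0) : x = 0 := by
  have : CharP (IsLocalRing.ResidueField A) ℓ := GaloisBasics.residueField_charP hA hℓ
  have hndvd : ¬ ℓ ∣ p ^ n := fun h => hp (hℓ.dvd_of_dvd_pow h)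
  obtain ⟨D, hD, rfl⟩ := hx
  refine G.lowerPicMap_injOn_torsion ι hιint (Hecke.fundamentalIdentityAlong ι hιint)
    (hpull _ hndvd) (fun h => hndvd ((CharP.cast_eq_zero_iff _ ℓ _).mp h)) hn ?_
  rw [G.lowerPicMap_mk]
  exact (QuotientAddGroup.eq_zero_iff _).mpr
    (AddSubgroup.mem_addSubgroupOf.mpr (by simp only [hD]; exact zero_mem _))

end Kernel

end Fermat.Agent.MazurPoint
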