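import Fermat.Agent.MazurPoint.Counts
import Fermat.Agent.FreyQuotient.Bad

/-!
# No rational point of large prime order at a place of additive reduction (`q ≥ 5`)

For `y² = x³ + a x + b` let `q ^ m` be the exact power of `q` dividing both `a ^ 3` and `b ^ 2`, so
`1 ≤ m < 12` (`exists_unit_part`).  Over `ℚ̄` scale by `u` with `u ^ 12 = q ^ m`: the model becomes
integral with good or nodal reduction, and a rational point of order `N` gets integral coordinates
(`exists_coords_of_fixed`).  As `12 ∤ m`, all its multiples have `x ≡ 0`, or all have `y ≡ 0`.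
These loci have at most three smooth points (`card_le_three_of_short`), so the point reduces to the
node (`singP_of_multiples_on_axis`).  Then so does its double and `m = 6` (twisted node), which
contradicts the duplication formula by a parity argument on `q`-adic valuations
(`sq_ne_four_mul_sq_mul`).
-/

set_option autoImplicit false

namespace Fermat.Agent.MazurPoint

open WeierstrassCurve Fermat.Agent.ECReduction Fermat.Agent.FreyQuotient
open scoped WeierstrassCurve.Affine

local notation "Qb" => AlgebraicClosure ℚ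

/-- The short Weierstrass curve with coefficients `a`, `b`. -/
def shortZ (a b : ℤ) : WeierstrassCurve ℤ := ⟨0, 0, 0, a, b⟩

variable {A : ValuationSubring (AlgebraicClosure ℚ)} {q N : ℕ}

/-- The exponent of a rational number whose scaled value is a unit. -/
lemma exponent_of_unit (hA : A.LiesOverPrime q) (hq : q.Prime) {m k : ℕ} {u z : Qb}
    (hu : u ^ k = (q : Qb) ^ m) (hu0 : u ≠ 0) {r : ℚ}
    (hr : algebraMap ℚ Qb r = u * z) (hz : A.valuation z = 1) :
    r ≠ 0 ∧ (k : ℤ) * padicValRat q r = m := by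
  have hz0 : z ≠ 0 := by rintro rfl; simp at hz
  have hr0 : r ≠ 0 := fun h => mul_ne_zero hu0 hz0 (by rw [← hr, h, map_zero])
  refine ⟨hr0, ?_⟩
  have h := congrArg (fun w : Qb => A.valuation (w ^ k)) hr
  simp only [mul_pow, map_mul, map_pow, hu, hz, one_pow, mul_one, val_rat hA hq hr0] at h
  rw [← zpow_natCast, ← zpow_mul, ← zpow_natCast] at h
  have := zpow_right_injective₀ (val_prime_pos hq) (ne_of_lt hA) h
  linarith

section Short

variable {K : Type*} [Field K] {E : WeierstrassCurve.Affine K} [E.IsShortNF]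

/-- On `y² = x³ + a₄x + a₆` at most three points other than `O` have `x = 0`, or have `y = 0`. -/
lemma card_le_three_of_short (s : Finset E.Point)
    (h : (∀ P ∈ s, ∃ y h, P = Affine.Point.some 0 y h) ∨
      ∀ P ∈ s, ∃ x h, P = Affine.Point.some x 0 h) : s.card ≤ 3 := by
  classical
  rcases h with h | h
  · choose! y hy hP using h
    refine le_trans (Finset.card_le_card_of_injOn y
      (t := (Polynomial.X ^ 2 - Polynomial.C E.a₆).roots.toFinset) (fun P hPs => ?_)
      fun P hPs Q hQs he => ?_)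
      ((Multiset.toFinset_card_le _).trans ((Polynomial.card_roots' _).trans
        (by compute_degree!)))
    · have he := (Affine.equation_iff _ _).mp (hy P hPs).1
      simp only [a₁_of_isShortNF, a₂_of_isShortNF, a₃_of_isShortNF] at he
      rw [Finset.mem_coe, Multiset.mem_toFinset, Polynomial.mem_roots]
      · simp only [Polynomial.IsRoot.def, Polynomial.eval_sub, Polynomial.eval_pow,
          Polynomial.eval_X, Polynomial.eval_C]
        linear_combination he
      · exact fun h0 => by simpa using congrArg (fun p => Polynomial.coeff p 2) h0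
    · rw [hP P hPs, hP Q hQs]
      simp only [Affine.Point.some.injEq, true_and]
      exact he
  · choose! x hx hP using h
    refine (Finset.card_le_card_of_injOn x
      (t := (Polynomial.X ^ 3 + Polynomial.C E.a₄ * Polynomial.X +
        Polynomial.C E.a₆).roots.toFinset) (fun P hPs => ?_) fun P hPs Q hQs he => ?_).trans
      ((Multiset.toFinset_card_le _).trans ((Polynomial.card_roots' _).trans
        (by compute_degree!)))
    · have he := (Affine.equation_iff _ _).mp (hx P hPs).1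
      simp only [a₁_of_isShortNF, a₂_of_isShortNF, a₃_of_isShortNF] at he
      rw [Finset.mem_coe, Multiset.mem_toFinset, Polynomial.mem_roots]
      · simp only [Polynomial.IsRoot.def, Polynomial.eval_add, Polynomial.eval_pow,
          Polynomial.eval_X, Polynomial.eval_mul, Polynomial.eval_C]
        linear_combination -he
      · exact fun h0 => by simpa using congrArg (fun p => Polynomial.coeff p 3) h0
    · rw [hP P hPs, hP Q hQs]
      simp only [Affine.Point.some.injEq, and_true]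
      exact he

/-- Duplication formula on `y² = x³ + a₄x + a₆`, cleared of denominators. -/
lemma double_short [DecidableEq K] (h2 : (2 : K) ≠ 0) {x y x₂ y₂ : K} {h : E.Nonsingular x y}
    {h₂ : E.Nonsingular x₂ y₂}
    (hd : 2 • Affine.Point.some x y h = Affine.Point.some x₂ y₂ h₂) :
    y ≠ 0 ∧ (3 * x ^ 2 + E.a₄) ^ 2 = 4 * y ^ 2 * (x₂ + 2 * x) := by
  rw [two_nsmul] at hd
  have hyn : y ≠ E.negY x y := fun hy =>
    Affine.Point.some_ne_zero h₂ (hd ▸ Affine.Point.add_of_Y_eq rfl hy)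
  have hy0 : y ≠ 0 := by
    rintro rfl
    exact hyn (by simp [Affine.negY])
  refine ⟨hy0, ?_⟩
  have hsl : E.slope x x y y * (2 * y) = 3 * x ^ 2 + E.a₄ := by
    rw [Affine.slope_of_Y_ne rfl hyn]
    simp only [Affine.negY, a₁_of_isShortNF, a₂_of_isShortNF, a₃_of_isShortNF]
    rw [show y - (-y - 0 * x - 0) = 2 * y by ring,
      div_mul_cancel₀ _ (mul_ne_zero h2 hy0)]
    ring
  rw [Affine.Point.add_self_of_Y_ne hyn, Affine.Point.some.injEq] at hd
  rw [← hd.1, Affine.addX, a₁_of_isShortNF, a₂_of_isShortNF, ← hsl]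
  ring

omit [E.IsShortNF] in
/-- Scaling `y² = x³ + a₄x + a₆` by `u` gives the short model with coefficients `a₄/u⁴`,
`a₆/u⁶`. -/
lemma scale_short {W : WeierstrassCurve K} [W.IsShortNF] (u : Kˣ)
    (hE : E = (⟨u, 0, 0, 0⟩ : VariableChange K) • W) :
    E.IsShortNF ∧ E.a₄ * (u : K) ^ 4 = W.a₄ ∧ E.a₆ * (u : K) ^ 6 = W.a₆ := by
  subst hE
  refine ⟨⟨by simp [variableChange_a₁], by simp [variableChange_a₂], by simp [variableChange_a₃]⟩,
    ?_, ?_⟩ <;> simp [variableChange_a₄, variableChange_a₆] <;> field_simp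

variable {A : ValuationSubring K} {x y x₂ y₂ : K}

/-- At a singular reduction on `y² = x³ + a₄x + a₆` (residue characteristic `≠ 2`) both
`3x² + a₄` and `2x³ - a₆` are small. -/
lemma small_of_sing_short (h2 : A.valuation (2 : K) = 1) (heq : E.Equation x y)
    (hs : Sing A E x y) :
    A.valuation (3 * x ^ 2 + E.a₄) < 1 ∧ A.valuation (2 * x ^ 3 - E.a₆) < 1 := by
  have hX := hs.hX
  have hY := hs.hY
  simp only [a₁_of_isShortNF, a₂_of_isShortNF, a₃_of_isShortNF, zero_mul, mul_zero, zero_sub,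
    add_zero, Valuation.map_neg, map_mul, h2, one_mul] at hX hY
  refine ⟨hX, ?_⟩
  have he := (Affine.equation_iff x y).mp heq
  simp only [a₁_of_isShortNF, a₂_of_isShortNF, a₃_of_isShortNF] at he
  rw [show 2 * x ^ 3 - E.a₆ = -(y * y) + x * (3 * x ^ 2 + E.a₄) by linear_combination he]
  exact A.valuation.map_add_lt (by rw [Valuation.map_neg]; exact val_mul_lt hs.memY hY)
    (val_mul_lt hs.memX hX)

/-- The singular point of a short model that is not cuspidal has unit `x`-coordinate. -/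
lemma valuation_eq_one_of_sing_short (h2 : A.valuation (2 : K) = 1)
    (hab : ¬ (A.valuation E.a₄ < 1 ∧ A.valuation E.a₆ < 1)) (heq : E.Equation x y)
    (hs : Sing A E x y) : A.valuation x = 1 := by
  obtain ⟨k1, k2⟩ := small_of_sing_short h2 heq hs
  refine le_antisymm hs.memX (le_of_not_gt fun hx => hab ⟨?_, ?_⟩)
  · rw [show E.a₄ = (3 * x ^ 2 + E.a₄) + (-3 * x) * x by ring]
    exact A.valuation.map_add_lt k1
      (val_mul_lt (val_mul_le (by rw [Valuation.map_neg]; exact val_ofNat_le_one 3) hs.memX) hx)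
  · rw [show E.a₆ = -(2 * x ^ 3 - E.a₆) + (2 * x ^ 2) * x by ring]
    exact A.valuation.map_add_lt (by rwa [Valuation.map_neg]) (val_mul_lt
      (val_mul_le val_two_le_one (by rw [map_pow]; exact pow_le_one₀ zero_le hs.memX)) hx)

/-- Two points with singular reduction on a short model have congruent `x`-coordinates. -/
lemma valuation_sub_lt_one_of_sing_short (h2 : A.valuation (2 : K) = 1)
    (h3 : A.valuation (3 : K) = 1) (hx : A.valuation x = 1) (heq : E.Equation x y)
    (heq₂ : E.Equation x₂ y₂) (hs : Sing A E x y) (hs₂ : Sing A E x₂ y₂) :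
    A.valuation (x₂ - x) < 1 := by
  obtain ⟨k1, k2⟩ := small_of_sing_short h2 heq hs
  obtain ⟨k3, k4⟩ := small_of_sing_short h2 heq₂ hs₂
  have hprod : A.valuation (2 * 3 * x ^ 2 * (x₂ - x)) < 1 := by
    rw [show 2 * 3 * x ^ 2 * (x₂ - x) = (-2 * x₂) * ((3 * x₂ ^ 2 + E.a₄) + -(3 * x ^ 2 + E.a₄))
      + 3 * ((2 * x₂ ^ 3 - E.a₆) + -(2 * x ^ 3 - E.a₆)) by ring]
    exact A.valuation.map_add_lt
      (val_mul_lt (val_mul_le (by rw [Valuation.map_neg]; exact val_two_le_one) hs₂.memX)
        (A.valuation.map_add_lt k3 (by rwa [Valuation.map_neg])))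
      (val_mul_lt (val_ofNat_le_one 3)
        (A.valuation.map_add_lt k4 (by rwa [Valuation.map_neg])))
  simpa only [map_mul, map_pow, h2, h3, hx, one_pow, one_mul] using hprod

omit [E.IsShortNF] in
/-- A point of odd order with singular reduction has a double with singular reduction. -/
lemma singP_two_nsmul [DecidableEq K] (hE : IntegralCoeffs A E)
    {n : ℕ} (hn : Odd n) {P : E.Point} (hP : n • P = 0) (hs : SingP A P) :
    SingP A (2 • P) := by
  by_contra hns
  rw [← mem_goodPts hE] at hns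
  refine (mem_goodPts hE P).mp ?_ hs
  obtain ⟨k, rfl⟩ := hn
  have hPe : P = (k + 1) • 2 • P := by
    rw [← mul_nsmul', show (k + 1) * 2 = (2 * k + 1) + 1 by ring, succ_nsmul, hP, zero_add]
  rw [hPe]
  exact nsmul_mem hns _

/-- On an integral short model, a point of order `N ≥ 5` (prime to the residue characteristic) all
of whose nonzero multiples satisfy `x ≡ 0`, or all `y ≡ 0`, has singular reduction. -/
lemma singP_of_multiples_on_axis [DecidableEq K] (hE : IntegralCoeffs A E) {N : ℕ}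
    (hN5 : 5 ≤ N) (hNk : (N : IsLocalRing.ResidueField A) ≠ 0) {P : E.Point}
    (hord : addOrderOf P = N)
    (h : (∀ k, 0 < k → k < N →
        ∃ x y h, k • P = Affine.Point.some x y h ∧ A.valuation x < 1) ∨
      ∀ k, 0 < k → k < N →
        ∃ x y h, k • P = Affine.Point.some x y h ∧ A.valuation y < 1) :
    SingP A P := by
  classical
  by_contra hns
  set F := redOf hE
  have hEF := curveRed_redOf hE
  have : F.IsShortNF :=
    ⟨hEF.a₁.unique (Red.of_valuation_lt_one _ (by simp)),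
      hEF.a₂.unique (Red.of_valuation_lt_one _ (by simp)),
      hEF.a₃.unique (Red.of_valuation_lt_one _ (by simp))⟩
  rw [singP_iff hEF, not_not] at hns
  obtain ⟨R, hR⟩ := hns
  have hRk : ∀ k : ℕ, PointRed (IsLocalRing.residue A) (k • P) (k • R) := by
    intro k
    induction k with
    | zero => rw [zero_nsmul, zero_nsmul]; exact pointRed_zero
    | succ k ih => rw [succ_nsmul, succ_nsmul]; exact ih.add hEF hR
  have hNP : ∀ k : ℕ, N • k • P = 0 := fun k => by
    rw [smul_comm, ← hord, addOrderOf_nsmul_eq_zero, nsmul_zero]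
  have hinj : ∀ i j : ℕ, i < N → j < N → i • R = j • R → i = j := fun i j hi hj hij =>
    nsmul_injOn_Iio_addOrderOf (x := P) (by rwa [Set.mem_Iio, hord])
      (by rwa [Set.mem_Iio, hord])
      ((hRk i).eq_of_nsmul_eq_zero hEF hNk (hij ▸ hRk j) (hNP i) (hNP j))
  have hne : ∀ k, 0 < k → k < N → k • R ≠ 0 := fun k hk0 hkN h0 =>
    hk0.ne' (hinj k 0 hkN (by omega) (h0.trans (zero_nsmul R).symm))
  have hcard : ((Finset.Icc 1 (N - 1)).image fun k => k • R).card = N - 1 := by
    rw [Finset.card_image_of_injOn, Nat.card_Icc, Nat.add_sub_cancel]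
    intro i hi j hj hij
    rw [Finset.mem_coe, Finset.mem_Icc] at hi hj
    exact hinj i j (by omega) (by omega) hij
  refine absurd (card_le_three_of_short (E := F)
    ((Finset.Icc 1 (N - 1)).image fun k => k • R) ?_) (by omega)
  refine h.imp (fun h Z hZ => ?_) (fun h Z hZ => ?_) <;>
  · obtain ⟨k, hk, rfl⟩ := Finset.mem_image.mp hZ
    rw [Finset.mem_Icc] at hk
    obtain ⟨x, y, hxy, hkP, hlt⟩ := h k (by omega) (by omega)
    have hRk' := hRk k
    rw [hkP] at hRk'
    rcases hRk' with ⟨-, h0⟩ | ⟨c, d, hcd, hxc, hyd, heq⟩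
    · exact absurd h0 (hne k (by omega) (by omega))
    · first
        | obtain rfl : c = 0 := hxc.valuation_lt_one_iff.mp hlt
          exact ⟨d, hcd, heq⟩
        | obtain rfl : d = 0 := hyd.valuation_lt_one_iff.mp hlt
          exact ⟨c, hcd, heq⟩

end Short

variable {a b : ℤ}

/-- The exact power `q ^ m` of `q` dividing `a ^ 3` and `b ^ 2`: if `q` divides `a`, `b` and the
model is minimal at `q` then `1 ≤ m < 12`, and one of the cofactors is prime to `q`. -/
lemma exists_unit_part (hq : q.Prime) (ha : (q : ℤ) ∣ a) (hb : (q : ℤ) ∣ b)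
    (hmin : ¬ ((q : ℤ) ^ 4 ∣ a ∧ (q : ℤ) ^ 6 ∣ b)) :
    ∃ (m : ℕ) (a₁ b₁ : ℤ), 1 ≤ m ∧ m < 12 ∧ a ^ 3 = (q : ℤ) ^ m * a₁ ∧
      b ^ 2 = (q : ℤ) ^ m * b₁ ∧ (¬ (q : ℤ) ∣ a₁ ∨ ¬ (q : ℤ) ∣ b₁) := by
  have := Fact.mk hq
  set G := Int.gcd (a ^ 3) (b ^ 2) with hG
  have hG0 : G ≠ 0 := by
    intro h
    rw [hG, Int.gcd_eq_zero_iff, pow_eq_zero_iff three_ne_zero, pow_eq_zero_iff two_ne_zero] at h
    exact hmin ⟨h.1 ▸ dvd_zero _, h.2 ▸ dvd_zero _⟩
  set m := padicValNat q G with hm
  have hqG : ∀ n : ℕ, (q : ℤ) ^ n ∣ a ^ 3 → (q : ℤ) ^ n ∣ b ^ 2 → n ≤ m := by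
    intro n h1 h2
    have h : ((q ^ n : ℕ) : ℤ) ∣ (G : ℤ) := by push_cast; exact Int.dvd_coe_gcd h1 h2
    exact (padicValNat_dvd_iff_le hG0).mp (Int.natCast_dvd_natCast.mp h)
  have hdG : (q : ℤ) ^ m ∣ (G : ℤ) := by
    exact_mod_cast (Int.natCast_dvd_natCast.mpr (pow_padicValNat_dvd (p := q) (n := G)))
  obtain ⟨a₁, ha₁⟩ := hdG.trans (Int.gcd_dvd_left _ _)
  obtain ⟨b₁, hb₁⟩ := hdG.trans (Int.gcd_dvd_right _ _)
  have hunit : ¬ (q : ℤ) ∣ a₁ ∨ ¬ (q : ℤ) ∣ b₁ := by
    by_contra! h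
    have := hqG (m + 1) (by rw [ha₁, pow_succ]; exact mul_dvd_mul_left _ h.1)
      (by rw [hb₁, pow_succ]; exact mul_dvd_mul_left _ h.2)
    omega
  have hm1 : 1 ≤ m :=
    hqG 1 (by rw [pow_one]; exact dvd_pow ha three_ne_zero)
      (by rw [pow_one]; exact dvd_pow hb two_ne_zero)
  have hm12 : m < 12 := by
    by_contra! h12
    refine hmin ⟨(Int.pow_dvd_pow_iff three_ne_zero).mp ?_,
      (Int.pow_dvd_pow_iff two_ne_zero).mp ?_⟩
    · rw [← pow_mul, ha₁]; exact Dvd.dvd.mul_right (pow_dvd_pow _ h12) _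
    · rw [← pow_mul, hb₁]; exact Dvd.dvd.mul_right (pow_dvd_pow _ h12) _
  exact ⟨m, a₁, b₁, hm1, hm12, ha₁, hb₁, hunit⟩

/-- A short model `E` obtained from `y² = x³ + a x + b` by scaling with `u`, `u ^ 12 = q ^ m`, is
integral and its reduction has no cusp, if `q ^ m` is the exact power dividing `a ^ 3`, `b ^ 2`. -/
lemma integral_of_unit_part (hA : A.LiesOverPrime q) (hq : q.Prime)
    {E : WeierstrassCurve.Affine Qb} [E.IsShortNF] {m : ℕ} {u : Qb} (hu : u ^ 12 = (q : Qb) ^ m)
    (v4 : E.a₄ * u ^ 4 = (a : Qb)) (v6 : E.a₆ * u ^ 6 = (b : Qb)) {a₁ b₁ : ℤ}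
    (ha₁ : a ^ 3 = (q : ℤ) ^ m * a₁) (hb₁ : b ^ 2 = (q : ℤ) ^ m * b₁)
    (hunit : ¬ (q : ℤ) ∣ a₁ ∨ ¬ (q : ℤ) ∣ b₁) :
    IntegralCoeffs A E ∧ ¬ (A.valuation E.a₄ < 1 ∧ A.valuation E.a₆ < 1) := by
  have hqm : (q : Qb) ^ m ≠ 0 := pow_ne_zero _ (Nat.cast_ne_zero.mpr hq.ne_zero)
  have h4 : E.a₄ ^ 3 = (a₁ : Qb) := mul_right_cancel₀ hqm <| by
    calc E.a₄ ^ 3 * (q : Qb) ^ m = (E.a₄ * u ^ 4) ^ 3 := by rw [← hu]; ring
      _ = (a₁ : Qb) * (q : Qb) ^ m := by rw [v4, ← Int.cast_pow, ha₁]; push_cast; ring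
  have h6 : E.a₆ ^ 2 = (b₁ : Qb) := mul_right_cancel₀ hqm <| by
    calc E.a₆ ^ 2 * (q : Qb) ^ m = (E.a₆ * u ^ 6) ^ 2 := by rw [← hu]; ring
      _ = (b₁ : Qb) * (q : Qb) ^ m := by rw [v6, ← Int.cast_pow, hb₁]; push_cast; ring
  refine ⟨⟨by simp, by simp, by simp, (pow_le_one_iff three_ne_zero).mp ?_,
    (pow_le_one_iff two_ne_zero).mp ?_⟩, ?_⟩
  · rw [← map_pow, h4]; exact (A.valuation_le_one_iff _).mpr (intCast_mem A a₁)
  · rw [← map_pow, h6]; exact (A.valuation_le_one_iff _).mpr (intCast_mem A b₁)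
  rintro ⟨l4, l6⟩
  rcases hunit with h | h
  · have := pow_lt_one₀ zero_le l4 three_ne_zero
    rw [← map_pow, h4, FreyUnramified.valuation_intCast_eq_one hA hq h] at this
    exact lt_irrefl _ this
  · have := pow_lt_one₀ zero_le l6 two_ne_zero
    rw [← map_pow, h6, FreyUnramified.valuation_intCast_eq_one hA hq h] at this
    exact lt_irrefl _ this

open scoped Classical in
/-- The nonzero multiples of a rational point of order `N` prime to the residue characteristic are
integral on every integral model over `ℚ̄`, with rational coordinates on the original model. -/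
lemma exists_coords_of_fixed {W₀ : WeierstrassCurve ℚ} {C : VariableChange Qb}
    {V : WeierstrassCurve.Affine Qb} (hV : V = C • (W₀⁄Qb)) (hVi : IntegralCoeffs A V)
    (hNu : A.valuation (N : Qb) = 1) {P : (W₀⁄Qb).Point} {P' : V.Point}
    (hP' : VariableChangePoints.pointAddEquiv hV P' = P)
    (hfix : ∀ σ : Qb ≃ₐ[ℚ] Qb, σ • P = P) (hord : addOrderOf P' = N) {k : ℕ} (hk0 : 0 < k)
    (hkN : k < N) :
    ∃ x y h, k • P' = Affine.Point.some x y h ∧ A.valuation x ≤ 1 ∧ A.valuation y ≤ 1 ∧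
      ∃ r s : ℚ, algebraMap ℚ Qb r = VariableChangePoints.mapX C x ∧
        algebraMap ℚ Qb s = VariableChangePoints.mapY C x y := by
  rcases hh : k • P' with _ | ⟨x, y, h⟩
  · exact absurd (Nat.le_of_dvd hk0 (hord ▸ addOrderOf_dvd_iff_nsmul_eq_zero.mpr hh)) (by omega)
  have htor : N • Affine.Point.some x y h = 0 := by
    rw [← hh, smul_comm, ← hord, addOrderOf_nsmul_eq_zero, nsmul_zero]
  have hx : x ∈ A := by
    by_contra hx
    exact Affine.Point.some_ne_zero h
      (hVi.eq_zero_of_nsmul_eq_zero (P := Affine.Point.some x y h) hx hNu htor)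
  refine ⟨x, y, h, rfl, (A.valuation_le_one_iff _).mpr hx,
    (A.valuation_le_one_iff _).mpr (hVi.mem_Y h.1 hx), ?_⟩
  have he' : k • P = VariableChangePoints.pointAddEquiv hV (Affine.Point.some x y h) := by
    rw [← hh, map_nsmul, hP']
  rw [VariableChangePoints.pointAddEquiv_some] at he'
  exact exists_rat_coords (W₀ := W₀) (h := VariableChangePoints.nonsingular_map hV h)
    (fun σ => by
      show σ • _ = _
      rw [← he', Affine.Point.algEquiv_smul_def, map_nsmul, ← Affine.Point.algEquiv_smul_def,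
        hfix])

/-- A square is not `4 s² t` when `t` has valuation one at a prime `q ≥ 5`. -/
lemma sq_ne_four_mul_sq_mul (hq : q.Prime) (hq5 : 5 ≤ q) {w s t : ℚ} (hs : s ≠ 0)
    (ht : padicValRat q t = 1) : w ^ 2 ≠ 4 * s ^ 2 * t := by
  intro h
  have := Fact.mk hq
  have ht0 : t ≠ 0 := fun h0 => by rw [h0] at ht; simp at ht
  have h4 : padicValRat q (4 : ℚ) = 0 := by
    rw [show (4 : ℚ) = ((4 : ℕ) : ℚ) by norm_num, padicValRat.of_nat,
      padicValNat.eq_zero_of_not_dvd fun h => by have := Nat.le_of_dvd (by norm_num) h; omega]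
    rfl
  have := congrArg (padicValRat q) h
  rw [padicValRat.pow, padicValRat.mul (by positivity) ht0,
    padicValRat.mul (by norm_num) (pow_ne_zero 2 hs), padicValRat.pow, h4, ht] at this
  omega

open scoped Classical in
/-- **Additive reduction is impossible**: a minimal `y² = x³ + a x + b` with `q ∣ a`, `q ∣ b` has
no rational point of prime order `N ≥ 11`, `N ≠ q`. -/
theorem false_of_additive (hq : q.Prime) (hq5 : 5 ≤ q) (hA : A.LiesOverPrime q)
    (hN : N.Prime) (hN11 : 11 ≤ N) (hqN : q ≠ N)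
    (ha : (q : ℤ) ∣ a) (hb : (q : ℤ) ∣ b) (hmin : ¬ ((q : ℤ) ^ 4 ∣ a ∧ (q : ℤ) ^ 6 ∣ b))
    {P : (((shortZ a b).map (Int.castRingHom ℚ))⁄Qb).Point}
    (hfix : ∀ σ : Qb ≃ₐ[ℚ] Qb, σ • P = P) (hord : addOrderOf P = N) : False := by
  obtain ⟨m, a₁, b₁, hm1, hm12, ha₁, hb₁, hunit⟩ := exists_unit_part hq ha hb hmin
  -- the scaled model
  obtain ⟨π, hπ⟩ := IsAlgClosed.exists_pow_nat_eq (k := Qb) (q : Qb) (show 0 < 12 by norm_num)
  have hπ0 : π ≠ 0 := by
    rintro rfl
    rw [zero_pow (by norm_num)] at hπ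
    exact Nat.cast_ne_zero.mpr hq.ne_zero hπ.symm
  have hu2 : ((π ^ m) ^ 2) ^ 6 = (q : Qb) ^ m := by rw [← hπ]; ring
  have hu3 : ((π ^ m) ^ 3) ^ 4 = (q : Qb) ^ m := by rw [← hπ]; ring
  set C : VariableChange Qb := ⟨Units.mk0 (π ^ m) (pow_ne_zero m hπ0), 0, 0, 0⟩ with hC
  have : (((shortZ a b).map (Int.castRingHom ℚ))⁄Qb).IsShortNF := by
    constructor <;> simp [shortZ]
  set V : WeierstrassCurve.Affine Qb := C • (((shortZ a b).map (Int.castRingHom ℚ))⁄Qb) with hV
  obtain ⟨hVs, v4, v6⟩ := scale_short (E := V) _ hV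
  simp only [shortZ, WeierstrassCurve.baseChange, WeierstrassCurve.map_a₄,
    WeierstrassCurve.map_a₆, eq_intCast, map_intCast, Units.val_mk0] at v4 v6
  obtain ⟨hVi, hab⟩ :=
    integral_of_unit_part hA hq (by rw [← hπ]; ring) v4 v6 ha₁ hb₁ hunit
  have hsmall : ∀ n : ℕ, n.Prime → n < q → A.valuation (n : Qb) = 1 := fun n hn hlt => by
    simpa using FreyUnramified.valuation_intCast_eq_one hA hq (n := (n : ℤ)) fun h => by
      have := (Nat.prime_dvd_prime_iff_eq hq hn).mp (Int.natCast_dvd_natCast.mp h)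
      omega
  have h2u : A.valuation (2 : Qb) = 1 := by simpa using hsmall 2 Nat.prime_two (by omega)
  have h3u : A.valuation (3 : Qb) = 1 := by simpa using hsmall 3 Nat.prime_three (by omega)
  have hNu : A.valuation (N : Qb) = 1 := by
    simpa using FreyUnramified.valuation_intCast_eq_one hA hq (n := (N : ℤ)) fun h =>
      hqN ((Nat.prime_dvd_prime_iff_eq hq hN).mp (Int.natCast_dvd_natCast.mp h))
  -- the point on the scaled model
  set e := VariableChangePoints.pointAddEquiv (C := C) (V := V)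
    (W := (((shortZ a b).map (Int.castRingHom ℚ))⁄Qb)) hV with he
  set P' : V.Point := e.symm P with hP'
  have hord' : addOrderOf P' = N := by rw [hP', AddEquiv.addOrderOf_eq]; exact hord
  have hk : ∀ k : ℕ, 0 < k → k < N → ∃ x y h, k • P' = Affine.Point.some x y h ∧
      A.valuation x ≤ 1 ∧ A.valuation y ≤ 1 ∧
      ∃ r s : ℚ, algebraMap ℚ Qb r = (π ^ m) ^ 2 * x ∧
        algebraMap ℚ Qb s = (π ^ m) ^ 3 * y := fun k hk0 hkN => by
    simpa [VariableChangePoints.mapX, VariableChangePoints.mapY, hC] using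
      exists_coords_of_fixed hV hVi hNu (e.apply_symm_apply P) hfix hord' hk0 hkN
  -- `x` a unit forces `m = 6`, `y` a unit forces `4 ∣ m`
  have hxunit : ∀ {x : Qb} {r : ℚ}, algebraMap ℚ Qb r = (π ^ m) ^ 2 * x → A.valuation x = 1 →
      m = 6 ∧ padicValRat q r = 1 := by
    intro x r hr hx
    obtain ⟨-, h⟩ := exponent_of_unit hA hq hu2 (by positivity) hr hx
    push_cast at h
    omega
  have hyunit : ∀ {y : Qb} {s : ℚ}, algebraMap ℚ Qb s = (π ^ m) ^ 3 * y → A.valuation y = 1 →
      m ≠ 6 := by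
    intro y s hs hy
    obtain ⟨-, h⟩ := exponent_of_unit hA hq hu3 (by positivity) hs hy
    push_cast at h
    omega
  -- hence the point and its double reduce to the node
  have hsing : SingP A P' := by
    refine singP_of_multiples_on_axis hVi (by omega)
      (natCast_residue_ne_zero hA hq fun h => hqN ((Nat.prime_dvd_prime_iff_eq hq hN).mp h))
      hord' ?_
    by_cases h6 : m = 6
    · refine Or.inr fun k hk0 hkN => ?_
      obtain ⟨x, y, h, hkP, -, hy, r, s, -, hs⟩ := hk k hk0 hkN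
      exact ⟨x, y, h, hkP, lt_of_le_of_ne hy fun h1 => hyunit hs h1 h6⟩
    · refine Or.inl fun k hk0 hkN => ?_
      obtain ⟨x, y, h, hkP, hx, -, r, s, hr, -⟩ := hk k hk0 hkN
      exact ⟨x, y, h, hkP, lt_of_le_of_ne hx fun h1 => h6 (hxunit hr h1).1⟩
  have hsing₂ := singP_two_nsmul hVi (hN.odd_of_ne_two (by omega))
    (hord' ▸ addOrderOf_nsmul_eq_zero P') hsing
  obtain ⟨x, y, h, hPeq, -, -, r, s, hr, hs⟩ := hk 1 one_pos (by omega)
  obtain ⟨x₂, y₂, h₂, hP2eq, -, -, r₂, s₂, hr₂, -⟩ := hk 2 two_pos (by omega)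
  rw [one_nsmul] at hPeq
  rw [hP2eq] at hsing₂
  rw [hPeq] at hsing hP2eq
  have hxu := valuation_eq_one_of_sing_short h2u hab h.1 hsing
  -- twisted node: duplication against parity
  obtain ⟨hy0, hdbl⟩ := double_short two_ne_zero hP2eq
  have hsum : A.valuation (x₂ + 2 * x) = 1 := by
    rw [show x₂ + 2 * x = 3 * x + (x₂ - x) by ring, Valuation.map_add_eq_of_lt_left _
      (by rw [map_mul, h3u, hxu, one_mul]
          exact valuation_sub_lt_one_of_sing_short h2u h3u hxu h.1 h₂.1 hsing hsing₂),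
      map_mul, h3u, hxu, one_mul]
  have hrsum : algebraMap ℚ Qb (r₂ + 2 * r) = (π ^ m) ^ 2 * (x₂ + 2 * x) := by
    rw [map_add, map_mul, hr, hr₂, map_ofNat]; ring
  obtain ⟨-, hval⟩ := hxunit hrsum hsum
  -- the unscaled identity and parity
  have hrat : (3 * r ^ 2 + (a : ℚ)) ^ 2 = 4 * s ^ 2 * (r₂ + 2 * r) := by
    apply (algebraMap ℚ Qb).injective
    rw [map_mul, hrsum]
    simp only [map_pow, map_add, map_mul, map_ofNat, map_intCast, hr, hs, ← v4]
    linear_combination (π ^ m) ^ 8 * hdbl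
  have hs0 : s ≠ 0 := fun h0 => by
    rw [h0, map_zero, eq_comm, mul_eq_zero] at hs
    exact hs.elim (pow_ne_zero 3 (pow_ne_zero m hπ0)) hy0
  exact sq_ne_four_mul_sq_mul hq hq5 hs0 hval hrat

end Fermat.Agent.MazurPoint
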