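import Fermat.Agent.MazurPoint.RatVal
import Fermat.Agent.VariableChangePoints.Basic
import Fermat.Agent.ECFrobenius.Frobenius
import Mathlib.AlgebraicGeometry.EllipticCurve.NormalForms

/-!
# Point counts: nodal and good reduction, and torsion in the identity component
-/

set_option autoImplicit false

namespace Fermat.Agent.MazurPoint

open WeierstrassCurve Fermat.Agent.ECReduction
open scoped WeierstrassCurve.Affine

section Nodal

variable {F : Type*} [Field F]

/-- The node `(ρ, 0)` of `y² = (x - ρ)² (x + 2ρ)` is not a nonsingular point. -/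
lemma sub_ne_zero_of_nonsingular {E : WeierstrassCurve.Affine F} {ρ x y : F} (h₁ : E.a₁ = 0)
    (h₂ : E.a₂ = 0) (h₃ : E.a₃ = 0) (h₄ : E.a₄ = -3 * ρ ^ 2) (h₆ : E.a₆ = 2 * ρ ^ 3)
    (h : E.Nonsingular x y) : x - ρ ≠ 0 := by
  intro hx
  obtain rfl : x = ρ := sub_eq_zero.mp hx
  have he := (Affine.equation_iff x y).mp h.1
  rw [h₁, h₂, h₃, h₄, h₆] at he
  have hy : y = 0 := pow_eq_zero_iff two_ne_zero |>.mp (by linear_combination he)
  rcases ((Affine.nonsingular_iff' x y).mp h).2 with hh | hh <;> apply hh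
  · rw [h₁, h₂, h₄]; ring
  · rw [h₁, h₃, hy]; ring

/-- The nonsingular points of `y² = (x - ρ)² (x + 2ρ)` are `O` and the `t² ≠ 3ρ`. -/
noncomputable def nodalEquiv (E : WeierstrassCurve.Affine F) (ρ : F) (h2 : (2 : F) ≠ 0)
    (hρ : 3 * ρ ≠ 0) (h₁ : E.a₁ = 0) (h₂ : E.a₂ = 0) (h₃ : E.a₃ = 0)
    (h₄ : E.a₄ = -3 * ρ ^ 2) (h₆ : E.a₆ = 2 * ρ ^ 3) :
    E.Point ≃ Option {t : F // t ^ 2 ≠ 3 * ρ} where
  toFun
    | .zero => none
    | .some x y h => some ⟨y / (x - ρ), by
        have he := (Affine.equation_iff x y).mp h.1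
        rw [h₁, h₂, h₃, h₄, h₆] at he
        have hx := sub_ne_zero_of_nonsingular h₁ h₂ h₃ h₄ h₆ h
        rw [div_pow, Ne, div_eq_iff (pow_ne_zero 2 hx)]
        intro hy
        have : (x - ρ) ^ 3 = 0 := by linear_combination hy - he
        exact hx (pow_eq_zero_iff three_ne_zero |>.mp this)⟩
  invFun
    | none => .zero
    | some t => .some (t.1 ^ 2 - 2 * ρ) (t.1 * (t.1 ^ 2 - 3 * ρ)) <| by
        rw [Affine.nonsingular_iff', Affine.equation_iff, h₁, h₂, h₃, h₄, h₆]
        refine ⟨by ring, ?_⟩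
        by_contra! hc
        have ht : t.1 ^ 2 - 3 * ρ ≠ 0 := sub_ne_zero.mpr t.2
        have ht0 : t.1 = 0 := by
          have := hc.2
          simp only [zero_mul, add_zero, mul_eq_zero, h2, ht, or_false, false_or] at this
          exact this
        have h3 : (3 * ρ) * (3 * ρ) = 0 := by
          have := hc.1
          rw [ht0] at this
          linear_combination -this
        exact hρ (mul_self_eq_zero.mp h3)
  left_inv P := by
    rcases P with _ | ⟨x, y, h⟩
    · rfl
    have he := (Affine.equation_iff x y).mp h.1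
    rw [h₁, h₂, h₃, h₄, h₆] at he
    have hx := sub_ne_zero_of_nonsingular h₁ h₂ h₃ h₄ h₆ h
    have hsq : (y / (x - ρ)) ^ 2 = x + 2 * ρ := by
      rw [div_pow, div_eq_iff (pow_ne_zero 2 hx)]
      linear_combination he
    simp only [Affine.Point.some.injEq]
    constructor
    · rw [hsq]; ring
    · rw [hsq, show x + 2 * ρ - 3 * ρ = x - ρ by ring, div_mul_cancel₀ _ hx]
  right_inv z := by
    rcases z with _ | ⟨t, ht⟩
    · rfl
    simp only [Option.some.injEq, Subtype.mk.injEq]
    rw [show t ^ 2 - 2 * ρ - ρ = t ^ 2 - 3 * ρ by ring, mul_div_assoc,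
      div_self (sub_ne_zero.mpr ht), mul_one]

/-- A nodal cubic over a finite field of characteristic `≥ 5` has `q ± 1` nonsingular points. -/
theorem card_nodal [Finite F] (V : WeierstrassCurve F) (h2 : (2 : F) ≠ 0) (h3 : (3 : F) ≠ 0)
    (hΔ : V.Δ = 0) (hc₄ : V.c₄ ≠ 0) :
    Nat.card V.toAffine.Point + 1 = Nat.card F ∨ Nat.card V.toAffine.Point = Nat.card F + 1 := by
  classical
  have : Invertible (2 : F) := invertibleOfNonzero h2
  have : Invertible (3 : F) := invertibleOfNonzero h3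
  obtain ⟨C, hC⟩ := V.exists_variableChange_isShortNF
  have := hC
  set E := C • V with hEdef
  have hΔE : E.Δ = 0 := by rw [hEdef, variableChange_Δ, hΔ, mul_zero]
  have hc₄E : E.c₄ ≠ 0 := by
    rw [hEdef, variableChange_c₄]
    exact mul_ne_zero (pow_ne_zero _ (Units.ne_zero _)) hc₄
  have hcard : Nat.card V.toAffine.Point = Nat.card E.toAffine.Point :=
    (Nat.card_congr
      (VariableChangePoints.pointAddEquiv (C := C) (V := E) (W := V) hEdef).toEquiv).symm
  rw [hcard]
  have ha4 : E.a₄ ≠ 0 := fun h => hc₄E (by rw [E.c₄_of_isShortNF, h, mul_zero])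
  have hd : 4 * E.a₄ ^ 3 + 27 * E.a₆ ^ 2 = 0 := by
    rw [E.Δ_of_isShortNF] at hΔE
    have h16 : (-16 : F) ≠ 0 := by
      rw [neg_ne_zero, show (16 : F) = 2 ^ 4 by norm_num]; exact pow_ne_zero _ h2
    exact (mul_eq_zero.mp hΔE).resolve_left h16
  set ρ := -3 * E.a₆ / (2 * E.a₄) with hρdef
  have h4 : E.a₄ = -3 * ρ ^ 2 := by
    rw [hρdef]; field_simp; linear_combination hd
  have h6 : E.a₆ = 2 * ρ ^ 3 := by
    have h' : 2 * E.a₄ * ρ = -3 * E.a₆ := by rw [hρdef]; field_simp
    rw [h4] at h'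
    exact mul_left_cancel₀ (neg_ne_zero.mpr h3) (by linear_combination -h')
  have hρ : (3 : F) * ρ ≠ 0 := mul_ne_zero h3 fun h => ha4 (by rw [h4, h]; ring)
  rw [Nat.card_congr (nodalEquiv E.toAffine ρ h2 hρ E.a₁_of_isShortNF E.a₂_of_isShortNF
    E.a₃_of_isShortNF h4 h6), Finite.card_option]
  have := Fintype.ofFinite F
  have hsum :
      Nat.card {t : F // t ^ 2 ≠ 3 * ρ} + Nat.card {t : F // t ^ 2 = 3 * ρ} = Nat.card F := by
    rw [Nat.card_eq_fintype_card, Nat.card_eq_fintype_card, Nat.card_eq_fintype_card, add_comm]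
    rw [← Fintype.card_sum]
    exact Fintype.card_congr (Equiv.sumCompl fun t : F => t ^ 2 = 3 * ρ)
  by_cases hsq : ∃ t : F, t ^ 2 = 3 * ρ
  · obtain ⟨t, ht⟩ := hsq
    have ht0 : t ≠ 0 := by rintro rfl; exact hρ (by linear_combination -ht)
    have h : Nat.card {s : F // s ^ 2 = 3 * ρ} = 2 := by
      rw [Nat.card_eq_two_iff]
      refine ⟨⟨t, ht⟩, ⟨-t, by rw [neg_sq, ht]⟩, ?_, ?_⟩
      · intro h
        have := congrArg Subtype.val h
        exact ht0 (mul_left_cancel₀ h2 (by simp only at this; linear_combination this))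
      · refine Set.eq_univ_of_forall fun s => ?_
        have : (s.1 - t) * (s.1 + t) = 0 := by linear_combination s.2 - ht
        rcases mul_eq_zero.mp this with h | h
        · exact Or.inl (Subtype.ext (sub_eq_zero.mp h))
        · exact Or.inr (Subtype.ext (eq_neg_of_add_eq_zero_left h))
    omega
  · have h : Nat.card {s : F // s ^ 2 = 3 * ρ} = 0 := by
      have : IsEmpty {s : F // s ^ 2 = 3 * ρ} := ⟨fun s => hsq ⟨s.1, s.2⟩⟩
      exact Nat.card_of_isEmpty
    omega

end Nodal

section Component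

variable {W : WeierstrassCurve ℤ} {A : ValuationSubring (AlgebraicClosure ℚ)} {q N : ℕ}

local notation "Qb" => AlgebraicClosure ℚ
local notation "EQ" => ((W.map (Int.castRingHom ℚ))⁄(AlgebraicClosure ℚ))

/-- Coordinates of a Galois fixed point are rational. -/
lemma exists_rat_coords {W₀ : WeierstrassCurve ℚ} {x y : Qb}
    {h : (W₀⁄Qb).toAffine.Nonsingular x y}
    (hfix : ∀ σ : Qb ≃ₐ[ℚ] Qb, σ • (Affine.Point.some x y h : (W₀⁄Qb).Point)
      = Affine.Point.some x y h) :
    ∃ r s : ℚ, algebraMap ℚ Qb r = x ∧ algebraMap ℚ Qb s = y := by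
  obtain ⟨r, hr⟩ := exists_rat (z := x) fun σ => (Affine.Point.some.inj (hfix σ)).1
  obtain ⟨s, hs⟩ := exists_rat (z := y) fun σ => (Affine.Point.some.inj (hfix σ)).2
  exact ⟨r, s, hr, hs⟩

open scoped Classical in
/-- A rational point of prime order `N ≠ q` in the identity component: `N` divides the number of
nonsingular points of the reduction. -/
theorem dvd_card_of_inZeroComponentAt (hq : q.Prime) (hA : A.LiesOverPrime q) (hN : N.Prime)
    (hqN : q ≠ N) {P : (EQ).Point} (hfix : ∀ σ : Qb ≃ₐ[ℚ] Qb, σ • P = P)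
    (hord : addOrderOf P = N) (hP : W.InZeroComponentAt A P) :
    N ∣ Nat.card (W.reductionMod q).toAffine.Point := by
  have := Fact.mk hq
  let := residueAlgebra hA hq
  set κ := IsLocalRing.ResidueField A
  obtain ⟨Q, hQ⟩ := (inZeroComponentAt_iff W P).mp hP
  have hmod : CurveRed (IsLocalRing.residue A) EQ ((W.reductionMod q)⁄κ) := curveRed_mod W
  obtain ⟨R, hR⟩ : ∃ R : ((W.reductionMod q)⁄κ).Point, PointRed (IsLocalRing.residue A) P R := by
    rw [reductionMod_baseChange W]; exact ⟨Q, hQ⟩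
  -- it comes from a point over the prime field
  let f : ((W.reductionMod q)⁄(ZMod q)).Point →+ ((W.reductionMod q)⁄κ).Point :=
    Affine.Point.map (Algebra.ofId (ZMod q) κ)
  obtain ⟨R₀, hR₀⟩ : ∃ R₀, f R₀ = R := by
    rcases P with _ | ⟨x, y, h⟩
    · exact ⟨0, by rw [map_zero]; exact hR.symm⟩
    rcases hR with ⟨-, rfl⟩ | ⟨a, b, hab, hxa, hyb, rfl⟩
    · exact ⟨0, map_zero _⟩
    obtain ⟨r, s, rfl, rfl⟩ := exists_rat_coords hfix
    obtain ⟨c, hc⟩ := exists_red_rat hA hq hxa.mem
    obtain ⟨d, hd⟩ := exists_red_rat hA hq hyb.mem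
    have ea : Algebra.ofId (ZMod q) κ (c : ZMod q) = a := by
      rw [map_intCast]; exact hc.unique hxa
    have eb : Algebra.ofId (ZMod q) κ (d : ZMod q) = b := by
      rw [map_intCast]; exact hd.unique hyb
    subst ea eb
    exact ⟨.some _ _ (((W.reductionMod q).toAffine.baseChange_nonsingular
      (Algebra.ofId (ZMod q) κ).injective _ _).mp hab), rfl⟩
  have hNκ : (N : κ) ≠ 0 :=
    natCast_residue_ne_zero hA hq fun h => hqN ((Nat.prime_dvd_prime_iff_eq hq hN).mp h)
  have hNP : N • P = 0 := hord ▸ addOrderOf_nsmul_eq_zero P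
  have hk : ∀ n : ℕ, PointRed (IsLocalRing.residue A) (n • P) (n • R) := by
    intro n
    induction n with
    | zero => rw [zero_nsmul, zero_nsmul]; exact pointRed_zero
    | succ n ih => rw [succ_nsmul, succ_nsmul]; exact ih.add hmod hR
  have hR0 : R ≠ 0 := by
    intro h0
    have := hR.eq_of_nsmul_eq_zero hmod hNκ (P' := 0) (h0 ▸ pointRed_zero) hNP (nsmul_zero N)
    rw [this, addOrderOf_zero] at hord
    exact hN.ne_one hord.symm
  have hNR : N • R = 0 := by
    have := hk N
    rw [hNP] at this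
    exact this.unique pointRed_zero
  have := Fact.mk hN
  have hordR : addOrderOf R = N := addOrderOf_eq_prime hNR hR0
  rw [← hR₀, addOrderOf_injective f (Affine.Point.map_injective _)] at hordR
  have hbc : ((W.reductionMod q)⁄(ZMod q)) = (W.reductionMod q).toAffine := by
    show (W.reductionMod q).map (algebraMap (ZMod q) (ZMod q)) = _
    rw [Algebra.algebraMap_self, WeierstrassCurve.map_id]
  have hd : N ∣ Nat.card ((W.reductionMod q)⁄(ZMod q)).Point :=
    hordR ▸ addOrderOf_dvd_natCard R₀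
  rwa [hbc] at hd

/-- The bound used at small primes with good reduction. -/
theorem card_lt_of_good (hq : q.Prime) (hq5 : 5 ≤ q) (hΔ : ¬ (q : ℤ) ∣ W.Δ) :
    Nat.card (W.reductionMod q).toAffine.Point < 2 * q + 1 := by
  have := Fact.mk hq
  have : (W.reductionMod q).IsElliptic := by
    refine ⟨isUnit_iff_ne_zero.mpr ?_⟩
    rw [WeierstrassCurve.reductionMod, WeierstrassCurve.map_Δ, eq_intCast, Ne,
      ZMod.intCast_zmod_eq_zero_iff_dvd]
    exact hΔ
  have h := ECFrobenius.traceOfFrobenius_sq_le (W.reductionMod q) (AlgebraicClosure (ZMod q))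
  rw [WeierstrassCurve.traceOfFrobenius, WeierstrassCurve.card, Nat.card_zmod] at h
  have hq' : (5 : ℤ) ≤ q := by exact_mod_cast hq5
  by_contra hc
  push Not at hc
  have hc' : (2 * q + 1 : ℤ) ≤ Nat.card (W.reductionMod q).toAffine.Point := by exact_mod_cast hc
  nlinarith

/-- At a multiplicative prime `q ≥ 5`, a point of prime order `N` in the identity component
forces `N ∣ q ± 1`. -/
theorem dvd_pred_or_succ (hq : q.Prime) (hq5 : 5 ≤ q) (hA : A.LiesOverPrime q) (hN : N.Prime)
    (hqN : q ≠ N) (hΔ : (q : ℤ) ∣ W.Δ) (hc₄ : ¬ (q : ℤ) ∣ W.c₄) {P : (EQ).Point}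
    (hfix : ∀ σ : Qb ≃ₐ[ℚ] Qb, σ • P = P) (hord : addOrderOf P = N)
    (hP : W.InZeroComponentAt A P) : N ∣ q - 1 ∨ N ∣ q + 1 := by
  have := Fact.mk hq
  have hdvd := dvd_card_of_inZeroComponentAt hq hA hN hqN hfix hord hP
  have hne : ∀ n : ℕ, n.Prime → n < q → ((n : ℕ) : ZMod q) ≠ 0 := fun n hn hlt h => by
    rw [ZMod.natCast_eq_zero_iff, Nat.prime_dvd_prime_iff_eq hq hn] at h
    omega
  have h := card_nodal (W.reductionMod q) (by simpa using hne 2 Nat.prime_two (by omega))
    (by simpa using hne 3 Nat.prime_three (by omega))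
    (by rw [WeierstrassCurve.reductionMod, WeierstrassCurve.map_Δ, eq_intCast,
      ZMod.intCast_zmod_eq_zero_iff_dvd]; exact hΔ)
    (by rw [WeierstrassCurve.reductionMod, WeierstrassCurve.map_c₄, eq_intCast, Ne,
      ZMod.intCast_zmod_eq_zero_iff_dvd]; exact hc₄)
  rw [Nat.card_zmod] at h
  rcases h with h | h
  · left; rwa [show q - 1 = Nat.card (W.reductionMod q).toAffine.Point by omega]
  · right; rwa [← h]

end Component

end Fermat.Agent.MazurPoint
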