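import Fermat.Agent.FreyQuotient.Bad
import Fermat.Agent.FreyHeight.VeluBridge
import Fermat.Agent.VariableChangePoints.Basic

/-!
# The invariants of Vélu's quotient

`Δ(E/C) ∏_{Q ∈ C∖0} (2y + a₁x + a₃)⁴ = Δ(E)^#C`, invariance of `j(E/C)` under changes of
coordinates, and the valuations of `c₄`, `Δ` of the quotient at a node.
-/

set_option autoImplicit false

namespace Fermat.Agent.MazurPoint

open WeierstrassCurve Polynomial Finset Fermat.Agent.Isogeny Fermat.Agent.FreyHeight

universe u

variable {K : Type u} [Field K] [DecidableEq K] [IsAlgClosed K] [CharZero K]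
  {W : WeierstrassCurve.Affine K}

omit [DecidableEq K] [IsAlgClosed K] in
lemma discRoots_eq_of_vieta {e : Fin 3 → K} (hs : e 0 + e 1 + e 2 = -W.b₂)
    (hp : e 0 * e 1 + e 1 * e 2 + e 2 * e 0 = 8 * W.b₄) (hm : e 0 * e 1 * e 2 = -(16 * W.b₆)) :
    discRoots e = 4096 * W.Δ := by
  have h4 : W.b₄ = (e 0 * e 1 + e 1 * e 2 + e 2 * e 0) / 8 := by rw [hp]; ring
  have h6 : W.b₆ = -(e 0 * e 1 * e 2) / 16 := by rw [hm]; ring
  have h2 : W.b₂ = -(e 0 + e 1 + e 2) := by rw [hs]; ring
  have h8 : W.b₈ = (W.b₂ * W.b₆ - W.b₄ ^ 2) / 4 := by rw [← W.b_relation]; ring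
  rw [discRoots, WeierstrassCurve.Δ, h8, h2, h4, h6]
  ring

omit [DecidableEq K] in
/-- Roots of the two-division cubic exist and are distinct. -/
lemma exists_twoRoots [W.IsElliptic] : ∃ e : Fin 3 → K, TwoRoots W e := by
  obtain ⟨x, hx⟩ := IsAlgClosed.exists_root
    (X ^ 3 + C W.b₂ * X ^ 2 + C (8 * W.b₄) * X + C (16 * W.b₆))
    (by
      have hd : (X ^ 3 + C W.b₂ * X ^ 2 + C (8 * W.b₄) * X + C (16 * W.b₆)).degree =
          (3 : WithBot ℕ) := by compute_degree!
      rw [hd]; decide)
  simp only [IsRoot.def, eval_add, eval_mul, eval_C, eval_pow, eval_X] at hx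
  obtain ⟨y, hy⟩ := IsAlgClosed.exists_root
    (X ^ 2 + C (x + W.b₂) * X + C (x ^ 2 + W.b₂ * x + 8 * W.b₄))
    (by
      have hd : (X ^ 2 + C (x + W.b₂) * X + C (x ^ 2 + W.b₂ * x + 8 * W.b₄)).degree =
          (2 : WithBot ℕ) := by compute_degree!
      rw [hd]; decide)
  simp only [IsRoot.def, eval_add, eval_mul, eval_C, eval_pow, eval_X] at hy
  refine ⟨![x, y, -W.b₂ - x - y], ?_, ?_, ?_, ?_⟩
  · have key : ((x - y) * (y - (-W.b₂ - x - y)) * ((-W.b₂ - x - y) - x)) ^ 2 = 256 * W.Δ := by
      have h4 : 8 * W.b₄ = x * y + y * (-W.b₂ - x - y) + (-W.b₂ - x - y) * x := by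
        linear_combination hy
      have h6 : x * y * (-W.b₂ - x - y) = -(16 * W.b₆) := by
        linear_combination hx - x * h4
      have h := discRoots_eq_of_vieta (W := W) (e := ![x, y, -W.b₂ - x - y]) (by simp)
        (by simp only [Matrix.cons_val_zero, Matrix.cons_val_one, Matrix.cons_val]; exact h4.symm)
        (by simp only [Matrix.cons_val_zero, Matrix.cons_val_one, Matrix.cons_val]; exact h6)
      simp only [discRoots, Matrix.cons_val_zero, Matrix.cons_val_one, Matrix.cons_val] at h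
      exact mul_left_cancel₀ (show (16 : K) ≠ 0 by norm_num) (by linear_combination h)
    have h0 : (256 : K) * W.Δ ≠ 0 := mul_ne_zero (by norm_num) W.isUnit_Δ.ne_zero
    rw [← key] at h0
    simp only [pow_eq_zero_iff two_ne_zero, mul_eq_zero, sub_eq_zero, not_or, ne_eq] at h0
    intro i j hij
    fin_cases i <;> fin_cases j <;> simp at hij <;> first
      | rfl
      | exact absurd hij h0.1.1
      | exact absurd hij.symm h0.1.1
      | exact absurd hij h0.1.2
      | exact absurd hij.symm h0.1.2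
      | exact absurd hij h0.2
      | exact absurd hij.symm h0.2
  · simp
  · simp only [Matrix.cons_val_zero, Matrix.cons_val_one, Matrix.cons_val]
    linear_combination -hy
  · simp only [Matrix.cons_val_zero, Matrix.cons_val_one, Matrix.cons_val]
    linear_combination hx - x * hy

omit [DecidableEq K] [IsAlgClosed K] in
/-- The discriminant through the roots. -/
lemma discRoots_eq {e : Fin 3 → K} (he : TwoRoots W e) : discRoots e = 4096 * W.Δ :=
  discRoots_eq_of_vieta he.sum he.pairs he.prod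

variable [W.IsElliptic] {C : AddSubgroup W.Point} [Finite C]

/-- The roots of the quotient are those of Vélu's curve. -/
lemma twoRoots_quot {e : Fin 3 → K} (he : TwoRoots W e) (hodd : Odd (Nat.card C)) :
    TwoRoots (veluCurve C) (quotRoots C e) := by
  obtain ⟨c1, c2, c3⟩ := quot_coeffs he C hodd
  refine ⟨quotRoots_injective he C hodd, ?_, ?_, ?_⟩
  · rw [show (veluCurve C).b₂ = W.b₂ by
      simp [WeierstrassCurve.b₂, veluCurve]]
    linear_combination c1
  · rw [show (veluCurve C).b₄ = W.b₄ - 10 * tV C by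
      simp [WeierstrassCurve.b₄, veluCurve]; ring]
    linear_combination -c2
  · rw [show (veluCurve C).b₆ = W.b₆ - 4 * W.b₂ * tV C - 28 * wV C by
      simp [WeierstrassCurve.b₆, veluCurve]; ring]
    linear_combination c3

/-- **The discriminant of the quotient.** -/
theorem Δ_velu (hodd : Odd (Nat.card C)) :
    (veluCurve C).Δ * ∏ Q ∈ Cs C, gc Q ^ 4 = W.Δ ^ Nat.card C := by
  obtain ⟨e, he⟩ := exists_twoRoots (W := W)
  have h := discRoots_velu he C hodd
  rw [discRoots_eq he, discRoots_eq (twoRoots_quot he hodd)] at h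
  have hprod : ∏ z ∈ absSet C, 256 * ((z - e 0) * (z - e 1) * (z - e 2)) ^ 4 =
      ∏ Q ∈ Cs C, (4096 : K) * gc Q ^ 4 := by
    rw [← prod_fiberwise_of_maps_to (g := fun Q => 4 * xc Q) (t := absSet C)
      (s := Cs C) (f := fun Q => (4096 : K) * gc Q ^ 4) (fun Q hQ => mem_image_of_mem _ hQ)]
    refine prod_congr rfl fun z hz => ?_
    have hc : ∀ Q ∈ (Cs C).filter (fun Q => 4 * xc Q = z),
        (4096 : K) * gc Q ^ 4 = 16 * ((z - e 0) * (z - e 1) * (z - e 2)) ^ 2 := by
      intro Q hQ
      obtain ⟨hQC, rfl⟩ := mem_filter.mp hQ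
      rcases Q with _ | ⟨x, y, hxy⟩
      · exact absurd rfl ((mem_Cs C).mp hQC).1
      · rw [xc_some, cubic_eq he, ← gc_sq hxy, gc_some]; ring
    rw [prod_congr rfl hc, prod_const, fibre_card C hodd hz]
    ring
  rw [hprod, prod_mul_distrib, prod_const, mul_pow] at h
  have hcard : (Cs C).card + 1 = Nat.card C := by
    rw [← card_Cf C, ← card_erase_add_one ((mem_Cf C).mpr (zero_mem C))]
    rfl
  rw [← hcard, pow_succ' (4096 : K)] at h
  refine mul_left_cancel₀ (show (4096 : K) * 4096 ^ (Cs C).card ≠ 0 from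
    mul_ne_zero (by norm_num) (pow_ne_zero _ (by norm_num))) ?_
  rw [← hcard]
  linear_combination h

omit [IsAlgClosed K] [CharZero K] [W.IsElliptic] in
lemma c₄_velu : (veluCurve C).c₄ = W.c₄ + 240 * tV C := by
  simp only [WeierstrassCurve.c₄, WeierstrassCurve.b₂, WeierstrassCurve.b₄, veluCurve]; ring

/-- `j` of the quotient, in terms of `c₄` and `Δ`. -/
noncomputable def jQuot (C : AddSubgroup W.Point) [Finite C] : K :=
  (veluCurve C).c₄ ^ 3 / (veluCurve C).Δ

section Change

variable {V : WeierstrassCurve.Affine K} [V.IsElliptic] {D : VariableChange K}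
  (hV : V = D • W) {C' : AddSubgroup V.Point} [Finite C']
  (hCC' : ∀ P : V.Point, P ∈ C' ↔ VariableChangePoints.pointAddEquiv hV P ∈ C)

include hCC'

omit [IsAlgClosed K] [CharZero K] [W.IsElliptic] [V.IsElliptic] in
lemma prod_gc_change :
    ∏ Q ∈ Cs C', ((D.u : K) ^ 3 * gc Q) ^ 4 = ∏ Q ∈ Cs C, gc Q ^ 4 := by
  refine prod_equiv (VariableChangePoints.pointAddEquiv hV).toEquiv (fun P => ?_) fun P hP => ?_
  · rw [mem_Cs, mem_Cs]
    exact and_congr ((VariableChangePoints.pointAddEquiv hV).map_eq_zero_iff.not.symm) (hCC' P)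
  · congr 1
    rcases P with _ | ⟨x, y, h⟩
    · exact absurd rfl ((mem_Cs C').mp hP).1
    · show _ = gc (VariableChangePoints.pointAddEquiv hV (.some x y h))
      rw [VariableChangePoints.pointAddEquiv_some, gc_some, gc_some]
      simp only [VariableChangePoints.mapX, VariableChangePoints.mapY]
      rw [← sub_eq_zero]
      linear_combination (D.u : K) ^ 2 * x * VariableChangePoints.a₁_eq hV
        + VariableChangePoints.a₃_eq hV

omit [IsAlgClosed K] [CharZero K] [W.IsElliptic] in
lemma tV_change : (D.u : K) ^ 4 * tV C' = tV C := by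
  rw [tV, tV, mul_div_assoc', mul_sum]
  congr 1
  refine sum_equiv (VariableChangePoints.pointAddEquiv hV).toEquiv (fun P => ?_) fun P hP => ?_
  · rw [mem_Cs, mem_Cs]
    exact and_congr ((VariableChangePoints.pointAddEquiv hV).map_eq_zero_iff.not.symm) (hCC' P)
  · rcases P with _ | ⟨x, y, h⟩
    · exact absurd rfl ((mem_Cs C').mp hP).1
    · show _ = tq (VariableChangePoints.pointAddEquiv hV (.some x y h))
      rw [VariableChangePoints.pointAddEquiv_some, tq, tq, xc_some, xc_some]
      simp only [VariableChangePoints.mapX, WeierstrassCurve.b₂, WeierstrassCurve.b₄]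
      have i1 : (D.u : K) * (↑D.u⁻¹ : K) = 1 := D.u.mul_inv
      subst hV
      simp only [variableChange_a₁, variableChange_a₂, variableChange_a₃, variableChange_a₄]
      have i4 : (D.u : K) ^ 4 * (↑D.u⁻¹ : K) ^ 4 = 1 := by rw [← mul_pow, i1, one_pow]
      have i2 : (D.u : K) ^ 2 * (↑D.u⁻¹ : K) ^ 2 = 1 := by rw [← mul_pow, i1, one_pow]
      linear_combination (W.a₁ * W.a₃ + 2 * W.a₄ + D.r * (W.a₁ ^ 2 + 4 * W.a₂) + 6 * D.r ^ 2) * i4
        + (D.u : K) ^ 2 * x * (W.a₁ ^ 2 + 4 * W.a₂ + 12 * D.r) * i2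

/-- **`j(E/C)` does not depend on the coordinates.** -/
theorem jQuot_change (hodd : Odd (Nat.card C)) : jQuot C' = jQuot C := by
  have hcard : Nat.card C' = Nat.card C :=
    Nat.card_congr ((VariableChangePoints.pointAddEquiv hV).toEquiv.subtypeEquiv hCC')
  have h1 := Δ_velu (C := C) hodd
  have h2 := Δ_velu (C := C') (hcard ▸ hodd)
  have hΔW : W.Δ ≠ 0 := W.isUnit_Δ.ne_zero
  have hu : (D.u : K) ≠ 0 := D.u.ne_zero
  have hΔV : (D.u : K) ^ 12 * V.Δ = W.Δ := by
    rw [hV, variableChange_Δ, ← mul_assoc, ← mul_pow, D.u.mul_inv, one_pow, one_mul]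
  have hc : (D.u : K) ^ 4 * (veluCurve C').c₄ = (veluCurve C).c₄ := by
    have hcV : (D.u : K) ^ 4 * V.c₄ = W.c₄ := by
      rw [hV, variableChange_c₄, ← mul_assoc, ← mul_pow, D.u.mul_inv, one_pow, one_mul]
    rw [c₄_velu, c₄_velu]
    linear_combination hcV + 240 * tV_change hV hCC'
  have hprod := prod_gc_change hV hCC'
  rw [prod_congr rfl (fun Q _ => mul_pow ((D.u : K) ^ 3) (gc Q) 4), prod_mul_distrib,
    prod_const] at hprod
  have hcs : (Cs C').card + 1 = Nat.card C' := by
    rw [← card_Cf C', ← card_erase_add_one ((mem_Cf C').mpr (zero_mem C'))]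
    rfl
  have hd : (D.u : K) ^ 12 * (veluCurve C').Δ = (veluCurve C).Δ := by
    have hne : ∏ Q ∈ Cs C, gc Q ^ 4 ≠ 0 := right_ne_zero_of_mul (h1 ▸ pow_ne_zero _ hΔW)
    refine mul_right_cancel₀ hne ?_
    rw [h1, ← hΔV, mul_pow, ← hprod, ← hcard, ← hcs, ← pow_mul]
    rw [← hcs] at h2
    linear_combination (D.u : K) ^ (12 * (Cs C').card + 12) * h2
  rw [jQuot, jQuot, ← hc, ← hd, mul_pow, ← pow_mul, mul_div_mul_left _ _ (pow_ne_zero _ hu)]

end Change

section Node

open Fermat.Agent.ECReduction Fermat.Agent.FreyQuotient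

variable {A : ValuationSubring K} (hE : IntegralCoeffs A W) (hodd : Odd (Nat.card C))
  (hn : A.valuation (Nat.card C : K) = 1) (hc : A.valuation W.c₄ = 1) (hΔ : A.valuation W.Δ < 1)

include hE hodd hn hc hΔ

/-- All points singular: the quotient is nodal with a smaller component length. -/
theorem node_sing (hbad : ∀ Q ∈ Cs C, SingP A Q) (hne : (Cs C).Nonempty) :
    A.valuation (veluCurve C).c₄ = 1 ∧ A.valuation (veluCurve C).Δ < 1 ∧
      A.valuation W.Δ ^ Nat.card C < A.valuation (veluCurve C).Δ := by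
  obtain ⟨h4, hlt⟩ := bad_invariants hodd hE hn hbad hc hΔ
  refine ⟨h4, hlt, ?_⟩
  have h := congrArg A.valuation (Δ_velu (C := C) hodd)
  rw [map_mul, map_pow] at h
  rw [← h]
  have hlt1 : A.valuation (∏ Q ∈ Cs C, gc Q ^ 4) < 1 := by
    obtain ⟨Q₀, hQ₀⟩ := hne
    rw [map_prod, ← mul_prod_erase _ _ hQ₀]
    have key : ∀ Q ∈ Cs C, A.valuation (gc Q ^ 4) < 1 := by
      intro Q hQ
      obtain ⟨x, y, h, rfl, -, -⟩ := coords_of_mem_Cs hE hn hQ
      rw [map_pow, gc_some]
      exact pow_lt_one₀ zero_le (hbad _ hQ).hY (by norm_num)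
    exact mul_lt_one_of_lt_of_le (key _ hQ₀)
      (prod_le_one' fun Q hQ => (key Q (erase_subset _ _ hQ)).le)
  refine mul_lt_of_lt_one_right ?_ hlt1
  exact (Valuation.pos_iff _).mpr (veluCurve_Δ_ne_zero hodd)

/-- All points smooth, odd residue characteristic. -/
theorem node_smooth (h2 : A.valuation (2 : K) = 1) (hgood : ∀ Q ∈ C, ¬ SingP A Q) :
    A.valuation (veluCurve C).c₄ = 1 ∧
      A.valuation (veluCurve C).Δ = A.valuation W.Δ ^ Nat.card C := by
  have hg : ∀ Q ∈ Cs C, A.valuation (xc Q) ≤ 1 ∧ A.valuation (gc Q) = 1 := by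
    intro Q hQ
    obtain ⟨x, y, h, rfl, hx, -⟩ := coords_of_mem_Cs hE hn hQ
    have hm := ((mem_Cs C).mp hQ).2
    exact ⟨hx, (valuation_g_eq_one hE hn h (card_nsmul_mem hm) (hgood _ hm)
      (fun h' => neg_ne_self C hodd hm (Affine.Point.some_ne_zero h) h'.symm)).2.2⟩
  refine ⟨?_, ?_⟩
  swap
  · have h := congrArg A.valuation (Δ_velu (C := C) hodd)
    rw [map_mul, map_pow, map_prod, prod_eq_one fun Q hQ => by rw [map_pow, (hg Q hQ).2, one_pow],
      mul_one] at h
    exact h
  obtain ⟨e, he⟩ := exists_twoRoots (W := W)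
  have h4u : A.valuation (4 : K) = 1 := by
    rw [show (4 : K) = 2 * 2 by norm_num, map_mul, h2, one_mul]
  have h16u : A.valuation (16 : K) = 1 := by
    rw [show (16 : K) = 4 * 4 by norm_num, map_mul, h4u, one_mul]
  have hei : ∀ i, A.valuation (e i) ≤ 1 := by
    intro i
    by_contra! hlt
    have hroot : e i ^ 3 = -(W.b₂ * e i ^ 2 + 8 * W.b₄ * e i + 16 * W.b₆) := by
      have h0 := he.sum; have h1 := he.pairs; have h2 := he.prod
      fin_cases i <;> simp only [Fin.zero_eta, Fin.mk_one, Fin.reduceFinMk] <;>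
        linear_combination (e _) ^ 2 * h0 - (e _) * h1 + h2
    have h3 := congrArg A.valuation hroot
    rw [Valuation.map_neg, map_pow] at h3
    have hbd : A.valuation (W.b₂ * e i ^ 2 + 8 * W.b₄ * e i + 16 * W.b₆) ≤
        A.valuation (e i) ^ 2 := by
      refine A.valuation.map_add_le (A.valuation.map_add_le ?_ ?_) ?_
      · rw [map_mul, map_pow]; exact mul_le_of_le_one_left' (val_b₂ hE)
      · rw [map_mul]
        refine (mul_le_of_le_one_left' (val_mul_le (val_ofNat_le_one 8) (val_b₄ hE))).trans ?_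
        exact le_self_pow₀ hlt.le two_ne_zero
      · exact (val_mul_le (val_ofNat_le_one 16) (val_b₆ hE)).trans (one_le_pow₀ hlt.le)
    rw [← h3] at hbd
    exact absurd hbd (not_le.mpr (pow_lt_pow_right₀ hlt (by norm_num)))
  -- differences from the abscissae of the subgroup are units
  have hsub : ∀ z ∈ absSet C, ∀ i, A.valuation (z - e i) = 1 := by
    intro z hz i
    obtain ⟨Q, hQ, rfl⟩ := mem_image.mp hz
    obtain ⟨hxq, hgq⟩ := hg Q hQ
    rcases Q with _ | ⟨x, y, h⟩
    · exact absurd rfl ((mem_Cs C).mp hQ).1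
    rw [xc_some] at hxq ⊢
    have hle : ∀ j, A.valuation (4 * x - e j) ≤ 1 := fun j =>
      A.valuation.map_sub_le (val_mul_le (val_ofNat_le_one 4) hxq) (hei j)
    have hp : A.valuation ((4 * x - e 0) * (4 * x - e 1) * (4 * x - e 2)) = 1 := by
      rw [cubic_eq he, ← gc_sq h, map_mul, map_pow, h16u, ← gc_some h, hgq, one_pow, one_mul]
    refine le_antisymm (hle i) (le_of_not_gt fun hlt => ?_)
    rw [map_mul, map_mul] at hp
    have : A.valuation (4 * x - e 0) * A.valuation (4 * x - e 1) * A.valuation (4 * x - e 2)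
        < 1 := by
      fin_cases i
      · exact mul_lt_one_of_lt_of_le (mul_lt_one_of_lt_of_le hlt (hle 1)) (hle 2)
      · exact mul_lt_one_of_lt_of_le
          (mul_lt_one_of_nonneg_of_lt_one_right (hle 0) zero_le hlt) (hle 2)
      · exact mul_lt_one_of_nonneg_of_lt_one_right (mul_le_one₀ (hle 0) zero_le (hle 1)) zero_le hlt
    rw [hp] at this
    exact lt_irrefl _ this
  -- the differences of the roots of the quotient
  have hdiff : ∀ i, A.valuation (quotRoots C e (i + 1) - quotRoots C e i) =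
      A.valuation (e (i + 1) - e i) ^ Nat.card C := by
    intro i
    have h := congrArg A.valuation (veluX_root_diff e (absSet C) he.inj (roots_notMem he C hodd) _
      (quotRoots_injective he C hodd) (fun _ => rfl) (fun i _ hz => translates he C hodd i hz)
      (velu_curve_identity he C hodd) i (i + 1))
    have hl : A.valuation (∏ x ∈ absSet C, (e (i + 1) - x)) = 1 := by
      rw [map_prod]
      exact prod_eq_one fun z hz => by rw [Valuation.map_sub_swap, hsub z hz]
    have hr : ∀ z ∈ absSet C, A.valuation ((e (i + 1) - transX e i z) ^ 2) =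
        A.valuation (e (i + 1) - e i) ^ 2 := by
      intro z hz
      have hzi : z - e i ≠ 0 := fun h0 => by
        have := hsub z hz i
        rw [h0, map_zero] at this
        exact zero_ne_one this
      have : e (i + 1) - transX e i z = (e (i + 1) - e i) * (z - e (i + 2)) / (z - e i) := by
        rw [transX]; field_simp; ring
      rw [map_pow, this, map_div₀, map_mul, hsub z hz, hsub z hz, mul_one, div_one]
    rw [map_mul, map_pow, hl, one_pow, one_mul, map_mul, map_prod, prod_congr rfl hr,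
      prod_const, ← pow_mul, ← pow_succ', card_absSet C hodd] at h
    exact h
  -- `c₄` through the differences
  have hc4 : ∀ {V : WeierstrassCurve.Affine K} {f : Fin 3 → K}, TwoRoots V f → ∀ i,
      V.c₄ = (f (i + 1) - f i) ^ 2 + (f (i + 1) - f i) * (f (i + 2) - f (i + 1))
        + (f (i + 2) - f (i + 1)) ^ 2 := by
    intro V f hf i
    rw [WeierstrassCurve.c₄]
    fin_cases i <;>
      simp only [Fin.zero_eta, Fin.mk_one, Fin.reduceFinMk, show ((0 : Fin 3) + 1) = 1 from rfl,
        show ((0 : Fin 3) + 2) = 2 from rfl, show ((1 : Fin 3) + 1) = 2 from rfl,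
        show ((1 : Fin 3) + 2) = 0 from rfl, show ((2 : Fin 3) + 1) = 0 from rfl,
        show ((2 : Fin 3) + 2) = 1 from rfl] <;>
      linear_combination (V.b₂ - (f 0 + f 1 + f 2)) * hf.sum + 3 * hf.pairs
  have hdle : ∀ i j, A.valuation (e i - e j) ≤ 1 := fun i j =>
    A.valuation.map_sub_le (hei i) (hei j)
  obtain ⟨i, hi⟩ : ∃ i, A.valuation (e (i + 1) - e i) < 1 := by
    by_contra! hall
    have hu : ∀ i, A.valuation (e (i + 1) - e i) = 1 := fun i =>
      le_antisymm (hdle _ _) (hall i)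
    have hd := congrArg A.valuation (discRoots_eq he)
    rw [discRoots, map_mul, map_pow, map_mul, map_mul, Valuation.map_sub_swap _ (e 0) (e 1),
      Valuation.map_sub_swap _ (e 1) (e 2), Valuation.map_sub_swap _ (e 2) (e 0), h16u,
      show e 1 - e 0 = e ((0 : Fin 3) + 1) - e 0 from rfl,
      show e 2 - e 1 = e ((1 : Fin 3) + 1) - e 1 from rfl,
      show e 0 - e 2 = e ((2 : Fin 3) + 1) - e 2 from rfl, hu, hu, hu, map_mul,
      show (4096 : K) = 16 * 16 * 16 by norm_num, map_mul, map_mul, h16u] at hd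
    simp only [one_mul, one_pow] at hd
    exact absurd hd.symm (ne_of_lt hΔ)
  have hj : A.valuation (e (i + 2) - e (i + 1)) = 1 := by
    refine le_antisymm (hdle _ _) (le_of_not_gt fun hj => ?_)
    rw [hc4 he i] at hc
    refine absurd hc (ne_of_lt ?_)
    exact A.valuation.map_add_lt (A.valuation.map_add_lt
      (by rw [map_pow]; exact pow_lt_one₀ zero_le hi two_ne_zero)
      (val_mul_lt hi.le hj))
      (by rw [map_pow]; exact pow_lt_one₀ zero_le hj two_ne_zero)
  have hcard : Nat.card C ≠ 0 := Nat.card_pos.ne'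
  have hi' : A.valuation (quotRoots C e (i + 1) - quotRoots C e i) < 1 := by
    rw [hdiff i]; exact pow_lt_one₀ zero_le hi hcard
  have hj' : A.valuation (quotRoots C e (i + 2) - quotRoots C e (i + 1)) = 1 := by
    have := hdiff (i + 1)
    rw [add_assoc, show (1 : Fin 3) + 1 = 2 from rfl, hj, one_pow] at this
    exact this
  rw [hc4 (twoRoots_quot he hodd) i, Valuation.map_add_eq_of_lt_right, map_pow, hj', one_pow]
  rw [map_pow, hj', one_pow]
  exact A.valuation.map_add_lt (by rw [map_pow]; exact pow_lt_one₀ zero_le hi' two_ne_zero)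
    (by rw [map_mul, hj', mul_one]; exact hi')

end Node

end Fermat.Agent.MazurPoint
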