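import Fermat.Agent.MazurPoint.Additive

/-!
# A nodal model at every prime `q ≥ 5` with `2 q + 1 ≤ N`
-/

set_option autoImplicit false

namespace Fermat.Agent.MazurPoint

open WeierstrassCurve Fermat.Agent.ECReduction
open scoped WeierstrassCurve.Affine

local notation "Qb" => AlgebraicClosure ℚ

/-- The change of coordinates over `ℚ̄` induced by one over `ℚ`. -/
noncomputable abbrev changeQbar (D : VariableChange ℚ) : VariableChange Qb :=
  D.map (algebraMap ℚ Qb)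

/-- A change of coordinates over `ℚ` induces the one over `ℚ̄`. -/
lemma changeQbar_spec {W₀ W₁ : WeierstrassCurve ℚ} {D : VariableChange ℚ} (h : W₁ = D • W₀) :
    (W₁⁄Qb : WeierstrassCurve Qb) = changeQbar D • (W₀⁄Qb : WeierstrassCurve Qb) := by
  subst h
  exact (W₀.map_variableChange D (algebraMap ℚ Qb)).symm

/-- Transport of points along a change of coordinates over `ℚ`. -/
noncomputable def transport {W₀ W₁ : WeierstrassCurve ℚ} {D : VariableChange ℚ}
    (h : W₁ = D • W₀) : (W₁⁄Qb).Point ≃+ (W₀⁄Qb).Point :=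
  VariableChangePoints.pointAddEquiv (changeQbar_spec h)

lemma transport_smul {W₀ W₁ : WeierstrassCurve ℚ} {D : VariableChange ℚ} (h : W₁ = D • W₀)
    (σ : Qb ≃ₐ[ℚ] Qb) (P : (W₁⁄Qb).Point) : transport h (σ • P) = σ • transport h P := by
  rcases P with _ | ⟨x, y, hP⟩
  · rfl
  simp only [Affine.Point.algEquiv_smul_def, Affine.Point.map_some, transport,
    VariableChangePoints.pointAddEquiv_some, VariableChangePoints.mapX,
    VariableChangePoints.mapY, Affine.Point.some.injEq]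
  constructor <;> simp [VariableChange.map]

/-- Divide a pair by `(q⁴, q⁶)` as often as possible. -/
lemma exists_minimal_pair {q : ℕ} (hq : 2 ≤ q) :
    ∀ a b : ℤ, ¬ (a = 0 ∧ b = 0) → ∃ (k : ℕ) (a' b' : ℤ), a = (q : ℤ) ^ (4 * k) * a' ∧
      b = (q : ℤ) ^ (6 * k) * b' ∧ ¬ ((q : ℤ) ^ 4 ∣ a' ∧ (q : ℤ) ^ 6 ∣ b') := by
  suffices h : ∀ n : ℕ, ∀ a b : ℤ, a.natAbs + b.natAbs = n → ¬ (a = 0 ∧ b = 0) →
      ∃ (k : ℕ) (a' b' : ℤ), a = (q : ℤ) ^ (4 * k) * a' ∧
        b = (q : ℤ) ^ (6 * k) * b' ∧ ¬ ((q : ℤ) ^ 4 ∣ a' ∧ (q : ℤ) ^ 6 ∣ b') from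
    fun a b => h _ a b rfl
  intro n
  induction n using Nat.strong_induction_on with
  | _ n ih =>
    intro a b hn h0
    by_cases hd : (q : ℤ) ^ 4 ∣ a ∧ (q : ℤ) ^ 6 ∣ b
    swap
    · exact ⟨0, a, b, by simp, by simp, hd⟩
    obtain ⟨⟨a', rfl⟩, ⟨b', rfl⟩⟩ := hd
    have h0' : ¬ (a' = 0 ∧ b' = 0) := by rintro ⟨rfl, rfl⟩; simp at h0
    have hlt : a'.natAbs + b'.natAbs < n := by
      rw [Int.natAbs_mul, Int.natAbs_mul, Int.natAbs_pow, Int.natAbs_pow, Int.natAbs_natCast] at hn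
      have h4 : 2 ≤ q ^ 4 := hq.trans (Nat.le_self_pow (by norm_num) q)
      have h6 : 2 ≤ q ^ 6 := hq.trans (Nat.le_self_pow (by norm_num) q)
      have : 0 < a'.natAbs + b'.natAbs := by omega
      have := Nat.mul_le_mul_right a'.natAbs h4
      have := Nat.mul_le_mul_right b'.natAbs h6
      omega
    obtain ⟨k, a'', b'', rfl, rfl, hmin⟩ := ih _ hlt a' b' rfl h0'
    exact ⟨k + 1, a'', b'', by ring, by ring, hmin⟩

/-- Passing to a scaled short model. -/
lemma short_eq_change (V : WeierstrassCurve ℚ) {a b : ℤ} {Q : ℚ} (hQ : Q ≠ 0) (hu : Q / 6 ≠ 0)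
    (ha : (a : ℚ) * Q ^ 4 = -27 * V.c₄) (hb : (b : ℚ) * Q ^ 6 = -54 * V.c₆) :
    (shortZ a b).map (Int.castRingHom ℚ) = (⟨Units.mk0 _ hu, -V.b₂ / 12, -V.a₁ / 2,
      V.a₁ * V.b₂ / 24 - V.a₃ / 2⟩ : VariableChange ℚ) • V := by
  ext <;> simp only [shortZ, WeierstrassCurve.map_a₁, WeierstrassCurve.map_a₂,
    WeierstrassCurve.map_a₃, WeierstrassCurve.map_a₄, WeierstrassCurve.map_a₆, eq_intCast,
    map_zero, variableChange_a₁, variableChange_a₂, variableChange_a₃, variableChange_a₄,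
    variableChange_a₆, Units.val_inv_eq_inv_val, Units.val_mk0]
  · rw [eq_comm]; exact mul_eq_zero_of_right _ (by ring)
  · rw [eq_comm]; exact mul_eq_zero_of_right _ (by simp only [b₂]; ring)
  · rw [eq_comm]; exact mul_eq_zero_of_right _ (by ring)
  · refine mul_right_cancel₀ (pow_ne_zero 4 hQ) (ha.trans ?_)
    field_simp
    simp only [c₄, b₂, b₄]
    ring
  · refine mul_right_cancel₀ (pow_ne_zero 6 hQ) (hb.trans ?_)
    field_simp
    simp only [c₆, b₂, b₄, b₆]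
    ring

open scoped Classical in
/-- **The local model at `q ≥ 5`**: a nodal model over `ℤ` in which the point is singular. -/
theorem exists_node_model {W : WeierstrassCurve ℤ} {A : ValuationSubring (AlgebraicClosure ℚ)}
    {q N : ℕ} (hq : q.Prime) (hq5 : 5 ≤ q) (hA : A.LiesOverPrime q) (hN : N.Prime)
    (hN11 : 11 ≤ N) (h2q : 2 * q + 1 ≤ N) (hΔ : W.Δ ≠ 0)
    {P : ((W.map (Int.castRingHom ℚ))⁄Qb).Point}
    (hfix : ∀ σ : Qb ≃ₐ[ℚ] Qb, σ • P = P) (hord : addOrderOf P = N) :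
    ∃ (W' : WeierstrassCurve ℤ) (D : VariableChange ℚ)
      (h : W'.map (Int.castRingHom ℚ) = D • W.map (Int.castRingHom ℚ)),
      (q : ℤ) ∣ W'.Δ ∧ ¬ (q : ℤ) ∣ W'.c₄ ∧
        ¬ W'.InZeroComponentAt A ((transport h).symm P) := by
  have := Fact.mk hq
  have hqN : q ≠ N := by omega
  have hqI : Prime (q : ℤ) := Nat.prime_iff_prime_int.mp hq
  have h0 : ¬ (-27 * W.c₄ = 0 ∧ -54 * W.c₆ = 0) := by
    rintro ⟨h4, h6⟩
    have h4' : W.c₄ = 0 := by omega
    have h6' : W.c₆ = 0 := by omega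
    have := W.c_relation
    rw [h4', h6'] at this
    exact hΔ (by omega)
  obtain ⟨k, a, b, ha, hb, hmin⟩ := exists_minimal_pair hq.two_le _ _ h0
  have hu : ((q : ℚ) ^ k / 6) ≠ 0 :=
    div_ne_zero (pow_ne_zero _ (Nat.cast_ne_zero.mpr hq.ne_zero)) (by norm_num)
  set D : VariableChange ℚ :=
    letI V := W.map (Int.castRingHom ℚ)
    ⟨Units.mk0 _ hu, -V.b₂ / 12, -V.a₁ / 2, V.a₁ * V.b₂ / 24 - V.a₃ / 2⟩ with hD
  have ha' : (a : ℚ) * (q : ℚ) ^ (4 * k) = -27 * (W.map (Int.castRingHom ℚ)).c₄ := by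
    rw [WeierstrassCurve.map_c₄, eq_intCast]
    rw [show (-27 : ℚ) * (W.c₄ : ℚ) = ((-27 * W.c₄ : ℤ) : ℚ) by push_cast; rfl, ha]
    push_cast; ring
  have hb' : (b : ℚ) * (q : ℚ) ^ (6 * k) = -54 * (W.map (Int.castRingHom ℚ)).c₆ := by
    rw [WeierstrassCurve.map_c₆, eq_intCast]
    rw [show (-54 : ℚ) * (W.c₆ : ℚ) = ((-54 * W.c₆ : ℤ) : ℚ) by push_cast; rfl, hb]
    push_cast; ring
  have hq0 : (q : ℚ) ≠ 0 := Nat.cast_ne_zero.mpr hq.ne_zero
  have h : (shortZ a b).map (Int.castRingHom ℚ) = D • (W.map (Int.castRingHom ℚ)) :=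
    short_eq_change (W.map (Int.castRingHom ℚ)) (pow_ne_zero k hq0) hu
      (by rw [← pow_mul, mul_comm k 4]; exact ha') (by rw [← pow_mul, mul_comm k 6]; exact hb')
  refine ⟨shortZ a b, D, h, ?_⟩
  set P' := (transport h).symm P with hP'
  have hord' : addOrderOf P' = N := by rw [hP', AddEquiv.addOrderOf_eq]; exact hord
  have hfix' : ∀ σ : Qb ≃ₐ[ℚ] Qb, σ • P' = P' := fun σ => (transport h).injective (by
    rw [transport_smul, hP', AddEquiv.apply_symm_apply, hfix])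
  have hΔ' : (shortZ a b).Δ = -16 * (4 * a ^ 3 + 27 * b ^ 2) := by
    simp only [shortZ, WeierstrassCurve.Δ, b₂, b₄, b₆, b₈]; ring
  have hc₄' : (shortZ a b).c₄ = -48 * a := by
    simp only [shortZ, WeierstrassCurve.c₄, b₂, b₄]; ring
  have hsmall : ∀ n : ℕ, n.Prime → n < q → ¬ (q : ℤ) ∣ (n : ℤ) := fun n hn hlt hdv => by
    have := (Nat.prime_dvd_prime_iff_eq hq hn).mp (Int.natCast_dvd_natCast.mp hdv)
    omega
  have h2 : ¬ (q : ℤ) ∣ 2 := hsmall 2 Nat.prime_two (by omega)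
  have h3 : ¬ (q : ℤ) ∣ 3 := hsmall 3 Nat.prime_three (by omega)
  have hbad : (q : ℤ) ∣ (shortZ a b).Δ := by
    by_contra hg
    have hd := dvd_card_of_inZeroComponentAt hq hA hN hqN hfix' hord'
      (inZeroComponentAt_of_good _ hA hq hg _)
    have hlt := card_lt_of_good (W := shortZ a b) hq hq5 hg
    have : Finite ((shortZ a b).reductionMod q).toAffine.Point := inferInstance
    have hpos : 0 < Nat.card ((shortZ a b).reductionMod q).toAffine.Point := Nat.card_pos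
    have := Nat.le_of_dvd hpos hd
    omega
  have hna : ¬ (q : ℤ) ∣ a := by
    intro hqa
    have hqb : (q : ℤ) ∣ b := by
      rw [hΔ'] at hbad
      rcases hqI.dvd_or_dvd hbad with h16 | hsum
      · exact absurd
          (hqI.dvd_of_dvd_pow (n := 4) (by simpa [dvd_neg] using h16 : (q : ℤ) ∣ 2 ^ 4)) h2
      · have h27 : (q : ℤ) ∣ 3 ^ 3 * b ^ 2 :=
          (dvd_add_right ((dvd_pow hqa three_ne_zero).mul_left 4)).mp (by norm_num; exact hsum)
        rcases hqI.dvd_or_dvd h27 with hh | hh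
        · exact absurd (hqI.dvd_of_dvd_pow hh) h3
        · exact hqI.dvd_of_dvd_pow hh
    exact false_of_additive hq hq5 hA hN hN11 hqN hqa hqb hmin hfix' hord'
  have hnc : ¬ (q : ℤ) ∣ (shortZ a b).c₄ := by
    rw [hc₄']
    intro hdv
    rcases hqI.dvd_or_dvd hdv with h48 | hh
    · have : (q : ℤ) ∣ 2 ^ 4 * 3 := by simpa [dvd_neg] using h48
      rcases hqI.dvd_or_dvd this with hh | hh
      · exact h2 (hqI.dvd_of_dvd_pow hh)
      · exact h3 hh
    · exact hna hh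
  refine ⟨hbad, hnc, fun hz => ?_⟩
  rcases dvd_pred_or_succ hq hq5 hA hN hqN hbad hnc hfix' hord' hz with hd | hd <;>
    have := Nat.le_of_dvd (by omega) hd <;> omega

end Fermat.Agent.MazurPoint
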