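import Fermat.Agent.Isogeny.Descent
import Fermat.Agent.MazurPoint.Model
import Fermat.Agent.MazurPoint.Invariants

/-!
# A rational point of prime order `N`: the curve side of Mazur's third step

For `W` over `ℤ` with a rational point `Q` of prime order `N ≥ 11`, outside the identity component
at `2` and `3` and inside it at a multiplicative prime `ℓ`, with `j` the invariant of `W` and `jq`
that of `W/⟨Q⟩`:

* at `q ∈ {2, 3}` and at every prime `q` with `2 q + 1 ≤ N`: `N v_q(j) < v_q(jq) < 0`;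
* at `ℓ`: `2 N - 1 ≤ ℓ` and `v_ℓ(jq) = N v_ℓ(j) < 0`.
-/

set_option autoImplicit false

noncomputable section

namespace Fermat.Agent.MazurPoint

open WeierstrassCurve Fermat.Agent.ECReduction Fermat.Agent.FreyQuotient Fermat.Agent.Isogeny
open scoped WeierstrassCurve.Affine Classical

local notation "Qb" => AlgebraicClosure ℚ

/-- The `j`-invariant of an integral model, as a rational number. -/
def jRat (W : WeierstrassCurve ℤ) : ℚ := (W.c₄ : ℚ) ^ 3 / (W.Δ : ℚ)

/-- A model with `Δ ≠ 0` is an elliptic curve over `ℚ̄`. -/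
lemma isElliptic_baseChange {W : WeierstrassCurve ℤ} (hΔ : W.Δ ≠ 0) :
    ((W.map (Int.castRingHom ℚ))⁄Qb).IsElliptic := by
  refine ⟨isUnit_iff_ne_zero.mpr ?_⟩
  rw [WeierstrassCurve.Affine.baseChange, WeierstrassCurve.baseChange, WeierstrassCurve.map_Δ,
    WeierstrassCurve.map_Δ]
  simpa using hΔ

/-- `c₄` of an integral model over `ℚ̄`. -/
lemma baseChange_c₄ (W : WeierstrassCurve ℤ) :
    ((W.map (Int.castRingHom ℚ))⁄Qb).c₄ = ((W.c₄ : ℤ) : Qb) := by
  rw [WeierstrassCurve.Affine.baseChange, WeierstrassCurve.baseChange, WeierstrassCurve.map_c₄,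
    WeierstrassCurve.map_c₄, eq_intCast, map_intCast]

/-- `Δ` of an integral model over `ℚ̄`. -/
lemma baseChange_Δ (W : WeierstrassCurve ℤ) :
    ((W.map (Int.castRingHom ℚ))⁄Qb).Δ = ((W.Δ : ℤ) : Qb) := by
  rw [WeierstrassCurve.Affine.baseChange, WeierstrassCurve.baseChange, WeierstrassCurve.map_Δ,
    WeierstrassCurve.map_Δ, eq_intCast, map_intCast]

/-- `jRat` is `c₄³/Δ` of the model over `ℚ̄`. -/
lemma algebraMap_jRat (W : WeierstrassCurve ℤ) :
    algebraMap ℚ Qb (jRat W) =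
      ((W.map (Int.castRingHom ℚ))⁄Qb).c₄ ^ 3 / ((W.map (Int.castRingHom ℚ))⁄Qb).Δ := by
  rw [baseChange_c₄, baseChange_Δ, jRat, map_div₀, map_pow, map_intCast, map_intCast]

lemma jRat_change {W W' : WeierstrassCurve ℤ} {D : VariableChange ℚ}
    (h : W'.map (Int.castRingHom ℚ) = D • W.map (Int.castRingHom ℚ)) : jRat W' = jRat W := by
  have hc := congrArg WeierstrassCurve.c₄ h
  have hd := congrArg WeierstrassCurve.Δ h
  rw [variableChange_c₄, WeierstrassCurve.map_c₄, WeierstrassCurve.map_c₄, eq_intCast,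
    eq_intCast] at hc
  rw [variableChange_Δ, WeierstrassCurve.map_Δ, WeierstrassCurve.map_Δ, eq_intCast,
    eq_intCast] at hd
  rw [jRat, jRat, hc, hd, mul_pow, ← pow_mul,
    mul_div_mul_left _ _ (pow_ne_zero _ (Units.ne_zero _))]

/-- A point of finite order spans a finite subgroup. -/
lemma finite_zmultiples_of_order {W : WeierstrassCurve ℤ} {N : ℕ} (hN : N ≠ 0)
    {P : ((W.map (Int.castRingHom ℚ))⁄Qb).Point} (hord : addOrderOf P = N) :
    Finite (AddSubgroup.zmultiples P) :=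
  Nat.finite_of_card_ne_zero (by rwa [Nat.card_zmultiples, hord])

section Local

variable {W : WeierstrassCurve ℤ} [((W.map (Int.castRingHom ℚ))⁄Qb).IsElliptic]
  {P : ((W.map (Int.castRingHom ℚ))⁄Qb).Point} [Finite (AddSubgroup.zmultiples P)]

omit [((W.map (Int.castRingHom ℚ))⁄Qb).IsElliptic] in
/-- `j` of the quotient by a Galois fixed point is rational. -/
lemma exists_jq (hfix : ∀ σ : Qb ≃ₐ[ℚ] Qb, σ • P = P) :
    ∃ jq : ℚ, algebraMap ℚ Qb jq = jQuot (AddSubgroup.zmultiples P) := by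
  have hC : IsStable (k := ℚ) (AddSubgroup.zmultiples P) := by
    intro σ R hR
    obtain ⟨k, rfl⟩ := AddSubgroup.mem_zmultiples_iff.mp hR
    refine AddSubgroup.mem_zmultiples_iff.mpr ⟨k, ?_⟩
    rw [Affine.Point.algEquiv_smul_def, map_zsmul, ← Affine.Point.algEquiv_smul_def, hfix]
  obtain ⟨E', -, -, -, h⟩ := exists_veluBase hC
  refine ⟨E'.c₄ ^ 3 / E'.Δ, ?_⟩
  rw [jQuot, h, WeierstrassCurve.Affine.baseChange, WeierstrassCurve.baseChange,
    WeierstrassCurve.map_c₄, WeierstrassCurve.map_Δ, map_div₀, map_pow]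

local notation "EQ" => ((W.map (Int.castRingHom ℚ))⁄Qb)
local notation "CP" => AddSubgroup.zmultiples P

variable {A : ValuationSubring (AlgebraicClosure ℚ)} {q N : ℕ}
  (hq : q.Prime) (hA : A.LiesOverPrime q) (hqN : q ≠ N) (hN : N.Prime) (hN2 : N ≠ 2)
  (hord : addOrderOf P = N) (hbad : (q : ℤ) ∣ W.Δ) (hnc : ¬ (q : ℤ) ∣ W.c₄)

include hq hA hqN hN hN2 hord hbad hnc

/-- Both cases of the valuation of `j` of the quotient at a node. -/
theorem node_padic {jq : ℚ}
    (hjq : algebraMap ℚ Qb jq = jQuot (AddSubgroup.zmultiples P)) :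
    padicValRat q (jRat W) < 0 ∧
    (¬ W.InZeroComponentAt A P →
      (N : ℤ) * padicValRat q (jRat W) < padicValRat q jq ∧ padicValRat q jq < 0) ∧
    (W.InZeroComponentAt A P → q ≠ 2 →
      padicValRat q jq = (N : ℤ) * padicValRat q (jRat W)) := by
  have := Fact.mk hq
  have := Fact.mk hN
  have hcardC : Nat.card CP = N := by rw [Nat.card_zmultiples, hord]
  have hodd : Odd (Nat.card CP) := by rw [hcardC]; exact hN.odd_of_ne_two hN2
  have hE : IntegralCoeffs A EQ := (curveRed W A).integralCoeffs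
  have hvN : A.valuation (Nat.card CP : Qb) = 1 := by
    rw [hcardC, ← Int.cast_natCast]
    exact FreyUnramified.valuation_intCast_eq_one hA hq fun hd =>
      hqN ((Nat.prime_dvd_prime_iff_eq hq hN).mp (Int.natCast_dvd_natCast.mp hd))
  have hc : A.valuation (EQ).c₄ = 1 := by
    rw [baseChange_c₄]; exact FreyUnramified.valuation_intCast_eq_one hA hq hnc
  have hπ1 : A.valuation (q : Qb) < 1 := hA
  have hπ0 := val_prime_pos (A := A) hq
  have hWΔ : W.Δ ≠ 0 := by
    intro h0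
    have := (EQ).isUnit_Δ.ne_zero
    rw [baseChange_Δ, h0, Int.cast_zero] at this
    exact this rfl
  have hΔlt : A.valuation (EQ).Δ < 1 := by
    obtain ⟨m, hm⟩ := hbad
    rw [baseChange_Δ, hm, Int.cast_mul, Int.cast_natCast, map_mul]
    exact mul_lt_one_of_lt_of_le hπ1 ((A.valuation_le_one_iff _).mpr (intCast_mem A m))
  have hj0 : jRat W ≠ 0 := by
    have : W.c₄ ≠ 0 := fun h0 => hnc (by rw [h0]; exact dvd_zero _)
    simp [jRat, this, hWΔ]
  set v := padicValRat q (jRat W) with hv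
  have hvj : (A.valuation (EQ).Δ)⁻¹ = A.valuation (q : Qb) ^ v := by
    rw [hv, ← val_rat hA hq hj0, algebraMap_jRat, map_div₀, map_pow, hc, one_pow, one_div]
  have hv0 : v < 0 := by
    have h1 : (1 : _) < A.valuation (q : Qb) ^ v := by
      rw [← hvj]
      exact one_lt_inv₀ ((Valuation.pos_iff _).mpr (EQ).isUnit_Δ.ne_zero) |>.mpr hΔlt
    rwa [← zpow_zero (A.valuation (q : Qb)),
      zpow_lt_zpow_iff_right_of_lt_one₀ hπ0 hπ1] at h1
  have hPne : P ≠ 0 := by
    rintro rfl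
    rw [addOrderOf_zero] at hord
    exact hN.one_lt.ne hord
  have hPC : P ∈ CP := AddSubgroup.mem_zmultiples P
  have hPs : P ∈ Cs CP := (mem_Cs CP).mpr ⟨hPne, hPC⟩
  have hiff : SingP A P ↔ ¬ W.InZeroComponentAt A P := by
    rw [singP_iff (curveRed W A), inZeroComponentAt_iff]
  have hΔ' : (veluCurve CP).Δ ≠ 0 := veluCurve_Δ_ne_zero hodd
  -- conversion of the valuations of the quotient
  have conv : ∀ {d : A.ValueGroup}, A.valuation (veluCurve CP).c₄ = 1 →
      A.valuation (veluCurve CP).Δ = d → d⁻¹ = A.valuation (q : Qb) ^ padicValRat q jq := by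
    intro d h1 h2
    have hjq0 : jq ≠ 0 := by
      rintro rfl
      rw [map_zero, jQuot, eq_comm, div_eq_zero_iff] at hjq
      rcases hjq with hh | hh
      · have := congrArg A.valuation hh
        rw [map_pow, h1, one_pow, map_zero] at this
        exact one_ne_zero this
      · exact hΔ' hh
    rw [← val_rat hA hq hjq0, hjq, jQuot, map_div₀, map_pow, h1, one_pow, one_div, h2]
  refine ⟨hv0, fun hz => ?_, fun hz hq2 => ?_⟩
  · have hall : ∀ R ∈ Cs CP, SingP A R := (all_good_or_all_bad hE (hcardC ▸ hN)).resolve_left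
      fun hg => hg P hPC (hiff.mpr hz)
    obtain ⟨h1, h2, h3⟩ := node_sing hE hodd hvN hc hΔlt hall ⟨P, hPs⟩
    have h4 := conv h1 rfl
    have hpos : 0 < A.valuation (veluCurve CP).Δ := (Valuation.pos_iff _).mpr hΔ'
    constructor
    · have : (A.valuation (veluCurve CP).Δ)⁻¹ < (A.valuation (EQ).Δ)⁻¹ ^ Nat.card CP := by
        rw [inv_pow]
        exact inv_strictAnti₀ (pow_pos ((Valuation.pos_iff _).mpr (EQ).isUnit_Δ.ne_zero) _) h3
      rw [h4, hvj, hcardC, ← zpow_natCast, ← zpow_mul,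
        zpow_lt_zpow_iff_right_of_lt_one₀ hπ0 hπ1] at this
      rwa [mul_comm] at this
    · have : 1 < (A.valuation (veluCurve CP).Δ)⁻¹ := one_lt_inv₀ hpos |>.mpr h2
      rwa [h4, ← zpow_zero (A.valuation (q : Qb)),
        zpow_lt_zpow_iff_right_of_lt_one₀ hπ0 hπ1] at this
  · have hall : ∀ R ∈ CP, ¬ SingP A R := (all_good_or_all_bad hE (hcardC ▸ hN)).resolve_right
      fun hb => (hiff.mp (hb P hPs)) hz
    have h2u : A.valuation (2 : Qb) = 1 := by
      have := FreyUnramified.valuation_intCast_eq_one hA hq (n := 2) fun hd =>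
        hq2 ((Nat.prime_dvd_prime_iff_eq hq Nat.prime_two).mp
          (Int.natCast_dvd_natCast.mp hd))
      simpa using this
    obtain ⟨h1, h2⟩ := node_smooth hE hodd hvN hc hΔlt h2u hall
    have h4 := conv h1 h2
    rw [← inv_pow, hvj, hcardC, ← zpow_natCast, ← zpow_mul] at h4
    rw [← zpow_right_injective₀ hπ0 hπ1.ne h4, mul_comm]

end Local

/-- **The curve side of Mazur's third step.** -/
theorem exists_curve_side {N : ℕ} (hN : N.Prime) (hN' : N ∉ ({2, 3, 5, 7, 13} : Finset ℕ))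
    {W : WeierstrassCurve ℤ} (hΔ : W.Δ ≠ 0)
    {Q : ((W.map (Int.castRingHom ℚ))⁄Qb).Point}
    [Finite (AddSubgroup.zmultiples Q)] [((W.map (Int.castRingHom ℚ))⁄Qb).IsElliptic]
    (hfix : ∀ σ : Qb ≃ₐ[ℚ] Qb, σ • Q = Q) (hord : addOrderOf Q = N)
    (h2Δ : (2 : ℤ) ∣ W.Δ) (h2c₄ : ¬ (2 : ℤ) ∣ W.c₄)
    (h2 : ∀ A : ValuationSubring Qb, A.LiesOverPrime 2 → ¬ W.InZeroComponentAt A Q)
    (h3Δ : (3 : ℤ) ∣ W.Δ) (h3c₄ : ¬ (3 : ℤ) ∣ W.c₄)
    (h3 : ∀ A : ValuationSubring Qb, A.LiesOverPrime 3 → ¬ W.InZeroComponentAt A Q)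
    {ℓ : ℕ} (hℓ : ℓ.Prime) (hℓN : ℓ ≠ N) (hℓΔ : (ℓ : ℤ) ∣ W.Δ) (hℓc₄ : ¬ (ℓ : ℤ) ∣ W.c₄)
    {A : ValuationSubring Qb} (hA : A.LiesOverPrime ℓ) (hzero : W.InZeroComponentAt A Q) :
    11 ≤ N ∧ 2 * N ≤ ℓ + 1 ∧ (N ∣ ℓ - 1 ∨ N ∣ ℓ + 1) ∧
    ∃ jq : ℚ, algebraMap ℚ Qb jq = jQuot (AddSubgroup.zmultiples Q) ∧
      (∀ q : ℕ, q.Prime → (q = 2 ∨ q = 3 ∨ 2 * q + 1 ≤ N) →
        padicValRat q (jRat W) < 0 ∧ (N : ℤ) * padicValRat q (jRat W) < padicValRat q jq ∧
          padicValRat q jq < 0) ∧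
      padicValRat ℓ (jRat W) < 0 ∧ padicValRat ℓ jq = (N : ℤ) * padicValRat ℓ (jRat W) := by
  have := Fact.mk hN
  simp only [Finset.mem_insert, Finset.mem_singleton, not_or] at hN'
  have hN11 : 11 ≤ N := by
    by_contra hlt
    have := hN.two_le
    have h4 : ¬ N = 4 ∧ ¬ N = 6 ∧ ¬ N = 8 ∧ ¬ N = 9 ∧ ¬ N = 10 := by
      refine ⟨?_, ?_, ?_, ?_, ?_⟩ <;> rintro rfl <;> norm_num at hN
    omega
  have hN2 : N ≠ 2 := hN'.1
  have hℓ5 : 5 ≤ ℓ := by
    by_contra hlt
    have := hℓ.two_le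
    have h4 : ℓ ≠ 4 := by rintro rfl; norm_num at hℓ
    obtain rfl | rfl : ℓ = 2 ∨ ℓ = 3 := by omega
    · exact h2 A hA hzero
    · exact h3 A hA hzero
  have hdvd := dvd_pred_or_succ hℓ hℓ5 hA hN hℓN hℓΔ hℓc₄ hfix hord hzero
  have h2N : 2 * N ≤ ℓ + 1 := by
    have h2ℓ : 2 ∣ ℓ + 1 := by
      rcases hℓ.eq_two_or_odd with h | h <;> omega
    have h2ℓ' : 2 ∣ ℓ - 1 := by omega
    have hcop : Nat.Coprime 2 N := (Nat.coprime_primes Nat.prime_two hN).mpr hN2.symm
    rcases hdvd with hd | hd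
    · have := Nat.le_of_dvd (by omega) (hcop.mul_dvd_of_dvd_of_dvd h2ℓ' hd)
      omega
    · exact Nat.le_of_dvd (by omega) (hcop.mul_dvd_of_dvd_of_dvd h2ℓ hd)
  obtain ⟨jq, hjq⟩ := exists_jq hfix
  have hℓ' := node_padic hℓ hA hℓN hN hN2 hord hℓΔ hℓc₄ hjq
  refine ⟨hN11, h2N, hdvd, jq, hjq, fun q hq hcase => ?_, hℓ'.1, hℓ'.2.2 hzero (by omega)⟩
  obtain ⟨B, hB⟩ := GaloisBasics.exists_liesOverPrime hq
  have hqN : q ≠ N := by rcases hcase with rfl | rfl | h <;> omega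
  by_cases hsmall : q = 2 ∨ q = 3
  · obtain ⟨hbad, hnc, hnz⟩ : (q : ℤ) ∣ W.Δ ∧ ¬ (q : ℤ) ∣ W.c₄ ∧
        ¬ W.InZeroComponentAt B Q := by
      rcases hsmall with rfl | rfl
      · exact ⟨by exact_mod_cast h2Δ, by exact_mod_cast h2c₄, h2 B hB⟩
      · exact ⟨by exact_mod_cast h3Δ, by exact_mod_cast h3c₄, h3 B hB⟩
    obtain ⟨k1, k2, -⟩ := node_padic hq hB hqN hN hN2 hord hbad hnc hjq
    exact ⟨k1, k2 hnz⟩
  · have h2q : 2 * q + 1 ≤ N := by omega
    have hq5 : 5 ≤ q := by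
      by_contra hlt
      have := hq.two_le
      have h4 : q ≠ 4 := by rintro rfl; norm_num at hq
      omega
    obtain ⟨W', D, h, hbad, hnc, hnz⟩ :=
      exists_node_model hq hq5 hB hN hN11 h2q hΔ hfix hord
    have hΔ' : W'.Δ ≠ 0 := by
      intro h0
      have hd := congrArg WeierstrassCurve.Δ h
      rw [variableChange_Δ, WeierstrassCurve.map_Δ, WeierstrassCurve.map_Δ, h0, map_zero,
        eq_comm, mul_eq_zero] at hd
      rcases hd with hd | hd
      · exact pow_ne_zero _ (Units.ne_zero _) hd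
      · exact hΔ (by simpa using hd)
    have := isElliptic_baseChange hΔ'
    have hord' : addOrderOf ((transport h).symm Q) = N := by
      rw [AddEquiv.addOrderOf_eq]; exact hord
    have := finite_zmultiples_of_order hN.ne_zero hord'
    have hCC' : ∀ R, R ∈ AddSubgroup.zmultiples ((transport h).symm Q) ↔
        VariableChangePoints.pointAddEquiv (changeQbar_spec h) R ∈ AddSubgroup.zmultiples Q := by
      intro R
      change _ ↔ transport h R ∈ _
      simp only [AddSubgroup.mem_zmultiples_iff]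
      exact exists_congr fun k => by
        rw [← map_zsmul, AddEquiv.symm_apply_eq]
    have hj' : algebraMap ℚ Qb jq =
        jQuot (AddSubgroup.zmultiples ((transport h).symm Q)) := by
      rw [hjq, jQuot_change (changeQbar_spec h) hCC'
        (by rw [Nat.card_zmultiples, hord]; exact hN.odd_of_ne_two hN2)]
    obtain ⟨k1, k2, -⟩ := node_padic hq hB hqN hN hN2 hord' hbad hnc hj'
    rw [jRat_change h] at k1 k2
    exact ⟨k1, k2 hnz⟩

end Fermat.Agent.MazurPoint
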