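import Fermat.Agent.MazurPoint.Curve
import Fermat.Agent.MazurPoint.Polygon

/-!
# The valuation of `j(E/⟨Q⟩)` from the modular equation
-/

set_option autoImplicit false

noncomputable section

namespace Fermat.Agent.MazurPoint

/-- Between the two branches of `Φ_N(jq, j) = 0` the strict bound selects `v(j) = N v(jq)`. -/
theorem padicValRat_j_eq {N : ℕ} [NeZero N] (hN : N.Prime) {q : ℕ} [Fact q.Prime] {j jq : ℚ}
    (hroot : (phiAt N jq).eval j = 0) (hj : padicValRat q j < 0)
    (hlt : (N : ℤ) * padicValRat q j < padicValRat q jq) (hjq : padicValRat q jq < 0) :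
    padicValRat q j = N * padicValRat q jq :=
  (padicValRat_or_of_root hN hroot hjq hj).resolve_right hlt.ne'

end Fermat.Agent.MazurPoint
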