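import Fermat.Agent.GoodReduction.RiemannData
import Fermat.Agent.GoodReductionS18.ResidualField
import Fermat.Agent.ModularFunctionField.Descent

/-!
# The poles of `j` on `X₀(M)` in characteristic prime to `M`

A divisor bounding the poles of `j` on the function field of `X₀(M)` over a field in which `M` is
invertible has degree at least `ψ(M)` (`dedekindPsi_le_degree`).
-/

set_option autoImplicit false

noncomputable section

open ModularCurve AlgebraicCurve IntermediateField
open Fermat.Agent.GoodReduction Fermat.Agent.ModularFunctionField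

namespace Fermat.Agent.MazurPoint

variable {k : Type*} [Field k] {M : ℕ} [NeZero M]

/-- `j` in the function field of level `M`. -/
def jC (k : Type*) [Field k] (M : ℕ) [NeZero M] : modularFunctionFieldFullC k M :=
  ⟨jqModC k, modularFunctionFieldC_le_full k M (jqModC_mem k M)⟩

/-- `j_M` in the function field of level `M`. -/
def jNC (k : Type*) [Field k] (M : ℕ) [NeZero M] : modularFunctionFieldFullC k M :=
  ⟨jqNModC k M, modularFunctionFieldC_le_full k M (jqNModC_mem k M)⟩

/-- `j^s j_M^i`, `i < ψ(M)`, are linearly independent over the constants. -/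
theorem linearIndependent_monomials (hM : (M : k) ≠ 0) (n : ℕ) :
    LinearIndependent k fun p : Fin n × Fin (dedekindPsi M) =>
      jC k M ^ (p.1 : ℕ) * jNC k M ^ (p.2 : ℕ) := by
  rw [Fintype.linearIndependent_iff]
  intro c hc
  have h0 := congrArg (fun x : modularFunctionFieldFullC k M => (x : LaurentSeries k)) hc
  simp only [IntermediateField.coe_sum, IntermediateField.coe_smul, MulMemClass.coe_mul,
    SubmonoidClass.coe_pow, ZeroMemClass.coe_zero, jC, jNC, Fintype.sum_prod_type] at h0
  rw [Finset.sum_comm] at h0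
  set J : jField k := ⟨jqModC k, IntermediateField.mem_adjoin_simple_self k _⟩
  set q : Fin (dedekindPsi M) → Polynomial k :=
    fun i => ∑ s : Fin n, Polynomial.monomial (s : ℕ) (c (s, i)) with hq
  have h2 := Fintype.linearIndependent_iff.mp (linearIndependent_pow_jqNModC (K := k) (N := M) hM)
    (fun i => Polynomial.aeval J (q i)) (by
      rw [← h0]
      refine Finset.sum_congr rfl fun i _ => ?_
      rw [IntermediateField.smul_def, smul_eq_mul, hq]
      simp only [map_sum, Polynomial.aeval_monomial, IntermediateField.coe_sum, Finset.sum_mul]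
      refine Finset.sum_congr rfl fun s _ => ?_
      simp only [MulMemClass.coe_mul, SubmonoidClass.coe_pow, J, Algebra.smul_def, mul_assoc]
      rfl)
  rintro ⟨s, i⟩
  have h3 : q i = 0 := by
    have h4 : Polynomial.aeval (jqModC k) (q i) = 0 := by
      have := congrArg (jField k).val (h2 i)
      rwa [← Polynomial.aeval_algHom_apply, map_zero] at this
    exact transcendental_iff.mp (GoodReductionS18.transcendental_jqModC_residual k) _ h4
  have h5 := congrArg (fun p : Polynomial k => p.coeff (s : ℕ)) h3
  simpa [hq, Polynomial.coeff_monomial, ← Fin.ext_iff] using h5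

/-- A divisor bounding the poles of `j` has degree at least `ψ(M)`. -/
theorem dedekindPsi_le_degree (hM : (M : k) ≠ 0) {g : ℕ} {c : ℤ}
    (R : RiemannData k (modularFunctionFieldFullC k M) g c)
    {P : Divisor k (modularFunctionFieldFullC k M)} (hP0 : 0 ≤ P)
    (hP : ∀ v : Place k (modularFunctionFieldFullC k M), -v.ord (jC k M) ≤ P v) :
    (dedekindPsi M : ℤ) ≤ Divisor.degree P := by
  classical
  obtain ⟨v₀⟩ := R.infinitePlaces.nonempty
  set pos : modularFunctionFieldFullC k M → Divisor k (modularFunctionFieldFullC k M) :=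
    fun f => (-R.div f) ⊔ 0 with hpos
  set C : Divisor k (modularFunctionFieldFullC k M) :=
    ∑ i : Fin (dedekindPsi M), pos (jNC k M ^ (i : ℕ)) + Finsupp.single v₀ (c.natAbs : ℤ) with hC
  have hpos0 : ∀ f, 0 ≤ pos f := fun f => le_sup_right
  by_contra hlt
  push Not at hlt
  have hdeg0 : 0 ≤ Divisor.degree P := by simpa using R.degree_mono hP0
  have hC0 : (c.natAbs : ℤ) ≤ Divisor.degree C := by
    rw [hC, map_add, R.degree_single]
    have := R.degree_mono (Finset.sum_nonneg
      fun i (_ : i ∈ (Finset.univ : Finset (Fin (dedekindPsi M)))) => hpos0 (jNC k M ^ (i : ℕ)))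
    rw [map_zero] at this
    omega
  set n : ℕ := (Divisor.degree C).toNat + 1 with hn
  set D := n • P + C with hD
  have hmem : ∀ p : Fin (n + 1) × Fin (dedekindPsi M),
      jC k M ^ (p.1 : ℕ) * jNC k M ^ (p.2 : ℕ) ∈ LSpace D := by
    intro p
    have hj : jC k M ^ (p.1 : ℕ) ∈ LSpace (n • P) := by
      rcases eq_or_ne (jC k M ^ (p.1 : ℕ)) 0 with h0 | h0
      · rw [h0]; exact zero_mem _
      rw [mem_LSpace h0]
      intro v
      rw [FFPlaces.ord_pow, Finsupp.smul_apply, nsmul_eq_mul]
      have h1 := hP v
      have h2 : 0 ≤ P v := hP0 v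
      have h3 : ((p.1 : ℕ) : ℤ) ≤ n := by have := p.1.2; omega
      nlinarith [mul_nonneg (sub_nonneg.mpr h3) h2,
        mul_nonneg (Int.natCast_nonneg (p.1 : ℕ)) (by linarith : (0 : ℤ) ≤ P v + v.ord (jC k M))]
    have hN : jNC k M ^ (p.2 : ℕ) ∈ LSpace C := by
      rcases eq_or_ne (jNC k M ^ (p.2 : ℕ)) 0 with h0 | h0
      · rw [h0]; exact zero_mem _
      rw [mem_LSpace h0]
      intro v
      have hle : pos (jNC k M ^ (p.2 : ℕ)) ≤
          ∑ i : Fin (dedekindPsi M), pos (jNC k M ^ (i : ℕ)) :=
        Finset.single_le_sum (f := fun i : Fin (dedekindPsi M) => pos (jNC k M ^ (i : ℕ)))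
          (fun i _ => hpos0 _) (Finset.mem_univ p.2)
      have h1 := hle v
      have h2 : -v.ord (jNC k M ^ (p.2 : ℕ)) ≤ pos (jNC k M ^ (p.2 : ℕ)) v := by
        simp [hpos, Finsupp.sup_apply, R.div_apply]
      have h3 : 0 ≤ Finsupp.single v₀ (c.natAbs : ℤ) v := by
        rw [Finsupp.single_apply]; split <;> omega
      rw [hC, Finsupp.add_apply]
      linarith
    exact R.mul_mem hj hN
  have := R.finite D
  have hli : LinearIndependent k fun p => (⟨_, hmem p⟩ : LSpace D) :=
    LinearIndependent.of_comp (LSpace D).subtype (linearIndependent_monomials hM (n + 1))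
  have hcard := hli.fintype_card_le_finrank
  rw [Fintype.card_prod, Fintype.card_fin, Fintype.card_fin] at hcard
  have hdegD : Divisor.degree D = n * Divisor.degree P + Divisor.degree C := by
    rw [hD, map_add, map_nsmul, nsmul_eq_mul]
  have he := R.exact' D (by
    have := mul_nonneg (Int.natCast_nonneg n) hdeg0
    omega)
  have hcard' : ((n : ℤ) + 1) * dedekindPsi M ≤ Module.finrank k (LSpace D) := by
    exact_mod_cast hcard
  have hn' : (n : ℤ) * Divisor.degree P ≤ n * ((dedekindPsi M : ℤ) - 1) :=
    mul_le_mul_of_nonneg_left (by omega) (Int.natCast_nonneg n)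
  have hnC : Divisor.degree C + 1 ≤ (n : ℤ) := by omega
  nlinarith

end Fermat.Agent.MazurPoint
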