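import Fermat.Agent.MazurPoint.Place
import Fermat.Agent.MazurPoint.PoleDegree
import Fermat.Agent.GoodReduction.Congruence
import Fermat.Agent.Specialization.SeriesModel
import Fermat.Agent.Hecke.Finite

/-!
# Specialisation of points to the cusps

The specialisation of a noncuspidal point and of the cusps through a good model of an auxiliary
level: if `|b| = |a|^N` and `1 < |a|` the point `(j, j_N) = (a, b)` specialises to the cusp `∞`
(`lower_point_eq_cuspInf`), and if `|a| = |b|^N` and `1 < |b|` to the cusp `0`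
(`lower_point_eq_cuspZero`), as equalities of divisors.
-/

set_option autoImplicit false

noncomputable section

open ModularCurve IntermediateField Polynomial
open AlgebraicCurve (Place Divisor HasPrincipalDivisors FundamentalIdentityAlong finrankAlong)
open Fermat.Agent.ModCurveGenus (Qb FN jEl)
open Fermat.Agent.GoodReduction

namespace Fermat.Agent.MazurPoint

attribute [local instance 5000] SubalgebraClass.toAlgebra
attribute [-instance] IsLocalRing.ResidueField.algebraOfIsIntegral

/-- The order of an integral polynomial with leading coefficient `1` at a pole. -/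
theorem ord_eval_monic {K F : Type*} [Field K] [Field F] [Algebra K F] (v : Place K F) {f : F}
    (hf : v.ord f < 0) (p : ℤ[X]) {D : ℕ} (hD : p.natDegree ≤ D) (hlead : p.coeff D = 1) :
    p.eval₂ (Int.castRingHom F) f ≠ 0 ∧
      v.ord (p.eval₂ (Int.castRingHom F) f) = D * v.ord f := by
  have hf0 : f ≠ 0 := fun h => by rw [h, Place.ord_zero] at hf; exact lt_irrefl _ hf
  have hv : ∀ n : ℤ, v.adicValuation (n : F) ≤ 1 := fun n => by
    rw [← map_intCast (algebraMap K F)]
    exact Place.adicValuation_algebraMap_le_one v _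
  have hlt : 1 < v.adicValuation f := by
    rw [v.adicValuation_eq_exp_neg_ord hf0, ← WithZero.exp_zero, WithZero.exp_lt_exp]
    omega
  have h := valuation_eval_eq hv hlt p hD (by rw [hlead, Int.cast_one, map_one])
  have hne : p.eval₂ (Int.castRingHom F) f ≠ 0 := fun h0 => by
    rw [h0, map_zero] at h
    exact pow_ne_zero _ (ne_zero_of_lt hlt) h.symm
  refine ⟨hne, ?_⟩
  rw [v.adicValuation_eq_exp_neg_ord hne, v.adicValuation_eq_exp_neg_ord hf0, ← WithZero.exp_nsmul,
    WithZero.exp_inj, nsmul_eq_mul] at h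
  linarith

/-! ### Divisors of `j - a`, `j_N - b`, `j_N - R(j) - c` -/

variable {N : ℕ} [NeZero N]

/-- The divisor of a function of level `N`. -/
def divN (f : FN N) : Divisor Qb (FN N) :=
  Finsupp.ofSupportFinite (fun v => v.ord f)
    (FFPlaces.support_finite (ModCurveGenus.finiteOverGen_FN N) f)

theorem divN_apply (f : FN N) (v : Place Qb (FN N)) : divN f v = v.ord f := rfl

/-- The poles of `j`. -/
def jPoles (hN : N.Prime) : Divisor Qb (FN N) :=
  Finsupp.single (cuspInf N) 1 + Finsupp.single (cuspZero hN) (N : ℤ)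

/-- The poles of `j_N`. -/
def jNPoles (hN : N.Prime) : Divisor Qb (FN N) :=
  Finsupp.single (cuspInf N) (N : ℤ) + Finsupp.single (cuspZero hN) 1

/-- The poles of `j_N - R(j)`. -/
def auxPoles (hN : N.Prime) : Divisor Qb (FN N) := Finsupp.single (cuspZero hN) ((N : ℤ) * N)

omit [NeZero N] in
theorem ord_sub_const_of_neg {v : Place Qb (FN N)} {f : FN N} (hv : v.ord f < 0) (c : Qb) :
    v.ord (f - algebraMap Qb (FN N) c) = v.ord f := by
  have hf0 : f ≠ 0 := fun h => by rw [h, Place.ord_zero] at hv; exact lt_irrefl _ hv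
  rw [sub_eq_add_neg, ← map_neg]
  exact FFPlaces.ord_add_eq_of_lt v hf0 (Or.inr (by rw [FunctionField.ord_algebraMap]; exact hv))

omit [NeZero N] in
theorem ord_sub_const_nonneg {v : Place Qb (FN N)} {f : FN N} (hv : 0 ≤ v.ord f) (c : Qb) :
    0 ≤ v.ord (f - algebraMap Qb (FN N) c) := by
  rw [← FFPlaces.mem_iff]
  exact sub_mem ((FFPlaces.mem_iff v).mpr hv) (v.algebraMap_mem' c)

theorem jPoles_cuspInf (hN : N.Prime) : jPoles hN (cuspInf N) = 1 := by
  simp [jPoles, Finsupp.single_eq_of_ne (cuspZero_ne_cuspInf hN).symm]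

theorem jPoles_cuspZero (hN : N.Prime) : jPoles hN (cuspZero hN) = N := by
  simp [jPoles, Finsupp.single_eq_of_ne (cuspZero_ne_cuspInf hN)]

theorem jPoles_of_nonneg (hN : N.Prime) {v : Place Qb (FN N)} (h : 0 ≤ v.ord (jEl N)) :
    jPoles hN v = 0 := by
  have h1 : v ≠ cuspInf N := fun e => by
    rw [e, ord_cuspInf_jEl] at h; omega
  have h2 : v ≠ cuspZero hN := fun e => absurd (e ▸ ord_cuspZero_jEl_neg hN) (not_lt.mpr h)
  simp [jPoles, Finsupp.single_eq_of_ne h1, Finsupp.single_eq_of_ne h2]

theorem jPoles_nonneg (hN : N.Prime) : 0 ≤ jPoles hN :=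
  add_nonneg (Finsupp.single_nonneg.mpr zero_le_one)
    (Finsupp.single_nonneg.mpr (Int.natCast_nonneg N))

/-- `jPoles` is the negative part of the divisor of `j`. -/
theorem jPoles_eq_max (hN : N.Prime) (v : Place Qb (FN N)) :
    jPoles hN v = max (-v.ord (jEl N)) 0 := by
  rcases lt_or_ge (v.ord (jEl N)) 0 with h | h
  · rcases eq_cusp_of_ord_neg hN h with rfl | rfl
    · rw [jPoles_cuspInf, ord_cuspInf_jEl]; norm_num
    · rw [jPoles_cuspZero, ord_cuspZero_jEl hN]; simp
  · rw [jPoles_of_nonneg hN h, max_eq_right (by omega)]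

/-- The zeros of `j - a`. -/
def jZeros (hN : N.Prime) (a : Qb) : Divisor Qb (FN N) :=
  divN (jEl N - algebraMap Qb (FN N) a) + jPoles hN

theorem jZeros_apply (hN : N.Prime) (a : Qb) (v : Place Qb (FN N)) :
    jZeros hN a v = if 0 ≤ v.ord (jEl N) then v.ord (jEl N - algebraMap Qb (FN N) a) else 0 := by
  rw [jZeros, Finsupp.add_apply, divN_apply, jPoles_eq_max]
  split
  · rw [max_eq_right (by omega), add_zero]
  · rw [ord_sub_const_of_neg (by omega), max_eq_left (by omega)]; omega

theorem jZeros_nonneg (hN : N.Prime) (a : Qb) : 0 ≤ jZeros hN a := fun v => by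
  rw [Finsupp.coe_zero, Pi.zero_apply, jZeros_apply]
  split
  · exact ord_sub_const_nonneg ‹_› a
  · exact le_rfl

theorem ord_jNEl_nonneg (hN : N.Prime) {v : Place Qb (FN N)} (hv : 0 ≤ v.ord (jEl N)) :
    0 ≤ v.ord (jNEl N) := by
  rw [← FFPlaces.mem_iff, FunctionField.mem_iff_adicValuation_le_one]
  exact valuation_root_le_one hN (valuation_intCast_le_one v)
    ((FunctionField.mem_iff_adicValuation_le_one v).mp ((FFPlaces.mem_iff v).mpr hv)) (phiAt_jEl N)

/-- The zeros of `j_N - b`. -/
def jNZeros (hN : N.Prime) (b : Qb) : Divisor Qb (FN N) :=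
  divN (jNEl N - algebraMap Qb (FN N) b) + jNPoles hN

theorem jNZeros_cases (hN : N.Prime) (b : Qb) (v : Place Qb (FN N)) :
    (0 ≤ v.ord (jEl N) ∧ jNZeros hN b v = v.ord (jNEl N - algebraMap Qb (FN N) b) ∧
        0 ≤ jNZeros hN b v) ∨ jNZeros hN b v = 0 := by
  rcases lt_or_ge (v.ord (jEl N)) 0 with h | h
  · right
    rw [jNZeros, Finsupp.add_apply, divN_apply]
    rcases eq_cusp_of_ord_neg hN h with rfl | rfl
    · rw [ord_sub_const_of_neg (by rw [ord_cuspInf_jNEl]; have := NeZero.ne N; omega),
        ord_cuspInf_jNEl]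
      simp [jNPoles, Finsupp.single_eq_of_ne (cuspZero_ne_cuspInf hN).symm]
    · rw [ord_sub_const_of_neg (by rw [ord_cuspZero_jNEl hN]; omega), ord_cuspZero_jNEl hN]
      simp [jNPoles, Finsupp.single_eq_of_ne (cuspZero_ne_cuspInf hN)]
  · left
    have h1 : v ≠ cuspInf N := fun e => by rw [e, ord_cuspInf_jEl] at h; omega
    have h2 : v ≠ cuspZero hN := fun e => absurd (e ▸ ord_cuspZero_jEl_neg hN) (not_lt.mpr h)
    have e : jNZeros hN b v = v.ord (jNEl N - algebraMap Qb (FN N) b) := by
      simp [jNZeros, jNPoles, divN_apply, Finsupp.single_eq_of_ne h1, Finsupp.single_eq_of_ne h2]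
    exact ⟨h, e, e ▸ ord_sub_const_nonneg (ord_jNEl_nonneg hN h) b⟩

theorem jNZeros_nonneg (hN : N.Prime) (b : Qb) : 0 ≤ jNZeros hN b := fun v => by
  rcases jNZeros_cases hN b v with ⟨-, -, h⟩ | h
  · exact h
  · exact h.ge

theorem ord_cuspZero_auxEl (hN : N.Prime) :
    (cuspZero hN).ord (auxEl N) = -((N : ℤ) * N) := by
  set w := cuspZero hN
  obtain ⟨hR0, hR⟩ := ord_eval_monic w (ord_cuspZero_jEl_neg hN) (polyR N) (polyR_natDegree_le N)
    (polyR_coeff N)
  have hN1 : 1 < (N : ℤ) := by exact_mod_cast hN.one_lt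
  rw [auxEl, sub_eq_add_neg, add_comm, FFPlaces.ord_add_eq_of_lt w (neg_ne_zero.mpr hR0)
    (Or.inr (by rw [FFPlaces.ord_neg, hR, ord_cuspZero_jEl hN, ord_cuspZero_jNEl hN]; nlinarith)),
    FFPlaces.ord_neg, hR, ord_cuspZero_jEl hN]
  ring

/-- The zeros of `j_N - R(j) - c`. -/
def auxZeros (hN : N.Prime) (c : Qb) : Divisor Qb (FN N) :=
  divN (auxEl N - algebraMap Qb (FN N) c) + auxPoles hN

theorem auxZeros_nonneg (hN : N.Prime) (c : Qb) : 0 ≤ auxZeros hN c := fun v => by
  classical
  rw [Finsupp.coe_zero, Pi.zero_apply, auxZeros, Finsupp.add_apply, divN_apply, auxPoles]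
  rcases eq_or_ne v (cuspZero hN) with rfl | hv
  · have hN1 : 1 ≤ (N : ℤ) := by exact_mod_cast hN.one_lt.le
    rw [ord_sub_const_of_neg (by rw [ord_cuspZero_auxEl]; nlinarith), ord_cuspZero_auxEl]
    simp
  · rw [Finsupp.single_eq_of_ne hv, add_zero]
    exact ord_sub_const_nonneg (ord_auxEl_nonneg hN hv) c

/-- A place over a simple point is unramified over `j = a`. -/
theorem OverPoint.ord_eq_one (hN : N.Prime) {P : Place Qb (FN N)} {a b : Qb}
    (h : OverPoint P a b) (hd : (phiAt N a).derivative.eval b ≠ 0) :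
    P.ord (jEl N - algebraMap Qb (FN N) a) = 1 := by
  obtain ⟨t, ht⟩ := IsDiscreteValuationRing.exists_irreducible P.toValuationSubring
  have ht1 : P.ord (t : FN N) = 1 := P.ord_coe_irreducible ht
  have ht0 : (t : FN N) ≠ 0 := fun h0 => by rw [h0, Place.ord_zero] at ht1; omega
  obtain ⟨r, s, hs, e⟩ := exists_frac_xy hN (t : FN N)
  have hr : evalXY (jEl N) (jNEl N) r ≠ 0 := fun h0 => ht0 (by rw [e, h0, zero_div])
  have hR : evalXY (jEl N) (jNEl N) (curveEq N) = 0 := by rw [evalXY_curveEq, phiAt_jEl]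
  have hRab : evalAB a b (curveEq N) = 0 := by rw [evalAB_curveEq]; exact h.root
  have key : ∀ p : Qb[X][X], evalXY (jEl N) (jNEl N) p ≠ 0 → ∃ m : ℤ,
      P.ord (evalXY (jEl N) (jNEl N) p) = m * P.ord (jEl N - algebraMap Qb (FN N) a) := by
    intro p hp
    obtain ⟨m, u, w, hu, hw, e'⟩ := exists_pow_unit P hR hRab
      (by rwa [evalAB_derivative_curveEq]) (jEl_sub_ne_zero a) h.1 h.2 p hp
    obtain ⟨nu, ou⟩ := ord_evalXY_eq_zero P h.1 h.2 hu
    obtain ⟨nw, ow⟩ := ord_evalXY_eq_zero P h.1 h.2 hw
    have o := congrArg P.ord e'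
    rw [P.ord_mul hp nw, P.ord_mul (pow_ne_zero _ (jEl_sub_ne_zero a)) nu, FFPlaces.ord_pow] at o
    exact ⟨m, by linarith⟩
  obtain ⟨m, hm⟩ := key r hr
  obtain ⟨m', hm'⟩ := key s hs
  rw [e, FFPlaces.ord_div P hr hs, hm, hm', ← sub_mul] at ht1
  have hpos : 0 < P.ord (jEl N - algebraMap Qb (FN N) a) :=
    ((FunctionField.adicValuation_lt_one_iff P).mp h.1).resolve_left (jEl_sub_ne_zero a)
  rcases Int.mul_eq_one_iff_eq_one_or_neg_one.mp ht1 with ⟨-, h1⟩ | ⟨-, h1⟩ <;> omega

theorem exists_overPoint_of_ord_jNEl_pos {v : Place Qb (FN N)} {b : Qb}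
    (hv : 0 ≤ v.ord (jEl N)) (hb : 0 < v.ord (jNEl N - algebraMap Qb (FN N) b)) :
    ∃ a, OverPoint v a b := by
  obtain ⟨a, ha⟩ := FFPlaces.exists_residue (ModCurveGenus.finiteOverGen_FN N) v hv
  refine ⟨a, (FunctionField.adicValuation_lt_one_iff v).mpr (ha.imp (fun h => ?_) id),
    (FunctionField.adicValuation_lt_one_iff v).mpr (Or.inr hb)⟩
  rw [← h, sub_self]

theorem coe_int_series {A : ValuationSubring Qb} {k : Type*} [Field k] {π : A →+* k}
    (s : LaurentSeries ℤ) :
    coeffMap A.subtype (coeffMap (Int.castRingHom A) s) = coeffMap (Int.castRingHom Qb) s ∧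
      coeffMap π (coeffMap (Int.castRingHom A) s) = coeffMap (Int.castRingHom k) s := by
  rw [coeffMap_coeffMap, coeffMap_coeffMap,
    Subsingleton.elim (A.subtype.comp (Int.castRingHom A)) (Int.castRingHom Qb),
    Subsingleton.elim (π.comp (Int.castRingHom A)) (Int.castRingHom k)]
  exact ⟨rfl, rfl⟩

theorem coe_jC_int {k : Type*} [Field k] {M : ℕ} [NeZero M] :
    (jC k M : LaurentSeries k) = coeffMap (Int.castRingHom k) (jqModC ℤ) := by
  rw [ModularFunctionField.coeffMap_jqC]; rfl

/-! ### The lowered divisor map -/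

section Lower

variable {A : ValuationSubring Qb} {k : Type*} [Field k] {π : A →+* k}
  {M : ℕ} [NeZero M] {g : ℕ} {c : ℤ}
  {red : Reduction (FN M) (modularFunctionFieldFullC k M) A π}
  {H : Divisor Qb (FN M)} {Hb : Divisor k (modularFunctionFieldFullC k M)}
  [HasPrincipalDivisors Qb (FN M)]
  (hred : Specialization.IsSeriesReduction red) (G : GoodModel red g c H Hb)
  (ι : FN N →ₐ[Qb] FN M) (hι : ∀ f, (ι f : LaurentSeries Qb) = (f : LaurentSeries Qb))
  (hιint : ι.toRingHom.IsIntegral) (hMk : (M : k) ≠ 0)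

local notation "L" => G.lowerDivMap ι hιint

include red in
omit [NeZero M] [HasPrincipalDivisors Qb (FN M)] in
theorem pi_eq_zero (x : A) (hx : A.valuation (x : Qb) < 1) : π x = 0 :=
  (red.map_eq_zero_iff x).mpr fun hu =>
    (ne_of_lt hx) ((A.valuation_eq_one_iff x).mp hu)

include hred hι

omit [NeZero M] in
theorem lowerDiv_series {f : FN N} {y : LaurentSeries A}
    (hy : (f : LaurentSeries Qb) = coeffMap A.subtype y)
    {z : modularFunctionFieldFullC k M} (hz : (z : LaurentSeries k) = coeffMap π y) (hz0 : z ≠ 0) :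
    L (divN f) = G.riemann'.div z := by
  obtain ⟨x, hx, hxr⟩ := hred.res_series y (ι f) (by rw [hι]; exact hy)
  have e : red.res x = z := Subtype.ext (hxr.trans hz.symm)
  rw [G.lowerDivMap_div ι hιint (f := f) (fun v => rfl) hx (e ▸ hz0), e]

omit [NeZero N] [NeZero M] [HasPrincipalDivisors Qb (FN M)] in
/-- The residue of an integral series in the function field of level `N`. -/
theorem exists_res {f : FN N} {y : LaurentSeries A}
    (hy : (f : LaurentSeries Qb) = coeffMap A.subtype y) :
    ∃ z : modularFunctionFieldFullC k M, (z : LaurentSeries k) = coeffMap π y := by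
  obtain ⟨x, -, hxr⟩ := hred.res_series y (ι f) (by rw [hι]; exact hy)
  exact ⟨red.res x, hxr⟩

omit [NeZero M] in
/-- The divisor of `f - c`, `f` integral and `c` not, specialises to zero. -/
theorem lowerDiv_sub_const {f : FN N} {s : LaurentSeries ℤ}
    (hs : ((f : FN N) : LaurentSeries Qb) = coeffMap (Int.castRingHom Qb) s) {c₀ : Qb}
    (hc : 1 < A.valuation c₀) (hfc : f - algebraMap Qb (FN N) c₀ ≠ 0) :
    L (divN (f - algebraMap Qb (FN N) c₀)) = 0 := by
  have hc0 : c₀ ≠ 0 := fun h => by simp [h] at hc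
  have hinv : A.valuation c₀⁻¹ < 1 := by rw [map_inv₀]; exact inv_lt_one_of_one_lt₀ hc
  set y : LaurentSeries A := 1 - HahnSeries.C ⟨c₀⁻¹, (A.valuation_le_one_iff _).mp hinv.le⟩ *
    coeffMap (Int.castRingHom A) s with hy
  have hyQ : coeffMap A.subtype y =
      ((1 - algebraMap Qb (FN N) c₀⁻¹ * f : FN N) : LaurentSeries Qb) := by
    rw [hy, map_sub, map_one, map_mul, coeffMap_coeffMap,
      Subsingleton.elim (A.subtype.comp (Int.castRingHom A)) (Int.castRingHom Qb),
      HahnSeries.C_apply,
      coeffMap_single, AddSubgroupClass.coe_sub, OneMemClass.coe_one, MulMemClass.coe_mul, ← hs]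
    congr 2
    exact (algebraMap_laurentSeries_eq_single Qb c₀⁻¹).symm
  have hyk : coeffMap π y = 1 := by
    rw [hy, map_sub, map_one, map_mul, HahnSeries.C_apply, coeffMap_single,
      pi_eq_zero (red := red) _ hinv, HahnSeries.single_eq_zero, zero_mul, sub_zero]
  have hfac : (1 - algebraMap Qb (FN N) c₀⁻¹ * f : FN N) =
      -algebraMap Qb (FN N) c₀⁻¹ * (f - algebraMap Qb (FN N) c₀) := by
    have : algebraMap Qb (FN N) c₀⁻¹ * algebraMap Qb (FN N) c₀ = 1 := by
      rw [← map_mul, inv_mul_cancel₀ hc0, map_one]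
    linear_combination -this
  have hD : divN (f - algebraMap Qb (FN N) c₀) = divN (1 - algebraMap Qb (FN N) c₀⁻¹ * f) := by
    ext v
    rw [divN_apply, divN_apply, hfac,
      v.ord_mul (neg_ne_zero.mpr ((_root_.map_ne_zero _).mpr (inv_ne_zero hc0))) hfc,
      ← map_neg (algebraMap Qb (FN N)), FunctionField.ord_algebraMap, zero_add]
  rw [hD, lowerDiv_series hred G ι hι hιint hyQ.symm
    (z := 1) (by rw [hyk]; rfl) one_ne_zero]
  exact (G.riemann'.div_eq (fun v => by simp)).symm

omit hred hι

omit [NeZero N] [NeZero M] in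
/-- `L` is monotone on divisors. -/
theorem lowerDiv_mono (hFI : FundamentalIdentityAlong Qb ι hιint) {D D' : Divisor Qb (FN N)}
    (h : D ≤ D') : L D ≤ L D' := by
  have := (G.scales_lowerDivMap ι hιint hFI).nonneg (D' - D) (sub_nonneg.mpr h)
  rwa [map_sub, sub_nonneg] at this

omit [NeZero N] [NeZero M] in
theorem lowerDiv_single (v : Place Qb (FN N)) (n : ℤ) :
    L (Finsupp.single v n) = n • L (Finsupp.single v 1) := by
  rw [← map_zsmul, Finsupp.smul_single, smul_eq_mul, mul_one]

omit [NeZero N] [NeZero M] in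
/-- `L D` at `Q`, as a sum over the support of `D`. -/
theorem lowerDiv_apply (D : Divisor Qb (FN N)) (Q : Place k (modularFunctionFieldFullC k M)) :
    L D Q = ∑ v ∈ D.support, D v * L (Finsupp.single v 1) Q := by
  conv_lhs => rw [← Finsupp.sum_single D, Finsupp.sum, map_sum, Finsupp.finsetSum_apply]
  refine Finset.sum_congr rfl fun v _ => ?_
  rw [lowerDiv_single G ι hιint, Finsupp.smul_apply, smul_eq_mul]

/-- The fundamental identity `∑ eᵢ = deg` holds along `ι`. -/
theorem hFI : FundamentalIdentityAlong Qb ι hιint :=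
  haveI := ModCurveGenus.isFunctionField_FN N
  haveI := ModCurveGenus.isFunctionField_FN M
  Hecke.fundamentalIdentityAlong ι hιint

theorem lowerDiv_single_nonneg (v : Place Qb (FN N)) (Q : Place k (modularFunctionFieldFullC k M)) :
    0 ≤ L (Finsupp.single v 1) Q := by
  have := lowerDiv_mono G ι hιint (hFI ι hιint) (D := 0) (D' := Finsupp.single v 1)
    (Finsupp.single_nonneg.mpr zero_le_one) Q
  rwa [map_zero] at this

theorem degree_lowerDiv_single (v : Place Qb (FN N)) :
    Divisor.degree (L (Finsupp.single v 1)) = finrankAlong Qb ι := by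
  rw [(G.scales_lowerDivMap ι hιint (hFI ι hιint)).degree, AlgebraicCurve.Divisor.degree_single,
    CuspidalC.deg_place]
  push_cast
  ring

include hι hιint in
theorem finrankAlong_mul (hN : N.Prime) :
    (finrankAlong Qb ι : ℤ) * ((N : ℤ) + 1) = dedekindPsi M := by
  have := ModCurveGenus.isFunctionField_FN M
  have := ModCurveGenus.isFunctionField_FN N
  have hj : ι (jEl N) = jEl M := Subtype.ext (by rw [hι, coe_jEl_int, coe_jEl_int])
  have hpb : AlgebraicCurve.Divisor.pullbackAlong ι hιint (jPoles hN) =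
      FunctionField.poleDiv Qb (jEl M) := by
    let := AlgebraicCurve.algebraAlong ι
    have := AlgebraicCurve.isScalarTower_along ι
    have := AlgebraicCurve.isIntegral_along ι hιint
    ext w
    have h1 := AlgebraicCurve.Divisor.pullback_apply_eq_ord
      (D := divN (jEl N)) (f := jEl N) (fun v => rfl) w
    change AlgebraicCurve.Divisor.pullbackAlong ι hιint (divN (jEl N)) w = w.ord (ι (jEl N)) at h1
    rw [AlgebraicCurve.Divisor.pullbackAlong_apply, divN_apply, hj] at h1
    rw [AlgebraicCurve.Divisor.pullbackAlong_apply, jPoles_eq_max,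
      mul_max_of_nonneg _ _ (Int.natCast_nonneg _), mul_zero, mul_neg, h1]
    simp [FunctionField.poleDiv, Finsupp.sup_apply]
  have h2 := AlgebraicCurve.Divisor.degree_pullbackAlong ι hιint (hFI ι hιint) (jPoles hN)
  rw [hpb, FunctionField.degree_poleDiv (ModCurveGenus.jEl_transcendental M), FunctionField.degFun,
    ModCurveGenus.finrank_eq_psi, jPoles, map_add, AlgebraicCurve.Divisor.degree_single,
    AlgebraicCurve.Divisor.degree_single, CuspidalC.deg_place, CuspidalC.deg_place] at h2
  rw [h2]
  push_cast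
  ring

include hred hι hMk

/-- The poles of the reduced `j` are exactly the specialisations of those of `j`. -/
theorem poles_jC (hN : N.Prime) (Q : Place k (modularFunctionFieldFullC k M)) :
    L (Finsupp.single (cuspInf N) 1) Q + N * L (Finsupp.single (cuspZero hN) 1) Q =
      max (-Q.ord (jC k M)) 0 := by
  have hz : (jC k M : LaurentSeries k) = coeffMap π (coeffMap (Int.castRingHom A) (jqModC ℤ)) := by
    rw [(coe_int_series (π := π) _).2]; exact coe_jC_int
  have hz0 : jC k M ≠ 0 := fun h0 =>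
    GoodReductionS18.transcendental_jqModC_residual k
      (by rw [show jqModC k = ((jC k M : modularFunctionFieldFullC k M) : LaurentSeries k) from rfl,
        h0]; exact isAlgebraic_zero)
  have hdiv := lowerDiv_series hred G ι hι hιint (f := jEl N)
    (y := coeffMap (Int.castRingHom A) (jqModC ℤ))
    (by rw [(coe_int_series (π := π) _).1]; exact coe_jEl_int N) hz hz0
  set P := L (jPoles hN) with hP
  set Pb : Divisor k (modularFunctionFieldFullC k M) := (-G.riemann'.div (jC k M)) ⊔ 0 with hPb
  have hP0 : 0 ≤ P := by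
    have := lowerDiv_mono G ι hιint (hFI ι hιint) (jPoles_nonneg hN)
    rwa [map_zero] at this
  have hZ : 0 ≤ L (divN (jEl N) + jPoles hN) := by
    have h0 := jZeros_nonneg hN (0 : Qb)
    rw [jZeros, map_zero, sub_zero] at h0
    have := lowerDiv_mono G ι hιint (hFI ι hιint) h0
    rwa [map_zero] at this
  rw [map_add, hdiv] at hZ
  have hle : Pb ≤ P := sup_le (fun v => by
    have := hZ v
    simp only [Finsupp.coe_zero, Pi.zero_apply, Finsupp.add_apply] at this
    rw [Finsupp.neg_apply, hP]; linarith) hP0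
  have hdeg : Divisor.degree P = dedekindPsi M := by
    rw [hP, (G.scales_lowerDivMap ι hιint (hFI ι hιint)).degree, jPoles, map_add,
      AlgebraicCurve.Divisor.degree_single, AlgebraicCurve.Divisor.degree_single,
      CuspidalC.deg_place, CuspidalC.deg_place, ← finrankAlong_mul ι hι hιint hN]
    push_cast
    ring
  have heq : Pb = P := G.riemann'.eq_of_le_of_degree_eq hle (le_antisymm
    (G.riemann'.degree_mono hle) (hdeg ▸ dedekindPsi_le_degree hMk G.riemann' le_sup_right
      (fun v => by simp [hPb, Finsupp.sup_apply, G.riemann'.div_apply])))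
  have h := DFunLike.congr_fun heq Q
  rw [hPb, Finsupp.sup_apply, Finsupp.neg_apply, G.riemann'.div_apply, Finsupp.zero_apply, hP,
    jPoles, map_add, Finsupp.add_apply, lowerDiv_single G ι hιint (cuspZero hN),
    Finsupp.smul_apply, smul_eq_mul] at h
  exact h.symm

/-- The cusps specialise to divisors with disjoint supports. -/
theorem disjoint_cusps (hN : N.Prime) {Q : Place k (modularFunctionFieldFullC k M)}
    (hQ : L (Finsupp.single (cuspZero hN) 1) Q ≠ 0) :
    L (Finsupp.single (cuspInf N) 1) Q = 0 := by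
  set α := L (Finsupp.single (cuspInf N) 1) Q with hα
  set β := L (Finsupp.single (cuspZero hN) 1) Q with hβ
  have hα0 : 0 ≤ α := lowerDiv_single_nonneg G ι hιint _ Q
  have hβ0 : 0 < β := lt_of_le_of_ne (lowerDiv_single_nonneg G ι hιint _ Q) (Ne.symm hQ)
  have hN1 : 1 < (N : ℤ) := by exact_mod_cast hN.one_lt
  have hp := poles_jC hred G ι hι hιint hMk hN Q
  rw [← hα, ← hβ] at hp
  have hord : Q.ord (jC k M) = -(α + N * β) := by
    rcases le_or_gt 0 (-Q.ord (jC k M)) with h | h
    · rw [max_eq_left h] at hp; linarith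
    · rw [max_eq_right h.le] at hp; nlinarith
  obtain ⟨zN, hzN⟩ := exists_res hred (π := π) ι hι (f := jNEl N)
    (y := coeffMap (Int.castRingHom A) (qExpand ℤ N (jqModC ℤ)))
    (by rw [(coe_int_series (π := π) _).1]; exact coe_jNEl_int)
  have hzN' : zN = 0 ∨ -(N * α + β) ≤ Q.ord zN := by
    rcases eq_or_ne zN 0 with h | h
    · exact Or.inl h
    refine Or.inr ?_
    have hdiv := lowerDiv_series hred G ι hι hιint (f := jNEl N)
      (by rw [(coe_int_series (π := π) _).1]; exact coe_jNEl_int) hzN h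
    have h0 := jNZeros_nonneg hN (0 : Qb)
    rw [jNZeros, map_zero, sub_zero] at h0
    have h1 := lowerDiv_mono G ι hιint (hFI ι hιint) h0 Q
    rw [map_zero, map_add, hdiv, jNPoles, map_add, Finsupp.add_apply, Finsupp.add_apply,
      lowerDiv_single G ι hιint (cuspInf N), Finsupp.smul_apply, G.riemann'.div_apply, smul_eq_mul,
      ← hα, ← hβ, Finsupp.coe_zero, Pi.zero_apply] at h1
    linarith
  obtain ⟨hR0, hR⟩ := ord_eval_monic Q (f := jC k M) (by rw [hord]; nlinarith) (polyR N)
    (polyR_natDegree_le N) (polyR_coeff N)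
  set R := (polyR N).eval₂ (Int.castRingHom (modularFunctionFieldFullC k M)) (jC k M)
  have hlt : zN = 0 ∨ Q.ord (-R) < Q.ord zN := hzN'.imp_right fun h => by
    rw [FFPlaces.ord_neg, hR, hord]
    have h3 : β < (N : ℤ) * N * β := by
      have h4 : (1 : ℤ) < N * N := by nlinarith
      nlinarith
    linarith
  have hz1 : Q.ord (zN - R) = -((N : ℤ) * (α + N * β)) := by
    rw [sub_eq_add_neg, add_comm, FFPlaces.ord_add_eq_of_lt Q (neg_ne_zero.mpr hR0) hlt,
      FFPlaces.ord_neg, hR, hord]
    ring
  have hz0 : zN - R ≠ 0 := fun h0 => by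
    rw [h0, Place.ord_zero] at hz1
    have h1 : 0 < α + N * β := add_pos_of_nonneg_of_pos hα0 (mul_pos (by omega) hβ0)
    nlinarith [mul_pos (show (0 : ℤ) < N by omega) h1]
  have hz : ((zN - R : modularFunctionFieldFullC k M) : LaurentSeries k) =
      coeffMap π (coeffMap (Int.castRingHom A) (auxSeries N)) := by
    rw [(coe_int_series (π := π) _).2, auxSeries, map_sub, Polynomial.hom_eval₂,
      AddSubgroupClass.coe_sub, hzN, (coe_int_series (π := π) _).2]
    congr 1
    show (modularFunctionFieldFullC k M).val.toRingHom _ = _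
    rw [Polynomial.hom_eval₂, show (modularFunctionFieldFullC k M).val.toRingHom (jC k M) =
      coeffMap (Int.castRingHom k) (jqModC ℤ) from coe_jC_int (M := M)]
    congr 1
    exact Subsingleton.elim _ _
  have hdiv := lowerDiv_series hred G ι hι hιint (f := auxEl N)
    (y := coeffMap (Int.castRingHom A) (auxSeries N))
    (by rw [(coe_int_series (π := π) _).1]; exact coe_auxEl N) hz hz0
  have h0 := auxZeros_nonneg hN (0 : Qb)
  rw [auxZeros, map_zero, sub_zero] at h0
  have h1 := lowerDiv_mono G ι hιint (hFI ι hιint) h0 Q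
  rw [map_zero, map_add, hdiv, auxPoles, Finsupp.add_apply,
    lowerDiv_single G ι hιint (cuspZero hN), Finsupp.smul_apply, G.riemann'.div_apply, hz1,
    smul_eq_mul, ← hβ, Finsupp.coe_zero, Pi.zero_apply] at h1
  nlinarith

omit hMk in
/-- Away from the branch `|b| = |a|^N` a point specialises into the support of the cusp `0`. -/
theorem lower_point_supp (hN : N.Prime) {P : Place Qb (FN N)} {a b : Qb} (h : OverPoint P a b)
    (ha : 1 < A.valuation a) (hb : A.valuation b ≠ A.valuation a ^ N)
    {Q : Place k (modularFunctionFieldFullC k M)}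
    (hQ : L (Finsupp.single (cuspZero hN) 1) Q = 0) : L (Finsupp.single P 1) Q = 0 := by
  set c₀ : Qb := b - (polyR N).eval₂ (Int.castRingHom Qb) a with hc
  have hRa : A.valuation ((polyR N).eval₂ (Int.castRingHom Qb) a) = A.valuation a ^ N :=
    valuation_eval_eq valuation_intCast_le_one_base ha _ (polyR_natDegree_le N)
      (by rw [polyR_coeff, Int.cast_one, map_one])
  have hc1 : 1 < A.valuation c₀ := by
    rw [hc, sub_eq_add_neg, Valuation.map_add_of_distinct_val _ (by rwa [Valuation.map_neg, hRa]),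
      Valuation.map_neg, hRa]
    exact lt_max_of_lt_right (one_lt_pow₀ ha (NeZero.ne N))
  have hfc : auxEl N - algebraMap Qb (FN N) c₀ ≠ 0 := fun h0 => by
    have h1 := one_lt_valuation_cuspZero_auxEl hN
    rw [sub_eq_zero.mp h0] at h1
    exact absurd h1 (Place.adicValuation_algebraMap_le_one _ c₀).not_gt
  have hpos : 0 < P.ord (auxEl N - algebraMap Qb (FN N) c₀) := by
    refine ((FunctionField.adicValuation_lt_one_iff P).mp ?_).resolve_left hfc
    have h1 := evalXY_sub_lt P h.1 h.2 (X - C ((polyR N).map (Int.castRingHom Qb)))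
    have e1 : evalXY (jEl N) (jNEl N) (X - C ((polyR N).map (Int.castRingHom Qb))) = auxEl N := by
      simp [evalXY, auxEl, Polynomial.aeval_def, Polynomial.eval₂_map,
        Subsingleton.elim ((algebraMap Qb (FN N)).comp (Int.castRingHom Qb)) (Int.castRingHom _)]
    have e2 : evalAB a b (X - C ((polyR N).map (Int.castRingHom Qb))) = c₀ := by
      simp [evalAB, hc, Polynomial.eval_map]
    rwa [e1, e2] at h1
  have hle : Finsupp.single P (1 : ℤ) ≤ auxZeros hN c₀ := fun v => by
    classical
    rw [Finsupp.single_apply]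
    split
    · subst v
      rw [auxZeros, Finsupp.add_apply, divN_apply, auxPoles,
        Finsupp.single_eq_of_ne (h.ne_cuspZero hN), add_zero]
      omega
    · exact auxZeros_nonneg hN c₀ v
  have h1 := lowerDiv_mono G ι hιint (hFI ι hιint) hle Q
  rw [auxZeros, map_add, lowerDiv_sub_const hred G ι hι hιint (coe_auxEl N) hc1 hfc, zero_add,
    auxPoles, lowerDiv_single G ι hιint (cuspZero hN), Finsupp.smul_apply, smul_eq_mul, hQ,
    mul_zero] at h1
  exact le_antisymm h1 (lowerDiv_single_nonneg G ι hιint P Q)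

/-- **`|b| = |a|^N`: the point specialises to the cusp `∞`.** -/
theorem lower_point_eq_cuspInf (hN : N.Prime) {P : Place Qb (FN N)} {a b : Qb}
    (h : OverPoint P a b) (ha : 1 < A.valuation a) (hb : A.valuation b = A.valuation a ^ N) :
    L (Finsupp.single P 1) = L (Finsupp.single (cuspInf N) 1) := by
  classical
  have hd : (phiAt N a).derivative.eval b ≠ 0 :=
    derivative_eval_ne_zero hN valuation_intCast_le_one_base ha
      (hb ▸ one_lt_pow₀ ha (NeZero.ne N)) h.root (Or.inl hb)
  have hPj : 0 ≤ P.ord (jEl N) := by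
    by_contra hneg
    have h1 : P.ord (jEl N - algebraMap Qb (FN N) a) = P.ord (jEl N) :=
      ord_sub_const_of_neg (not_le.mp hneg) a
    rw [h.ord_eq_one hN hd] at h1
    omega
  have hZ : L (jZeros hN a) = L (jPoles hN) := by
    rw [jZeros, map_add,
      lowerDiv_sub_const hred G ι hι hιint (coe_jEl_int N) ha (jEl_sub_ne_zero a), zero_add]
  refine (G.riemann'.eq_of_le_of_degree_eq (fun Q => ?_) ?_).symm
  swap
  · rw [degree_lowerDiv_single G ι hιint, degree_lowerDiv_single G ι hιint]
  rcases eq_or_ne (L (Finsupp.single (cuspInf N) 1) Q) 0 with h0 | h0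
  · rw [h0]; exact lowerDiv_single_nonneg G ι hιint P Q
  have hQ : L (Finsupp.single (cuspZero hN) 1) Q = 0 :=
    by_contra fun hne => h0 (disjoint_cusps hred G ι hι hιint hMk hN hne)
  have h1 := DFunLike.congr_fun hZ Q
  rw [jPoles, map_add, Finsupp.add_apply, lowerDiv_single G ι hιint (cuspZero hN),
    Finsupp.smul_apply, smul_eq_mul, hQ, mul_zero, add_zero, lowerDiv_apply G ι hιint,
    Finset.sum_eq_single P] at h1
  · rw [jZeros_apply, if_pos hPj, h.ord_eq_one hN hd, one_mul] at h1
    exact h1.ge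
  · intro v hv hvP
    refine mul_eq_zero_of_right _ ?_
    have hv' := Finsupp.mem_support_iff.mp hv
    rw [jZeros_apply] at hv'
    split at hv'
    swap
    · exact absurd rfl hv'
    have hnn : 0 ≤ v.ord (jEl N) := ‹_›
    obtain ⟨b', h'⟩ := exists_overPoint_of_ord_pos hN
      (lt_of_le_of_ne (ord_sub_const_nonneg hnn a) (Ne.symm hv'))
    refine lower_point_supp hred G ι hι hιint hN h' ha (fun hb' => hvP ?_) hQ
    obtain rfl := root_unique hN valuation_intCast_le_one_base ha hb hb' h.root h'.root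
    exact h'.unique hN h hd
  · intro hP
    rw [Finsupp.notMem_support_iff.mp hP, zero_mul]

/-- **`|a| = |b|^N`: the point specialises to the cusp `0`.** -/
theorem lower_point_eq_cuspZero (hN : N.Prime) {P : Place Qb (FN N)} {a b : Qb}
    (h : OverPoint P a b) (hb : 1 < A.valuation b) (ha : A.valuation a = A.valuation b ^ N) :
    L (Finsupp.single P 1) = L (Finsupp.single (cuspZero hN) 1) := by
  classical
  have ha1 : 1 < A.valuation a := ha ▸ one_lt_pow₀ hb (NeZero.ne N)
  have hne : A.valuation b ≠ A.valuation a ^ N := by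
    rw [ha, ← pow_mul]
    exact (lt_self_pow₀ hb (Nat.one_lt_mul_iff.mpr ⟨hN.pos, hN.pos, Or.inl hN.one_lt⟩)).ne
  set Z := jNZeros hN b with hZdef
  let inf : Place Qb (FN N) → Prop :=
    fun v => ∀ Q, L (Finsupp.single v 1) Q = L (Finsupp.single (cuspInf N) 1) Q
  have hcls : ∀ v ∈ Z.support, inf v ∨ ∀ Q, L (Finsupp.single (cuspZero hN) 1) Q = 0 →
      L (Finsupp.single v 1) Q = 0 := by
    intro v hv
    rcases jNZeros_cases hN b v with ⟨hj, e, hnn⟩ | e
    swap
    · exact absurd e (Finsupp.mem_support_iff.mp hv)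
    obtain ⟨a', h'⟩ := exists_overPoint_of_ord_jNEl_pos hj
      (e ▸ lt_of_le_of_ne hnn (Ne.symm (Finsupp.mem_support_iff.mp hv)))
    have ha' : 1 < A.valuation a' := by
      by_contra hle
      exact absurd
        (valuation_root_le_one hN valuation_intCast_le_one_base (not_lt.mp hle) h'.root)
        (not_le.mpr hb)
    by_cases hslope : A.valuation b = A.valuation a' ^ N
    · exact Or.inl fun Q => by
        rw [lower_point_eq_cuspInf hred G ι hι hιint hMk hN h' ha' hslope]
    · exact Or.inr fun Q hQ => lower_point_supp hred G ι hι hιint hN h' ha' hslope hQ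
  set Z2 := Z.filter (fun v => ¬ inf v) with hZ2
  have hfc : jNEl N - algebraMap Qb (FN N) b ≠ 0 := jNEl_sub_ne_zero b
  have hZ : L Z = L (jNPoles hN) := by
    rw [hZdef, jNZeros, map_add, lowerDiv_sub_const hred G ι hι hιint coe_jNEl_int hb hfc, zero_add]
  have hZ2eq : L Z2 = L (Finsupp.single (cuspZero hN) 1) := by
    ext Q
    rcases eq_or_ne (L (Finsupp.single (cuspZero hN) 1) Q) 0 with hQ | hQ
    · rw [hQ, lowerDiv_apply G ι hιint]
      refine Finset.sum_eq_zero fun v hv => mul_eq_zero_of_right _ ?_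
      rw [hZ2, Finsupp.support_filter, Finset.mem_filter] at hv
      exact ((hcls v hv.1).resolve_left hv.2) Q hQ
    · have hI := disjoint_cusps hred G ι hι hιint hMk hN hQ
      have h1 := DFunLike.congr_fun hZ Q
      rw [jNPoles, map_add, Finsupp.add_apply, lowerDiv_single G ι hιint (cuspInf N),
        Finsupp.smul_apply, smul_eq_mul, hI, mul_zero, zero_add,
        ← Finsupp.filter_add_filter_not Z inf, map_add, Finsupp.add_apply, ← hZ2] at h1
      rw [← h1, lowerDiv_apply G ι hιint (Z.filter inf), Finset.sum_eq_zero, zero_add]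
      intro v hv
      rw [Finsupp.support_filter, Finset.mem_filter] at hv
      rw [hv.2 Q, hI, mul_zero]
  have hPinf : ¬ inf P := by
    intro hall
    have hpos : (0 : ℤ) < finrankAlong Qb ι := by
      have h1 := finrankAlong_mul ι hι hιint hN
      have h2 : 0 < dedekindPsi M := by
        rw [← ModularFunctionField.card_tri]
        exact Fintype.card_pos_iff.mpr ⟨ModularFunctionField.Tri.top⟩
      have h3 : (0 : ℤ) < dedekindPsi M := by exact_mod_cast h2
      rcases (Int.natCast_nonneg (finrankAlong Qb ι)).lt_or_eq with h4 | h4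
      · exact h4
      · rw [← h4, zero_mul] at h1; omega
    rw [← degree_lowerDiv_single G ι hιint P,
      show L (Finsupp.single P 1) = 0 from ?_, map_zero] at hpos
    · exact lt_irrefl _ hpos
    ext Q
    rcases eq_or_ne (L (Finsupp.single (cuspZero hN) 1) Q) 0 with hQ | hQ
    · exact lower_point_supp hred G ι hι hιint hN h ha1 hne hQ
    · rw [hall Q, disjoint_cusps hred G ι hι hιint hMk hN hQ]; rfl
  have hle : Finsupp.single P (1 : ℤ) ≤ Z2 := fun v => by
    rw [Finsupp.single_apply]
    split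
    · subst v
      rw [hZ2, Finsupp.filter_apply, if_pos hPinf]
      rcases jNZeros_cases hN b P with ⟨-, e, -⟩ | e
      · rw [e]
        exact ((FunctionField.adicValuation_lt_one_iff P).mp h.2).resolve_left hfc
      · exfalso
        have h2 : 0 < P.ord (jNEl N - algebraMap Qb (FN N) b) :=
          ((FunctionField.adicValuation_lt_one_iff P).mp h.2).resolve_left hfc
        have h3 : 0 ≤ jNPoles hN P :=
          add_nonneg (Finsupp.single_nonneg.mpr (Int.natCast_nonneg N) P)
            (Finsupp.single_nonneg.mpr zero_le_one P)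
        rw [jNZeros, Finsupp.add_apply, divN_apply] at e
        omega
    · rw [hZ2, Finsupp.filter_apply]
      split
      · exact jNZeros_nonneg hN b v
      · exact le_rfl
  have h1 := lowerDiv_mono G ι hιint (hFI ι hιint) hle
  rw [hZ2eq] at h1
  exact G.riemann'.eq_of_le_of_degree_eq h1 (by
    rw [degree_lowerDiv_single G ι hιint, degree_lowerDiv_single G ι hιint])

end Lower

end Fermat.Agent.MazurPoint
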