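import Fermat.Agent.MazurPoint.Curve
import Fermat.Agent.MazurPoint.CurvePolygon
import Fermat.Agent.MazurPoint.Place
import Fermat.Agent.CuspidalC.Hecke
import Fermat.Agent.CuspidalC.NonTriv
import Fermat.Agent.EisensteinDescent.EisensteinGen
import Fermat.Agent.FreyHeight.Assembly

/-!
# Mazur's third step from the descent and the specialisations

`mazurStep_of_descent` deduces Mazur's third step from three properties: the modular equation for
the quotient by a cyclic subgroup (`QuotientModularEquation`), the kernels of reduction at the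
primes not dividing `p N` (`HasCuspKernel`), and the Eisenstein descent at a prime `p` dividing the
numerator of `(N - 1) / 12` (`DescentKills`).
-/

set_option autoImplicit false

noncomputable section

open WeierstrassCurve
open Fermat.Agent.EisensteinDescent Fermat.Agent.ModCurveGenus
open ModularCurve (JZero)
open scoped IsMulCommutative WeierstrassCurve.Affine

namespace Fermat.Agent.MazurPoint

local notation "Qb" => AlgebraicClosure ℚ
local notation "GalQ" => AlgebraicClosure ℚ ≃ₐ[ℚ] AlgebraicClosure ℚ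

/-- The modular equation relates `j` of `W` and of its quotient by a cyclic group of order `N`. -/
def QuotientModularEquation : Prop :=
  ∀ (N : ℕ) [NeZero N], N.Prime → N ≠ 2 → ∀ (W : WeierstrassCurve ℤ), W.Δ ≠ 0 →
    ∀ (Q : ((W.map (Int.castRingHom ℚ))⁄Qb).Point) [Finite (AddSubgroup.zmultiples Q)]
      [((W.map (Int.castRingHom ℚ))⁄Qb).IsElliptic],
      addOrderOf Q = N → ∀ jq : ℚ, algebraMap ℚ Qb jq = jQuot (AddSubgroup.zmultiples Q) →
        (phiAt N jq).eval (jRat W) = 0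

/-- A kernel of reduction at `A`: Hecke stable, without `p`-power torsion, and containing the
classes of the points reducing to a cusp. -/
def HasCuspKernel (N p : ℕ) [NeZero N] (A : ValuationSubring Qb)
    [IsMulCommutative (awayAlg N)] : Prop :=
  ∃ K : Submodule (awayAlg N) (JZero N),
    (∀ x ∈ K, ∀ k : ℕ, p ^ k • x = 0 → x = 0) ∧
    ∀ [Fact N.Prime] (P : AlgebraicCurve.Place Qb (FN N)) (a b : Qb), OverPoint P a b →
      (1 < A.valuation a → A.valuation b = A.valuation a ^ N → pointClass P ∈ K) ∧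
      (1 < A.valuation b → A.valuation a = A.valuation b ^ N →
        pointClass P - CuspidalC.cuspClass N ∈ K)

/-- The Eisenstein descent at `p`: a fixed point which specialises to `∞` at `p`, lies in one
kernel of reduction and is congruent to `C` modulo another kills the `p`-part of `C`. -/
def DescentKills (N p : ℕ) [NeZero N] [IsMulCommutative (awayAlg N)] : Prop :=
  ∀ [Fact N.Prime] (P : AlgebraicCurve.Place Qb (FN N)) (a b : ℚ), OverPoint P (a : Qb) (b : Qb) →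
    padicValRat p a < 0 → padicValRat p b = N * padicValRat p a →
    (∀ g : GalQ, g • pointClass P = pointClass P) →
    ∀ N₀ N₁ : Submodule (awayAlg N) (JZero N), pointClass P ∈ N₀ →
      pointClass P - CuspidalC.cuspClass N ∈ N₁ →
      (∀ x ∈ N₀, ∀ k : ℕ, p ^ k • x = 0 → x = 0) →
      (∀ x ∈ N₁, ∀ k : ℕ, p ^ k • x = 0 → x = 0) →
      ∀ v n' : ℕ, p ^ v • n' • CuspidalC.cuspClass N = 0 →
        (∀ t ∈ eisensteinIdeal N p ^ v, t • n' • CuspidalC.cuspClass N = 0) →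
        n' • CuspidalC.cuspClass N = 0

theorem span_pow_smul_eq {R M : Type*} [CommRing R] [AddCommGroup M] [Module R M] {C : M}
    {p : ℕ} {S : Set R} (hscal : ∀ a : R, ∃ l : ℤ, a • C = l • C)
    (hgen : ∀ s ∈ S, ∃ k : ℤ, s • C = k • (p • C)) :
    ∀ (v : ℕ), ∀ t ∈ Ideal.span S ^ v, ∃ k : ℤ, t • C = k • (p ^ v • C) := by
  have key : ∀ s ∈ Ideal.span S, ∃ k : ℤ, s • C = k • (p • C) := by
    intro s hs
    induction hs using Submodule.span_induction with
    | mem s hs => exact hgen s hs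
    | zero => exact ⟨0, by rw [zero_smul, zero_zsmul]⟩
    | add s t _ _ hs ht =>
      obtain ⟨k, hk⟩ := hs
      obtain ⟨l, hl⟩ := ht
      exact ⟨k + l, by rw [add_smul, hk, hl, add_zsmul]⟩
    | smul a s _ hs =>
      obtain ⟨k, hk⟩ := hs
      obtain ⟨l, hl⟩ := hscal a
      exact ⟨k * l, by rw [smul_eq_mul, mul_smul, hk, smul_comm a k, smul_comm a p, hl,
        smul_comm p l, mul_zsmul]⟩
  intro v
  induction v with
  | zero =>
    intro t _
    obtain ⟨l, hl⟩ := hscal t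
    exact ⟨l, by rw [pow_zero, one_smul, hl]⟩
  | succ v ih =>
    intro t ht
    rw [pow_succ] at ht
    refine Submodule.mul_induction_on ht (fun x hx y hy ↦ ?_) fun x y hx hy ↦ ?_
    · obtain ⟨k, hk⟩ := key y hy
      obtain ⟨l, hl⟩ := ih x hx
      exact ⟨k * l, by rw [mul_smul, hk, smul_comm x k, smul_comm x p, hl, smul_comm p l,
        mul_zsmul, smul_smul p (p ^ v), pow_succ', mul_comm]⟩
    · obtain ⟨k, hk⟩ := hx
      obtain ⟨l, hl⟩ := hy
      exact ⟨k + l, by rw [add_smul, hk, hl, add_zsmul]⟩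

theorem exists_zsmul_awayAlg {N : ℕ} [NeZero N] {C : JZero N}
    (hC : ∀ q : Nat.Primes, (q : ℕ) ≠ N →
      ModularCurve.heckeOperatorBar N q C = ((q : ℕ) + 1) • C) (a : awayAlg N) :
    ∃ l : ℤ, a • C = l • C := by
  obtain ⟨a, ha⟩ := a
  show ∃ l : ℤ, a C = l • C
  induction ha using Algebra.adjoin_induction with
  | mem x hx =>
    obtain ⟨q, hq, rfl⟩ := hx
    exact ⟨(((q : ℕ) + 1 : ℕ) : ℤ), by rw [hC q hq, natCast_zsmul]⟩
  | algebraMap r => exact ⟨r, by rw [Module.algebraMap_end_apply]⟩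
  | add x y _ _ hx hy =>
    obtain ⟨k, hk⟩ := hx
    obtain ⟨l, hl⟩ := hy
    exact ⟨k + l, by rw [LinearMap.add_apply, hk, hl, add_zsmul]⟩
  | mul x y _ _ hx hy =>
    obtain ⟨k, hk⟩ := hx
    obtain ⟨l, hl⟩ := hy
    exact ⟨l * k, by rw [Module.End.mul_apply, hl, map_zsmul, hk, mul_zsmul]⟩

theorem generator_smul_eq_zero {R M : Type*} [CommRing R] [AddCommGroup M] [Module R M] {t : R}
    {q : ℕ} {C : M} (h : t • C = (q + 1) • C) : (t - (1 + (q : R))) • C = 0 := by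
  rw [sub_smul, h, add_smul, add_smul, one_smul, one_smul, Nat.cast_smul_eq_nsmul, add_comm,
    sub_self]

theorem eisensteinIdeal_pow_kills {N p : ℕ} [NeZero N] [IsMulCommutative (awayAlg N)]
    {C : JZero N} (hC : ∀ q : Nat.Primes, (q : ℕ) ≠ N →
      ModularCurve.heckeOperatorBar N q C = ((q : ℕ) + 1) • C) (v n' : ℕ)
    (h0 : p ^ v • n' • C = 0) : ∀ t ∈ eisensteinIdeal N p ^ v, t • n' • C = 0 := by
  intro t ht
  obtain ⟨k, hk⟩ := span_pow_smul_eq (C := C) (p := p) (exists_zsmul_awayAlg hC) (fun s hs ↦ by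
    rcases hs with rfl | ⟨q, hq, hqN, rfl⟩
    · exact ⟨1, (Nat.cast_smul_eq_nsmul (awayAlg N) p C).trans (one_zsmul _).symm⟩
    · exact ⟨0, (generator_smul_eq_zero ((awayTq_smul N hq hqN C).trans (hC ⟨q, hq⟩ hqN))).trans
        (zero_zsmul _).symm⟩) v t ht
  have h1 : t • n' • C = n' • t • C := smul_comm _ _ _
  rw [h1, hk, smul_comm n' k, smul_comm n' (p ^ v), h0, smul_zero]

/-- `Φ_N(a, Y)` commutes with ring homomorphisms. -/
theorem map_phiAt {K L : Type*} [Field K] [Field L] (N : ℕ) [NeZero N] (f : K →+* L) (a : K) :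
    (phiAt N a).map f = phiAt N (f a) := by
  rw [phiAt, phiAt, Polynomial.map_map]
  congr 1
  refine Polynomial.ringHom_ext (fun n ↦ ?_) ?_
  · simp
  · simp

theorem exists_prime_choice {N : ℕ} (hN : N.Prime) (h11 : 11 ≤ N) (h13 : N ≠ 13) :
    ∃ p : ℕ, p.Prime ∧ p ∣ (N - 1) / Nat.gcd (N - 1) 12 ∧
      (p ≠ 2 ∨ ∃ r, (N - 1) / Nat.gcd (N - 1) 12 = 2 ^ r) ∧ 2 * p + 1 ≤ N := by
  obtain ⟨g, hg⟩ : ∃ g, g = Nat.gcd (N - 1) 12 := ⟨_, rfl⟩
  rw [← hg]
  obtain ⟨n, hn⟩ : ∃ n, n = (N - 1) / g := ⟨_, rfl⟩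
  rw [← hn]
  have hg0 : 0 < g := hg ▸ Nat.gcd_pos_of_pos_right _ (by norm_num)
  have hgd : g ∣ N - 1 := hg ▸ Nat.gcd_dvd_left _ _
  have hodd : ¬ 2 ∣ N := fun h ↦ by
    have := (Nat.prime_dvd_prime_iff_eq Nat.prime_two hN).1 h
    omega
  have hg2 : 2 ≤ g := hg ▸ Nat.le_of_dvd (hg ▸ hg0) (Nat.dvd_gcd (by omega) (by norm_num))
  have hmul : g * n = N - 1 := (hn ▸ Nat.mul_div_cancel' hgd)
  have hn2 : 2 ≤ n := by
    by_contra hlt
    have hle : g ∣ 12 := hg ▸ Nat.gcd_dvd_right _ _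
    have h12 := Nat.le_of_dvd (by norm_num) hle
    have h12' : g * n ≤ 12 * 1 := Nat.mul_le_mul h12 (by omega)
    have hle13 : N ≤ 13 := by omega
    interval_cases N <;> first | omega | (subst hg; subst hn; norm_num at hlt)
  have hbound : ∀ p, p ∣ n → 2 * p + 1 ≤ N := fun p hp ↦ by
    have := Nat.mul_le_mul hg2 (Nat.le_of_dvd (by omega) hp)
    omega
  by_cases h : ∃ p, p.Prime ∧ p ∣ n ∧ p ≠ 2
  · obtain ⟨p, hp, hpn, hp2⟩ := h
    exact ⟨p, hp, hpn, Or.inl hp2, hbound p hpn⟩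
  · push Not at h
    refine ⟨2, Nat.prime_two, ?_, Or.inr ⟨n.primeFactorsList.length, ?_⟩, hbound 2 ?_⟩ <;>
      have h2 : 2 ∣ n := (h _ (Nat.minFac_prime (by omega)) (Nat.minFac_dvd n)) ▸ Nat.minFac_dvd n
    · exact h2
    · exact Nat.eq_prime_pow_of_unique_prime_dvd (by omega) fun hd hdn ↦ h _ hd hdn
    · exact h2

/-- **Mazur's third step** from the modular equation of a cyclic quotient, the kernels of reduction
and the Eisenstein descent. -/
theorem mazurStep_of_descent (hroot : QuotientModularEquation)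
    (hcomm : ∀ N [NeZero N], N.Prime → IsMulCommutative (awayAlg N))
    (hker : ∀ (N p q : ℕ) [NeZero N] [IsMulCommutative (awayAlg N)], N.Prime → p.Prime → q.Prime →
      q ≠ N → q ≠ p → ∀ A : ValuationSubring Qb, A.LiesOverPrime q → HasCuspKernel N p A)
    (hdescent : ∀ (N p : ℕ) [NeZero N] [IsMulCommutative (awayAlg N)], N.Prime → p.Prime →
      11 ≤ N → p ∣ (N - 1) / Nat.gcd (N - 1) 12 → DescentKills N p) :
    FreyHeight.MazurStep := by
  intro N hN hN' W hΔ Q hfix hord h2Δ h2c₄ h2 h3Δ h3c₄ h3 ℓ hℓ hℓN hℓΔ hℓc₄ A hA hzero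
  have := isElliptic_baseChange hΔ
  have := finite_zmultiples_of_order hN.ne_zero hord
  have : NeZero N := ⟨hN.ne_zero⟩
  have : Fact N.Prime := ⟨hN⟩
  have := hcomm N hN
  obtain ⟨h11, h2N, -, jq, hjq, hbad, hℓj, hℓjq⟩ := exists_curve_side hN hN' hΔ hfix hord h2Δ h2c₄
    h2 h3Δ h3c₄ h3 hℓ hℓN hℓΔ hℓc₄ hA hzero
  have hr := hroot N hN (by omega) W hΔ Q hord jq hjq
  have hN13 : N ≠ 13 := fun h ↦ hN' (by rw [h]; simp)
  obtain ⟨p, hp, hpn, hp2, hpN⟩ := exists_prime_choice hN h11 hN13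
  have := Fact.mk hp
  -- valuations at the small primes
  have hsmall : ∀ q : ℕ, q.Prime → (q = 2 ∨ q = 3 ∨ 2 * q + 1 ≤ N) →
      padicValRat q jq < 0 ∧ padicValRat q (jRat W) = N * padicValRat q jq := fun q hq hc ↦ by
    have := Fact.mk hq
    obtain ⟨k1, k2, k3⟩ := hbad q hq hc
    exact ⟨k3, padicValRat_j_eq hN hr k1 k2 k3⟩
  obtain ⟨Ap, hAp⟩ := GaloisBasics.exists_liesOverPrime hp
  obtain ⟨hjp, hjp'⟩ := hsmall p hp (Or.inr (Or.inr hpN))
  have hrQ : (phiAt N (jq : Qb)).eval (jRat W : Qb) = 0 := by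
    have h := congrArg (Rat.castHom Qb) hr
    rw [map_zero, ← Polynomial.eval_map_apply, map_phiAt] at h
    exact h
  obtain ⟨P, hP, -, hPfix⟩ := exists_point hN hrQ hp hAp hjp hjp'
  -- the two kernels
  obtain ⟨l₀, hl₀, hl₀p, hl₀c⟩ : ∃ l₀ : ℕ, l₀.Prime ∧ l₀ ≠ p ∧ (l₀ = 2 ∨ l₀ = 3) := by
    by_cases h : p = 2
    · exact ⟨3, Nat.prime_three, by omega, Or.inr rfl⟩
    · exact ⟨2, Nat.prime_two, fun e ↦ h e.symm, Or.inl rfl⟩
  obtain ⟨A₀, hA₀⟩ := GaloisBasics.exists_liesOverPrime hl₀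
  obtain ⟨K₀, hK₀, hK₀P⟩ := hker N p l₀ hN hp hl₀ (by rcases hl₀c with rfl | rfl <;> omega) hl₀p
    A₀ hA₀
  obtain ⟨K₁, hK₁, hK₁P⟩ := hker N p ℓ hN hp hℓ hℓN (by omega) A hA
  obtain ⟨hj0, hj0'⟩ := hsmall l₀ hl₀ (hl₀c.imp_right Or.inl)
  obtain ⟨hv0, hv0'⟩ := valuation_of_padicValRat (N := N) hl₀ hA₀ hj0 hj0'
  obtain ⟨hv1, hv1'⟩ := valuation_of_padicValRat (N := N) hℓ hA hℓj hℓjq
  -- the cuspidal class
  set C := CuspidalC.cuspClass N with hCdef
  have hC1 := CuspidalC.heckeOperatorBar_cuspClass N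
  obtain ⟨n', hn', hNn'⟩ :=
    Nat.exists_eq_pow_mul_and_not_dvd (n := N - 1) (by omega) p hp.ne_one
  obtain ⟨hNn, hne⟩ : N - 1 = p ^ n' * hn' ∧ ¬ p ∣ hn' := ⟨hNn'.2, hNn'.1⟩
  have hCv : p ^ n' • hn' • C = 0 := by
    rw [smul_smul, ← hNn]
    exact CuspidalC.pred_nsmul_cuspClass N
  refine CuspidalC.nsmul_cuspClass_ne_zero N hp hpn hp2 hne ?_
  exact hdescent N p hN hp h11 hpn P jq (jRat W) hP hjp hjp' (fun g ↦ (hPfix g).2) K₀ K₁
    ((hK₀P P _ _ hP).1 hv0 hv0') ((hK₁P P _ _ hP).2 hv1 hv1') hK₀ hK₁ n' hn' hCv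
    (eisensteinIdeal_pow_kills hC1 n' hn' hCv)

end Fermat.Agent.MazurPoint
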