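import Fermat.Agent.MazurPoint.ReductionKernel
import Fermat.Agent.MazurPoint.Wiring
import Fermat.Agent.MazurPoint.Specialise
import Fermat.Agent.EisensteinDescent.HeckeGalois
import Fermat.Agent.Specialization.Main

/-!
# The kernels of reduction containing the classes of points reducing to a cusp

At a prime `q ∤ N p` the classes of the divisors of degree zero killed by reduction through the good
model at the auxiliary level form a module over the anemic Hecke algebra without `p`-torsion; it
contains `[P] - [∞]`, resp. `[P] - [0]`, when `P` and the cusp have the same reduction.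
-/

set_option autoImplicit false

noncomputable section

open AlgebraicCurve ModularCurve
open Fermat.Agent.GoodReduction Fermat.Agent.Specialization Fermat.Agent.EisensteinDescent
open Fermat.Agent.ModCurveGenus
open scoped IsMulCommutative

namespace Fermat.Agent.MazurPoint

local notation "Qb" => AlgebraicClosure ℚ

variable {A : ValuationSubring (AlgebraicClosure ℚ)} {M : ℕ} [NeZero M] {g : ℕ} {c : ℤ}
  {H : Divisor Qb (modularFunctionFieldBar M)}
  {Hb : Divisor (IsLocalRing.ResidueField A)
    (modularFunctionFieldFullC (IsLocalRing.ResidueField A) M)}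
  {red : Reduction (modularFunctionFieldBar M)
    (modularFunctionFieldFullC (IsLocalRing.ResidueField A) M) A (IsLocalRing.residue A)}

/-- The points with a coordinate of valuation `> 1` reduce to the cusps, as an equality of
specialised divisors. -/
def ReducesToCusps (G : GoodModel red g c H Hb) {N : ℕ} [NeZero N]
    (ι : modularFunctionFieldBar N →ₐ[Qb] modularFunctionFieldBar M)
    (hιint : ι.toRingHom.IsIntegral) : Prop :=
  ∀ [Fact N.Prime] (P : Place Qb (FN N)) (a b : Qb), OverPoint P a b →
    (1 < A.valuation a → A.valuation b = A.valuation a ^ N →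
      G.lowerDivMap ι hιint (Finsupp.single P 1) =
        G.lowerDivMap ι hιint (Finsupp.single (CuspidalC.cuspInfty N) 1)) ∧
    (1 < A.valuation b → A.valuation a = A.valuation b ^ N →
      G.lowerDivMap ι hιint (Finsupp.single P 1) =
        G.lowerDivMap ι hιint (Finsupp.single (CuspidalC.cuspZero N) 1))

/-- The cusp kernel from one good model at a level above `N`. -/
theorem hasCuspKernel_of_model {N p ℓ : ℕ} [NeZero N] (hN : N.Prime) (hℓ : ℓ.Prime)
    (hℓp : ¬ ℓ ∣ p) (hA : A.LiesOverPrime ℓ) (hred : IsSeriesReduction red)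
    (G : GoodModel red g c H Hb)
    (ι : modularFunctionFieldBar N →ₐ[Qb] modularFunctionFieldBar M)
    (hι : ∀ f, (ι f : LaurentSeries Qb) = (f : LaurentSeries Qb))
    (hιint : ι.toRingHom.IsIntegral)
    (hpull : ∀ m : ℕ, ¬ ℓ ∣ m → ∀ D : Divisor Qb (modularFunctionFieldBar N),
      Divisor.degree D = 0 → (m • D).IsPrincipal →
      (Divisor.pullbackAlong ι hιint D).IsPrincipal → D.IsPrincipal)
    (hcusps : ReducesToCusps G ι hιint) :
    HasCuspKernel N p A := by
  refine ⟨kernelModule G ι hιint hN (HeckeCommute.heckeOperatorsCommuteBar N) hred hι,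
    fun x hx k hk => eq_zero_of_mem_divisorKernel hℓ hA hpull hℓp (mem_kernelModule.mp hx) hk,
    fun {_} P a b hP => ⟨fun ha hb => ?_, fun hb ha => ?_⟩⟩
  · refine mem_kernelModule.mpr (mk_mem_divisorKernel (D := pointDiv P) ?_)
    show G.lowerDivMap ι hιint
      (Finsupp.single P 1 - Finsupp.single (CuspidalC.cuspInfty N) 1) = 0
    rw [map_sub, (hcusps P a b hP).1 ha hb, sub_self]
  · refine mem_kernelModule.mpr ?_
    have hmk : pointClass P - CuspidalC.cuspClass N =
        Pic0.mk (pointDiv P - ⟨CuspidalC.cuspDiv N, CuspidalC.degree_cuspDiv N⟩) := rfl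
    rw [hmk]
    refine mk_mem_divisorKernel ?_
    show G.lowerDivMap ι hιint
      ((Finsupp.single P 1 - Finsupp.single (CuspidalC.cuspInfty N) 1) -
        (Finsupp.single (CuspidalC.cuspZero N) 1 - Finsupp.single (CuspidalC.cuspInfty N) 1)) = 0
    rw [sub_sub_sub_cancel_right, map_sub, (hcusps P a b hP).2 hb ha, sub_self]

/-- The auxiliary level is prime to `ℓ`. -/
theorem not_dvd_auxLevel {N ℓ : ℕ} (hℓ : ℓ.Prime) (hN : ¬ ℓ ∣ N) : ¬ ℓ ∣ auxLevel N ℓ := by
  unfold auxLevel
  split <;> rename_i h <;> intro hd <;>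
    refine ((hℓ.dvd_mul).mp (hd.trans (Nat.lcm_dvd_mul N _))).elim hN fun h' => ?_
  · rw [h] at h'; exact absurd h' (by norm_num)
  · exact h ((Nat.prime_dvd_prime_iff_eq hℓ Nat.prime_two).mp h')

/-- **The cusp kernels at all primes different from `N` and `p`.** -/
theorem hasCuspKernel (N p q : ℕ) [NeZero N] (hN : N.Prime) (hp : p.Prime) (hq : q.Prime)
    (hqN : q ≠ N) (hqp : q ≠ p) (A : ValuationSubring Qb) (hA : A.LiesOverPrime q) :
    HasCuspKernel N p A := by
  have hqN' : ¬ q ∣ N := fun h => hqN ((Nat.prime_dvd_prime_iff_eq hq hN).mp h)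
  obtain ⟨Hg, g, c, Hd, Hb, G⟩ := hasGaussModel_auxLevel N q hq hqN' A hA
  have hle : modularFunctionFieldBar N ≤ modularFunctionFieldBar (auxLevel N q) :=
    IntermediateField.adjoin.mono _ _ _ (Set.image_mono (full_degeneracy_le (dvd_auxLevel N q)))
  have hι := Hecke.isIntegral_of_isFunctionField (IntermediateField.inclusion hle)
  have hcoe : ∀ f,
      (IntermediateField.inclusion hle f : LaurentSeries Qb) = (f : LaurentSeries Qb) :=
    fun f => IntermediateField.coe_inclusion hle f
  have : CharP (IsLocalRing.ResidueField A) q := GaloisBasics.residueField_charP hA hq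
  have hMk : ((auxLevel N q : ℕ) : IsLocalRing.ResidueField A) ≠ 0 := fun h0 =>
    not_dvd_auxLevel hq hqN' ((CharP.cast_eq_zero_iff _ q _).mp h0)
  have hred := isSeriesReduction_gauss Hg
  refine hasCuspKernel_of_model hN hq (fun h => hqp ((Nat.prime_dvd_prime_iff_eq hq hp).mp h)) hA
    hred G (IntermediateField.inclusion hle) hcoe hι
    (fun m hm D _ hmD hD => GoodReductionS18.isPrincipal_of_pullbackAlong_tame Qb
      (tameStep_auxLevel N q m hm) (fun h => hm (h ▸ dvd_zero q)) (IntermediateField.inclusion hle)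
      hι hcoe D hmD hD) ?_
  intro _ P a b hP
  refine ⟨fun ha hb => ?_, fun hb ha => ?_⟩
  · rw [← cuspInf_eq]
    exact lower_point_eq_cuspInf hred G _ hcoe hι hMk hN hP ha hb
  · rw [← cuspZero_eq hN]
    exact lower_point_eq_cuspZero hred G _ hcoe hι hMk hN hP hb ha

end Fermat.Agent.MazurPoint
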