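import Fermat.Agent.MazurPoint.Cusps

/-!
# The cusp `0` of `X₀(N)`, and a function with poles only there
-/

set_option autoImplicit false

noncomputable section

open ModularCurve IntermediateField Polynomial
open AlgebraicCurve (Place)
open Fermat.Agent.ModCurveGenus (Qb FN jEl)

namespace Fermat.Agent.MazurPoint

variable {N : ℕ} [NeZero N]

/-! ### Small and large arguments -/

section Valuation

variable {K : Type*} [Field K] {Γ₀ : Type*} [LinearOrderedCommGroupWithZero Γ₀]
  {v : Valuation K Γ₀}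

theorem valuation_eval_le_one (hv : ∀ n : ℤ, v (n : K) ≤ 1) {a : K} (ha : v a ≤ 1) (p : ℤ[X]) :
    v (p.eval₂ (Int.castRingHom K) a) ≤ 1 := by
  rw [Polynomial.eval₂_eq_sum_range]
  refine v.map_sum_le fun i _ => ?_
  rw [eq_intCast, map_mul, map_pow]
  exact mul_le_one' (hv _) (pow_le_one' ha i)

/-- `j_N` is integral over `ℤ[j]`. -/
theorem valuation_root_le_one (hN : N.Prime) (hv : ∀ n : ℤ, v (n : K) ≤ 1) {a b : K}
    (ha : v a ≤ 1) (hroot : (phiAt N a).eval b = 0) : v b ≤ 1 := by
  by_contra hb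
  push Not at hb
  rw [Polynomial.eval_eq_sum_range, phiAt, (ModularFunctionField.modularPoly_monic N).natDegree_map,
    modularPoly_natDegree_prime hN, Finset.sum_range_succ] at hroot
  have htop : ((ModularFunctionField.modularPoly N).map
      (Polynomial.eval₂RingHom (Int.castRingHom K) a)).coeff (N + 1) = 1 := by
    rw [Polynomial.coeff_map, coeff_modularPoly_succ hN, map_one]
  rw [htop, one_mul] at hroot
  refine lt_irrefl (v (b ^ (N + 1))) ?_
  conv_lhs => rw [eq_neg_of_add_eq_zero_right hroot, Valuation.map_neg]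
  refine v.map_sum_lt (fun h => ?_) fun i hi => ?_
  · rw [map_pow] at h
    exact (zero_lt_one.trans hb).ne' (pow_eq_zero_iff (Nat.succ_ne_zero N) |>.mp h)
  · rw [Finset.mem_range] at hi
    rw [map_mul, map_pow, map_pow, Polynomial.coeff_map, Polynomial.coe_eval₂RingHom]
    exact (mul_le_of_le_one_left' (valuation_eval_le_one hv ha _)).trans_lt
      (pow_lt_pow_right₀ hb hi)

/-- A root of `Φ_N(a, Y)` is large when `a` is. -/
theorem one_lt_valuation_root (hN : N.Prime) (hv : ∀ n : ℤ, v (n : K) ≤ 1) {a b : K}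
    (ha : 1 < v a) (hroot : (phiAt N a).eval b = 0) : 1 < v b := by
  by_contra hb
  push Not at hb
  have e := root_eq_sum hN hroot
  have h0 := valuation_phiCoeff_zero hN hv ha
  rw [show phiCoeff N a 0 = -((∑ i ∈ Finset.Ico 1 N, phiCoeff N a i * b ^ i) +
      phiCoeff N a N * b ^ N + b ^ (N + 1)) by linear_combination e, Valuation.map_neg] at h0
  have hlt : v a ^ N < v a ^ (N + 1) := pow_lt_pow_right₀ ha (Nat.lt_succ_self N)
  refine (v.map_add_lt (v.map_add_lt ?_ ?_) ?_).ne h0
  · refine v.map_sum_lt (pow_ne_zero _ (ne_zero_of_lt ha)) fun i hi => ?_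
    rw [Finset.mem_Ico] at hi
    rw [map_mul, map_pow]
    exact ((mul_le_of_le_one_right' (pow_le_one' hb i)).trans
      (valuation_phiCoeff_le hN hv ha hi.1 hi.2.le)).trans_lt hlt
  · rw [map_mul, map_pow, valuation_phiCoeff_N hN hv ha]
    exact (mul_le_of_le_one_right' (pow_le_one' hb N)).trans_lt hlt
  · rw [map_pow]
    exact (pow_le_one' hb _).trans_lt (one_lt_pow₀ ha (Nat.succ_ne_zero N))

end Valuation

/-! ### The cusp `0` -/

/-- `j` has a simple pole at `∞`. -/
theorem ord_cuspInf_jEl : (cuspInf N).ord (jEl N) = -1 := by rw [ord_cuspInf, order_jEl]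

/-- `j_N` has a pole of order `N` at `∞`. -/
theorem ord_cuspInf_jNEl : (cuspInf N).ord (jNEl N) = -(N : ℤ) := by rw [ord_cuspInf, order_jNEl]

/-- `j` has exactly one pole besides `∞`. -/
theorem exists_cuspZero (hN : N.Prime) : ∃ v : Place Qb (FN N), v ≠ cuspInf N ∧
    v.ord (jEl N) < 0 ∧ ∀ w : Place Qb (FN N), w.ord (jEl N) < 0 → w = cuspInf N ∨ w = v := by
  have h := ModCurveGenus.card_fibre_infty N
  rw [cuspCount_prime hN] at h
  obtain ⟨y, hy, huniq⟩ := (Nat.card_eq_two_iff'
    (⟨cuspInf N, by rw [ord_cuspInf_jEl]; omega⟩ : {v : Place Qb (FN N) // v.ord (jEl N) < 0})).mp h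
  refine ⟨y.1, fun h => hy (Subtype.ext h), y.2, fun w hw => ?_⟩
  by_cases hw' : w = cuspInf N
  · exact Or.inl hw'
  · exact Or.inr (congrArg Subtype.val (huniq ⟨w, hw⟩ fun h => hw' (congrArg Subtype.val h)))

/-- The cusp `0`. -/
def cuspZero (hN : N.Prime) : Place Qb (FN N) := (exists_cuspZero hN).choose

/-- The cusps `0` and `∞` are distinct. -/
theorem cuspZero_ne_cuspInf (hN : N.Prime) : cuspZero hN ≠ cuspInf N :=
  (exists_cuspZero hN).choose_spec.1

/-- `j` has a pole at `0`. -/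
theorem ord_cuspZero_jEl_neg (hN : N.Prime) : (cuspZero hN).ord (jEl N) < 0 :=
  (exists_cuspZero hN).choose_spec.2.1

/-- The poles of `j` are the two cusps. -/
theorem eq_cusp_of_ord_neg (hN : N.Prime) {w : Place Qb (FN N)} (hw : w.ord (jEl N) < 0) :
    w = cuspInf N ∨ w = cuspZero hN :=
  (exists_cuspZero hN).choose_spec.2.2 w hw

/-- `j` has a pole of order `N` at `0`. -/
theorem ord_cuspZero_jEl (hN : N.Prime) : (cuspZero hN).ord (jEl N) = -(N : ℤ) := by
  classical
  have hF := ModCurveGenus.finiteOverGen_FN N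
  have ht := ModCurveGenus.transcendental_jEl_inv N
  have := FFPlaces.pos_fiber hF ht
  let := Fintype.ofFinite {v : Place Qb (FN N) // 0 < v.ord (jEl N)⁻¹}
  have h := FFPlaces.sum_ord_pos hF ht
  rw [ModCurveGenus.finrank_congr N (FFPlaces.adjoin_inv (jEl N)), ModCurveGenus.card_cos_eq_psi,
    dedekindPsi_prime hN] at h
  have hs : ∑ v : {v : Place Qb (FN N) // 0 < v.ord (jEl N)⁻¹}, v.1.ord (jEl N)⁻¹ =
      ∑ v ∈ ({cuspInf N, cuspZero hN} : Finset _), v.ord (jEl N)⁻¹ := by
    refine (Finset.sum_subtype _ (fun v => ?_) fun v : Place Qb (FN N) => v.ord (jEl N)⁻¹).symm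
    rw [Place.ord_inv, Left.neg_pos_iff, Finset.mem_insert, Finset.mem_singleton]
    constructor
    · rintro (rfl | rfl)
      · rw [ord_cuspInf_jEl]; omega
      · exact ord_cuspZero_jEl_neg hN
    · exact eq_cusp_of_ord_neg hN
  rw [hs, Finset.sum_pair (cuspZero_ne_cuspInf hN).symm, Place.ord_inv, Place.ord_inv,
    ord_cuspInf_jEl] at h
  push_cast at h
  omega

theorem jNEl_ne_zero : (jNEl N : FN N) ≠ 0 := fun h => by
  have := order_jNEl N
  rw [h, ZeroMemClass.coe_zero, HahnSeries.order_zero] at this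
  have := NeZero.ne N
  omega

theorem one_lt_valuation_jNEl (hN : N.Prime) {w : Place Qb (FN N)} (hw : w.ord (jEl N) < 0) :
    1 < w.adicValuation (jNEl N) :=
  one_lt_valuation_root hN (valuation_intCast_le_one w)
    ((one_lt_valuation_iff w (jEl_ne_zero N)).mpr hw) (phiAt_jEl N)

/-- `j_N` is transcendental over `ℚ̄`. -/
theorem transcendental_jNEl : Transcendental Qb (jNEl N) :=
  FunctionField.transcendental_of_ord_ne_zero (cuspInf N)
    (by rw [ord_cuspInf_jNEl]; have := NeZero.ne N; omega)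

/-- `j_N` has a simple pole at `0`. -/
theorem ord_cuspZero_jNEl (hN : N.Prime) : (cuspZero hN).ord (jNEl N) = -1 := by
  classical
  set w := cuspZero hN
  have hj := ord_cuspZero_jEl hN
  have h2 := hN.two_le
  have hneg : w.ord (jNEl N) < 0 :=
    (one_lt_valuation_iff w jNEl_ne_zero).mp (one_lt_valuation_jNEl hN (ord_cuspZero_jEl_neg hN))
  have h := valuation_root hN (valuation_intCast_le_one w)
    ((one_lt_valuation_iff w (jEl_ne_zero N)).mpr (ord_cuspZero_jEl_neg hN))
    ((one_lt_valuation_iff w jNEl_ne_zero).mpr hneg) (phiAt_jEl N)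
  rw [w.adicValuation_eq_exp_neg_ord (jEl_ne_zero N), w.adicValuation_eq_exp_neg_ord jNEl_ne_zero,
    ← WithZero.exp_nsmul, ← WithZero.exp_nsmul, WithZero.exp_inj, WithZero.exp_inj, nsmul_eq_mul,
    nsmul_eq_mul, hj] at h
  rcases h with h | h
  · -- this slope would give `j_N` more poles than its degree allows
    exfalso
    have hF := ModCurveGenus.finiteOverGen_FN N
    have ht : Transcendental Qb (jNEl N)⁻¹ := fun h => transcendental_jNEl (by simpa using h.inv)
    have := FFPlaces.pos_fiber hF ht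
    let := Fintype.ofFinite {v : Place Qb (FN N) // 0 < v.ord (jNEl N)⁻¹}
    have hs := FFPlaces.sum_ord_pos hF ht
    have hpI : 0 < (cuspInf N).ord (jNEl N)⁻¹ := by rw [Place.ord_inv, ord_cuspInf_jNEl]; omega
    have hpw : 0 < w.ord (jNEl N)⁻¹ := by rw [Place.ord_inv]; omega
    have hne : (⟨cuspInf N, hpI⟩ : {v : Place Qb (FN N) // 0 < v.ord (jNEl N)⁻¹}) ≠ ⟨w, hpw⟩ :=
      fun h => cuspZero_ne_cuspInf hN (congrArg Subtype.val h).symm
    have hle := Finset.sum_le_sum_of_subset_of_nonneg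
      (f := fun v : {v : Place Qb (FN N) // 0 < v.ord (jNEl N)⁻¹} => v.1.ord (jNEl N)⁻¹)
      (Finset.subset_univ {⟨cuspInf N, hpI⟩, ⟨w, hpw⟩}) fun v _ _ => v.2.le
    rw [Finset.sum_pair hne, hs, Place.ord_inv, Place.ord_inv, ord_cuspInf_jNEl] at hle
    have key : ∀ E E' : IntermediateField Qb (FN N), E = E' →
        Module.finrank E (FN N) = Module.finrank E' (FN N) := by rintro E _ rfl; rfl
    rw [key _ _ (FFPlaces.adjoin_inv (jNEl N))] at hle
    have := finrank_jNEl_le hN
    nlinarith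
  · nlinarith

/-- The `q`-expansion of `j` is integral. -/
theorem coe_jEl_int (n : ℕ) [NeZero n] :
    ((jEl n : FN n) : LaurentSeries Qb) = coeffMap (Int.castRingHom Qb) (jqModC ℤ) := by
  rw [coe_jEl, ← jqModC_rat, coeffEmb, ModularFunctionField.coeffMap_jqC,
    ModularFunctionField.coeffMap_jqC]

/-- The `q`-expansion of `j_N` is integral. -/
theorem coe_jNEl_int :
    ((jNEl N : FN N) : LaurentSeries Qb) =
      coeffMap (Int.castRingHom Qb) (qExpand ℤ N (jqModC ℤ)) := by
  rw [coe_jNEl, jqN, coeffEmb, ModularFunctionField.coeffMap_qExpand',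
    ModularFunctionField.coeffMap_qExpand', ← jqModC_rat, ModularFunctionField.coeffMap_jqC,
    ModularFunctionField.coeffMap_jqC]

/-! ### `j_N - R(j)` -/

theorem exists_sub_poly (M : ℕ) : ∀ s : LaurentSeries ℤ, (∀ i, i < -(M : ℤ) → s.coeff i = 0) →
    ∃ R : ℤ[X], R.natDegree ≤ M ∧ R.coeff M = s.coeff (-(M : ℤ)) ∧
      ∀ i, i < 0 → (s - R.eval₂ HahnSeries.C (jqModC ℤ)).coeff i = 0 := by
  induction M with
  | zero =>
    intro s hs
    refine ⟨C (s.coeff 0), by simp, by simp, fun i hi => ?_⟩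
    rw [Polynomial.eval₂_C, HahnSeries.coeff_sub, hs i (by simpa using hi), HahnSeries.C_apply,
      HahnSeries.coeff_single_of_ne hi.ne, sub_zero]
  | succ M ih =>
    intro s hs
    set c := s.coeff (-((M + 1 : ℕ) : ℤ)) with hc
    set s' := s - HahnSeries.C c * jqModC ℤ ^ (M + 1) with hs'
    have hlow : ∀ i, i < -(M : ℤ) → s'.coeff i = 0 := by
      intro i hi
      rw [hs', HahnSeries.coeff_sub, HahnSeries.C_mul_eq_smul, HahnSeries.coeff_smul]
      rcases eq_or_ne i (-((M + 1 : ℕ) : ℤ)) with rfl | hne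
      · rw [coeff_jqModC_pow_self, smul_eq_mul, mul_one, ← hc, sub_self]
      · rw [hs i (by push_cast at hne ⊢; omega),
          coeff_jqModC_pow_of_lt ℤ (by push_cast at hne ⊢; omega), smul_zero, sub_zero]
    obtain ⟨R, h1, -, h3⟩ := ih s' hlow
    refine ⟨R + C c * X ^ (M + 1), ?_, ?_, fun i hi => ?_⟩
    · refine (Polynomial.natDegree_add_le _ _).trans (max_le (by omega) ?_)
      exact Polynomial.natDegree_C_mul_X_pow_le _ _
    · rw [Polynomial.coeff_add, Polynomial.coeff_eq_zero_of_natDegree_lt (by omega), zero_add,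
        Polynomial.coeff_C_mul, Polynomial.coeff_X_pow_self, mul_one]
    · have := h3 i hi
      rw [hs', sub_sub] at this
      rw [Polynomial.eval₂_add, Polynomial.eval₂_mul, Polynomial.eval₂_C, Polynomial.eval₂_X_pow,
        add_comm]
      exact this

variable (N)

theorem exists_polyR : ∃ R : ℤ[X], R.natDegree ≤ N ∧ R.coeff N = 1 ∧
    ∀ i, i < 0 → (qExpand ℤ N (jqModC ℤ) - R.eval₂ HahnSeries.C (jqModC ℤ)).coeff i = 0 := by
  obtain ⟨R, h1, h2, h3⟩ := exists_sub_poly N (qExpand ℤ N (jqModC ℤ)) fun i hi => by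
    by_cases h : (N : ℤ) ∣ i
    · obtain ⟨m, rfl⟩ := h
      have hN : (0 : ℤ) < N := by exact_mod_cast Nat.pos_of_ne_zero (NeZero.ne N)
      rw [qExpand_coeff_mul, ← pow_one (jqModC ℤ),
        coeff_jqModC_pow_of_lt ℤ (by push_cast; nlinarith)]
    · exact qExpand_coeff_of_not_dvd N _ h
  refine ⟨R, h1, ?_, h3⟩
  rw [h2, show -(N : ℤ) = (N : ℤ) * (-1) by ring, qExpand_coeff_mul,
    ModularCurve.coeff_jqModC_neg_one]

/-- The `R` with `j(q^N) - R(j)` regular at `∞`. -/
def polyR : ℤ[X] := (exists_polyR N).choose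

/-- `R` has degree at most `N`. -/
theorem polyR_natDegree_le : (polyR N).natDegree ≤ N := (exists_polyR N).choose_spec.1

/-- The coefficient of `X^N` in `R` is `1`. -/
theorem polyR_coeff : (polyR N).coeff N = 1 := (exists_polyR N).choose_spec.2.1

/-- Its integral `q`-expansion. -/
def auxSeries : LaurentSeries ℤ := qExpand ℤ N (jqModC ℤ) - (polyR N).eval₂ HahnSeries.C (jqModC ℤ)

theorem auxSeries_coeff {i : ℤ} (hi : i < 0) : (auxSeries N).coeff i = 0 :=
  (exists_polyR N).choose_spec.2.2 i hi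

/-- `j_N - R(j)`. -/
def auxEl : FN N := jNEl N - (polyR N).eval₂ (Int.castRingHom (FN N)) (jEl N)

/-- The `q`-expansion of `j_N - R(j)` is `auxSeries`. -/
theorem coe_auxEl :
    ((auxEl N : FN N) : LaurentSeries Qb) = coeffMap (Int.castRingHom Qb) (auxSeries N) := by
  rw [auxEl, auxSeries, AddSubgroupClass.coe_sub, map_sub, coe_jNEl_int, Polynomial.hom_eval₂]
  refine congrArg₂ (· - ·) rfl ?_
  show (modularFunctionFieldBar N).val.toRingHom _ = _
  rw [Polynomial.hom_eval₂, show (modularFunctionFieldBar N).val.toRingHom (jEl N) =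
    coeffMap (Int.castRingHom Qb) (jqModC ℤ) from coe_jEl_int N]
  congr 1
  exact Subsingleton.elim _ _

variable {N}

theorem ord_cuspInf_auxEl_nonneg : 0 ≤ (cuspInf N).ord (auxEl N) := by
  rw [ord_cuspInf, coe_auxEl]
  by_contra h
  have hne : coeffMap (Int.castRingHom Qb) (auxSeries N) ≠ 0 := fun h0 => h (by rw [h0]; simp)
  refine HahnSeries.coeff_order_eq_zero.not.mpr hne ?_
  rw [coeffMap_coeff, auxSeries_coeff N (not_le.mp h), map_zero]

/-- `j_N - R(j)` has no pole away from `0`. -/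
theorem ord_auxEl_nonneg (hN : N.Prime) {w : Place Qb (FN N)} (hw : w ≠ cuspZero hN) :
    0 ≤ w.ord (auxEl N) := by
  rcases lt_or_ge (w.ord (jEl N)) 0 with h | h
  · rw [(eq_cusp_of_ord_neg hN h).resolve_right hw]; exact ord_cuspInf_auxEl_nonneg
  rw [← FFPlaces.mem_iff, FunctionField.mem_iff_adicValuation_le_one, auxEl]
  have hj : w.adicValuation (jEl N) ≤ 1 :=
    (FunctionField.mem_iff_adicValuation_le_one w).mp ((FFPlaces.mem_iff w).mpr h)
  exact (w.adicValuation.map_sub _ _).trans (max_le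
    (valuation_root_le_one hN (valuation_intCast_le_one w) hj (phiAt_jEl N))
    (valuation_eval_le_one (valuation_intCast_le_one w) hj _))

/-- `j_N - R(j)` has a pole at `0`. -/
theorem one_lt_valuation_cuspZero_auxEl (hN : N.Prime) :
    1 < (cuspZero hN).adicValuation (auxEl N) := by
  set w := cuspZero hN
  have hj : 1 < w.adicValuation (jEl N) :=
    (one_lt_valuation_iff w (jEl_ne_zero N)).mpr (ord_cuspZero_jEl_neg hN)
  have hR : w.adicValuation ((polyR N).eval₂ (Int.castRingHom (FN N)) (jEl N)) =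
      w.adicValuation (jEl N) ^ N :=
    valuation_eval_eq (valuation_intCast_le_one w) hj _ (polyR_natDegree_le N)
      (by rw [polyR_coeff, Int.cast_one, map_one])
  have hlt : w.adicValuation (jNEl N) < w.adicValuation (jEl N) ^ N := by
    rw [w.adicValuation_eq_exp_neg_ord (jEl_ne_zero N), w.adicValuation_eq_exp_neg_ord jNEl_ne_zero,
      ← WithZero.exp_nsmul, WithZero.exp_lt_exp, nsmul_eq_mul, ord_cuspZero_jEl hN,
      ord_cuspZero_jNEl hN]
    have := hN.two_le
    push_cast
    nlinarith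
  rw [auxEl, Valuation.map_sub_eq_of_lt_right _ (hR ▸ hlt), hR]
  exact one_lt_pow₀ hj (NeZero.ne N)

end Fermat.Agent.MazurPoint
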