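import Fermat.Agent.MazurPoint.Polygon
import Fermat.Agent.MazurPoint.PlaceUnique
import Fermat.Agent.ModCurveGenus.Genus

/-!
# The two cusps of `X₀(N)`, `N` prime, and the function `j_N - R(j)`
-/

set_option autoImplicit false

noncomputable section

open ModularCurve IntermediateField Polynomial
open AlgebraicCurve (Place)
open Fermat.Agent.ModCurveGenus (Qb FN PN gen genS oneD topD jEl ev)
open Fermat.Agent.ModularFunctionField (modularPoly)

namespace Fermat.Agent.MazurPoint

variable (N : ℕ) [NeZero N]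

/-- `j_N` in the function field. -/
def jNEl : FN N := gen N (topD N)

/-- The `q`-expansion of `j`. -/
theorem coe_jEl : ((jEl N : FN N) : LaurentSeries Qb) = coeffEmb Qb jq :=
  congrArg (coeffEmb Qb) (qExpand_one_apply jq)

/-- The `q`-expansion of `j_N`. -/
theorem coe_jNEl : ((jNEl N : FN N) : LaurentSeries Qb) = coeffEmb Qb (jqN N) := rfl

/-- `Φ_N(j, j_N) = 0`. -/
theorem phiAt_jEl : (phiAt N (jEl N)).eval (jNEl N) = 0 := by
  apply Subtype.ext
  have h : (modularPoly N).eval₂ evalAtJ (jqN N) = 0 :=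
    (ModularFunctionField.modularPolynomialData N).eval_eq_zero
  have h' := congrArg (coeffEmb Qb) h
  rw [Polynomial.hom_eval₂, map_zero] at h'
  rw [ZeroMemClass.coe_zero, ← h', phiAt, Polynomial.eval_map]
  show (modularFunctionFieldBar N).val.toRingHom _ = _
  rw [Polynomial.hom_eval₂]
  congr 1
  refine Polynomial.ringHom_ext' (Subsingleton.elim _ _) ?_
  rw [RingHom.comp_apply, RingHom.comp_apply, evalAtJ_X, Polynomial.coe_eval₂RingHom,
    Polynomial.eval₂_X]
  exact coe_jEl N

/-- `Φ_N` as a plane curve over `ℚ̄`. -/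
def curveEq : Qb[X][X] := (modularPoly N).map (Polynomial.mapRingHom (Int.castRingHom Qb))

/-- `curveEq` at `(x, y)` is `Φ_N(x, y)`. -/
theorem evalXY_curveEq {F : Type*} [Field F] [Algebra Qb F] (x y : F) :
    evalXY x y (curveEq N) = (phiAt N x).eval y := by
  rw [evalXY, curveEq, Polynomial.coe_eval₂RingHom, Polynomial.eval₂_map, phiAt,
    Polynomial.eval_map]
  congr 1
  exact Polynomial.ringHom_ext' (Subsingleton.elim _ _) (by simp)

theorem evalAB_eq_map (a b : Qb) (p : Qb[X][X]) :
    evalAB a b p = (p.map (Polynomial.evalRingHom a)).eval b := (Polynomial.eval_map _ _).symm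

theorem map_curveEq (a : Qb) : (curveEq N).map (Polynomial.evalRingHom a) = phiAt N a := by
  rw [curveEq, Polynomial.map_map, phiAt]
  congr 1
  exact Polynomial.ringHom_ext' (Subsingleton.elim _ _) (by simp)

/-- `curveEq` at a constant point `(a, b)` is `Φ_N(a, b)`. -/
theorem evalAB_curveEq (a b : Qb) : evalAB a b (curveEq N) = (phiAt N a).eval b := by
  rw [evalAB_eq_map, map_curveEq]

/-- The `Y`-derivative of `curveEq` at `(a, b)` is that of `Φ_N(a, Y)`. -/
theorem evalAB_derivative_curveEq (a b : Qb) :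
    evalAB a b (derivative (curveEq N)) = (phiAt N a).derivative.eval b := by
  rw [evalAB_eq_map, ← Polynomial.derivative_map, map_curveEq]

/-! ### The place `∞` -/

/-- Series without negative powers. -/
def cuspInfSubring : ValuationSubring (FN N) where
  carrier := {f | 0 ≤ (f : LaurentSeries Qb).order}
  zero_mem' := by simp
  one_mem' := by simp
  add_mem' {a b} (ha : 0 ≤ (a : LaurentSeries Qb).order) 
      (hb : 0 ≤ (b : LaurentSeries Qb).order) := by
    show 0 ≤ ((a : LaurentSeries Qb) + (b : LaurentSeries Qb)).order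
    by_cases h : (a : LaurentSeries Qb) + (b : LaurentSeries Qb) = 0
    · rw [h, HahnSeries.order_zero]
    · exact (le_min ha hb).trans (HahnSeries.min_order_le_order_add h)
  mul_mem' {a b} (ha : 0 ≤ (a : LaurentSeries Qb).order) 
      (hb : 0 ≤ (b : LaurentSeries Qb).order) := by
    show 0 ≤ ((a : LaurentSeries Qb) * (b : LaurentSeries Qb)).order
    by_cases h : (a : LaurentSeries Qb) * (b : LaurentSeries Qb) = 0
    · rw [h, HahnSeries.order_zero]
    · rw [HahnSeries.order_mul (left_ne_zero_of_mul h) (right_ne_zero_of_mul h)]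
      exact add_nonneg ha hb
  neg_mem' {a} (ha : 0 ≤ (a : LaurentSeries Qb).order) := by
    show 0 ≤ (-(a : LaurentSeries Qb)).order
    rwa [HahnSeries.order_neg]
  mem_or_inv_mem' f := by
    show 0 ≤ (f : LaurentSeries Qb).order ∨ 0 ≤ ((f : LaurentSeries Qb)⁻¹).order
    by_cases h : (f : LaurentSeries Qb) = 0
    · left; rw [h, HahnSeries.order_zero]
    · have h1 := HahnSeries.order_mul h (inv_ne_zero h)
      rw [mul_inv_cancel₀ h, HahnSeries.order_one] at h1
      omega

omit [NeZero N] in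
theorem mem_cuspInfSubring {f : FN N} :
    f ∈ cuspInfSubring N ↔ 0 ≤ (f : LaurentSeries Qb).order := Iff.rfl

omit [NeZero N] in
theorem algebraMap_mem_cuspInfSubring (c : Qb) : algebraMap Qb (FN N) c ∈ cuspInfSubring N := by
  rw [mem_cuspInfSubring]
  show 0 ≤ (algebraMap Qb (LaurentSeries Qb) c).order
  rw [algebraMap_laurentSeries_eq_single]
  rcases eq_or_ne c 0 with rfl | hc
  · simp
  · rw [HahnSeries.order_single hc]

theorem order_eq_of_coeff {R : Type*} [Zero R] {s : LaurentSeries R} {m : ℤ}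
    (h0 : s.coeff m ≠ 0) (h : ∀ i, i < m → s.coeff i = 0) : s.order = m := by
  refine le_antisymm (HahnSeries.order_le_of_coeff_ne_zero h0) ?_
  by_contra hc
  exact HahnSeries.coeff_order_eq_zero.not.mpr (HahnSeries.ne_zero_of_coeff_ne_zero h0)
    (h _ (not_le.mp hc))

/-- The `q`-expansion of `j` has order `-1`. -/
theorem order_jEl : ((jEl N : FN N) : LaurentSeries Qb).order = -1 := by
  refine order_eq_of_coeff ?_ fun i hi => ?_
  · rw [coe_jEl, coeffEmb_coeff, coeff_jq_neg_one, map_one]; exact one_ne_zero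
  · rw [coe_jEl, coeffEmb_coeff, coeff_jq_of_lt hi, map_zero]

/-- The `q`-expansion of `j_N` has order `-N`. -/
theorem order_jNEl : ((jNEl N : FN N) : LaurentSeries Qb).order = -(N : ℤ) := by
  refine order_eq_of_coeff ?_ fun i hi => ?_
  · rw [coe_jNEl, coeffEmb_coeff, jqN, show -(N : ℤ) = (N : ℤ) * (-1) by ring, qExpand_coeff_mul,
      coeff_jq_neg_one, map_one]
    exact one_ne_zero
  · rw [coe_jNEl, coeffEmb_coeff, jqN]
    by_cases h : (N : ℤ) ∣ i
    · obtain ⟨m, rfl⟩ := h
      have hN : (0 : ℤ) < N := by exact_mod_cast Nat.pos_of_ne_zero (NeZero.ne N)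
      rw [qExpand_coeff_mul, coeff_jq_of_lt (by nlinarith), map_zero]
    · rw [qExpand_coeff_of_not_dvd N _ h, map_zero]

/-- `j` is nonzero. -/
theorem jEl_ne_zero : (jEl N : FN N) ≠ 0 := fun h => by
  have := order_jEl N
  rw [h, ZeroMemClass.coe_zero, HahnSeries.order_zero] at this
  omega

theorem cuspInfSubring_ne_top : cuspInfSubring N ≠ ⊤ := fun h => by
  have : jEl N ∈ cuspInfSubring N := h ▸ ValuationSubring.mem_top _
  rw [mem_cuspInfSubring, order_jEl] at this
  omega

/-- The cusp `∞`. -/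
def cuspInf : Place Qb (FN N) :=
  haveI := ModCurveGenus.isFunctionField_FN N
  FunctionField.placeOfValuationSubring (cuspInfSubring N) (algebraMap_mem_cuspInfSubring N)
    (cuspInfSubring_ne_top N)

theorem mem_cuspInf {f : FN N} :
    f ∈ (cuspInf N).toValuationSubring ↔ 0 ≤ (f : LaurentSeries Qb).order := Iff.rfl

/-- At `∞`, `ord` is the order of the `q`-expansion. -/
theorem ord_cuspInf (f : FN N) : (cuspInf N).ord f = (f : LaurentSeries Qb).order := by
  set v := cuspInf N
  have hj : ((jEl N : FN N) : LaurentSeries Qb) ≠ 0 := fun h => jEl_ne_zero N (Subtype.ext h)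
  have key : ∀ g : FN N, g ≠ 0 → v.ord g = -(g : LaurentSeries Qb).order * v.ord (jEl N) := by
    intro g hg
    set m := (g : LaurentSeries Qb).order
    have hg' : (g : LaurentSeries Qb) ≠ 0 := fun h => hg (Subtype.ext h)
    have hz : ∀ z : ℤ, (((jEl N) ^ z : FN N) : LaurentSeries Qb).order = -z := by
      intro z
      induction z with
      | zero => simp
      | succ n ih =>
        rw [zpow_add_one₀ (jEl_ne_zero N), MulMemClass.coe_mul, HahnSeries.order_mul
          (fun h => zpow_ne_zero _ (jEl_ne_zero N) (Subtype.ext h)) hj, ih, order_jEl]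
        ring
      | pred n ih =>
        have h1 : ((jEl N) ^ (-(n : ℤ) - 1) * jEl N : FN N) = (jEl N) ^ (-(n : ℤ)) := by
          rw [← zpow_add_one₀ (jEl_ne_zero N), sub_add_cancel]
        have h2 := congrArg (fun w : FN N => (w : LaurentSeries Qb).order) h1
        simp only [MulMemClass.coe_mul] at h2
        rw [HahnSeries.order_mul (fun h => zpow_ne_zero _ (jEl_ne_zero N) (Subtype.ext h)) hj, ih,
          order_jEl] at h2
        omega
    have hu0 : g * jEl N ^ m ≠ 0 := mul_ne_zero hg (zpow_ne_zero _ (jEl_ne_zero N))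
    have hu : ((g * jEl N ^ m : FN N) : LaurentSeries Qb).order = 0 := by
      rw [MulMemClass.coe_mul, HahnSeries.order_mul hg'
        (fun h => zpow_ne_zero _ (jEl_ne_zero N) (Subtype.ext h)), hz]
      omega
    have hi : (((g * jEl N ^ m)⁻¹ : FN N) : LaurentSeries Qb).order = 0 := by
      suffices h : ∀ u : FN N, u ≠ 0 → (u : LaurentSeries Qb).order = 0 →
          ((u⁻¹ : FN N) : LaurentSeries Qb).order = 0 from h _ hu0 hu
      intro u hu0 hu
      have h1 := congrArg (fun w : FN N => (w : LaurentSeries Qb).order) (mul_inv_cancel₀ hu0)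
      simp only [MulMemClass.coe_mul] at h1
      rw [HahnSeries.order_mul (fun h => hu0 (Subtype.ext h))
        (fun h => inv_ne_zero hu0 (Subtype.ext h)), hu, OneMemClass.coe_one,
        HahnSeries.order_one] at h1
      omega
    have o1 := (FFPlaces.mem_iff v).mp ((mem_cuspInf N).mpr hu.ge)
    have o2 := (FFPlaces.mem_iff v).mp ((mem_cuspInf N).mpr hi.ge)
    rw [v.ord_inv] at o2
    rw [v.ord_mul hg (zpow_ne_zero _ (jEl_ne_zero N)), v.ord_zpow] at o1 o2
    linarith
  obtain ⟨π, hπ0, hπ⟩ := FFPlaces.exists_uniformizer v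
  have hneg : v.ord (jEl N) < 0 := by
    rw [← not_le, ← FFPlaces.mem_iff, mem_cuspInf, order_jEl]
    omega
  have h1 := key π hπ0
  rw [hπ] at h1
  have hj1 : v.ord (jEl N) = -1 := by
    rcases Int.eq_one_or_neg_one_of_mul_eq_one' h1.symm with ⟨-, h⟩ | ⟨-, h⟩ <;> omega
  rcases eq_or_ne f 0 with rfl | hf
  · simp
  rw [key f hf, hj1]
  ring

/-! ### Generators and degrees -/

variable {N}

theorem dvs_eq (hN : N.Prime) (d : ModCurveGenus.Dvs N) : d = oneD N ∨ d = topD N := by
  rcases hN.eq_one_or_self_of_dvd d.1 d.dvd with h | h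
  · exact Or.inl (Subtype.ext h)
  · exact Or.inr (Subtype.ext h)

theorem exists_evalXY_eq (hN : N.Prime) (p : PN N) :
    ∃ r : Qb[X][X], evalXY (jEl N) (jNEl N) r = ev N p := by
  induction p using MvPolynomial.induction_on with
  | C c => exact ⟨C (C c), by simp [evalXY, ev]⟩
  | add p q hp hq =>
    obtain ⟨r, hr⟩ := hp; obtain ⟨s, hs⟩ := hq
    exact ⟨r + s, by rw [map_add, map_add, hr, hs]⟩
  | mul_X p d hp =>
    obtain ⟨r, hr⟩ := hp
    rcases dvs_eq hN d with rfl | rfl
    · exact ⟨r * C X, by rw [map_mul, map_mul, hr]; simp [evalXY, ev, jEl]⟩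
    · exact ⟨r * X, by rw [map_mul, map_mul, hr]; simp [evalXY, ev, jNEl]⟩

/-- The function field is generated by `j` and `j_N`. -/
theorem exists_frac_xy (hN : N.Prime) (f : FN N) :
    ∃ r s : Qb[X][X], evalXY (jEl N) (jNEl N) s ≠ 0 ∧
      f = evalXY (jEl N) (jNEl N) r / evalXY (jEl N) (jNEl N) s := by
  obtain ⟨r, s, hs, rfl⟩ := ModCurveGenus.exists_frac N f
  obtain ⟨r', hr'⟩ := exists_evalXY_eq hN r
  obtain ⟨s', hs'⟩ := exists_evalXY_eq hN s
  exact ⟨r', s', by rwa [hs'], by rw [hr', hs']⟩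

theorem finrank_jEl_prime (hN : N.Prime) : Module.finrank Qb⟮jEl N⟯ (FN N) = N + 1 := by
  rw [ModCurveGenus.finrank_eq_psi, dedekindPsi_prime hN]

theorem evalXY_mem_adjoin (r : Qb[X][X]) :
    evalXY (jEl N) (jNEl N) r ∈ (Qb⟮jEl N⟯⟮jNEl N⟯).restrictScalars Qb := by
  rw [evalXY, Polynomial.coe_eval₂RingHom, Polynomial.eval₂_eq_sum_range]
  refine sum_mem fun i _ => mul_mem ?_ (pow_mem (mem_adjoin_simple_self Qb⟮jEl N⟯ _) i)
  show Polynomial.aeval (jEl N) (r.coeff i) ∈ Qb⟮jEl N⟯⟮jNEl N⟯
  exact Qb⟮jEl N⟯⟮jNEl N⟯.algebraMap_mem ⟨_, Polynomial.aeval_mem_adjoin_singleton Qb (jEl N) |>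
    IntermediateField.algebra_adjoin_le_adjoin Qb _⟩

/-- `ker (p ↦ p(j, j_N))` is generated by `Φ_N`. -/
theorem evalAB_eq_zero_of_evalXY (hN : N.Prime) {a b : Qb} (hab : evalAB a b (curveEq N) = 0)
    {p : Qb[X][X]} (hp : evalXY (jEl N) (jNEl N) p = 0) : evalAB a b p = 0 := by
  have := ModCurveGenus.finiteDimensional_FN N
  have hmon : (curveEq N).Monic := (ModularFunctionField.modularPoly_monic N).map _
  have hdeg : (curveEq N).natDegree = N + 1 := by
    rw [curveEq, (ModularFunctionField.modularPoly_monic N).natDegree_map,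
      modularPoly_natDegree_prime hN]
  have hrem : p %ₘ curveEq N = 0 := by
    set r := p %ₘ curveEq N with hr
    by_contra hne
    have hrev : evalXY (jEl N) (jNEl N) r = 0 := by
      have := congrArg (evalXY (jEl N) (jNEl N)) (Polynomial.modByMonic_add_div p (curveEq N))
      rwa [map_add, map_mul, evalXY_curveEq, phiAt_jEl, zero_mul, add_zero, hp] at this
    set g : Qb[X] →+* Qb⟮jEl N⟯ :=
      (Polynomial.aeval (⟨jEl N, mem_adjoin_simple_self Qb _⟩ : Qb⟮jEl N⟯)).toRingHom with hg
    have hgc : (algebraMap Qb⟮jEl N⟯ (FN N)).comp g = (Polynomial.aeval (jEl N)).toRingHom :=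
      Polynomial.ringHom_ext (fun c => by simp [hg, ← IsScalarTower.algebraMap_apply])
        (by simp [hg])
    have hginj : Function.Injective g := by
      intro u w huw
      apply transcendental_iff_injective.mp (ModCurveGenus.jEl_transcendental N)
      have := congrArg (algebraMap Qb⟮jEl N⟯ (FN N)) huw
      rwa [← RingHom.comp_apply, ← RingHom.comp_apply, hgc] at this
    have htop : Qb⟮jEl N⟯⟮jNEl N⟯ = ⊤ := by
      refine eq_top_iff.mpr fun f _ => ?_
      obtain ⟨u, w, -, rfl⟩ := exists_frac_xy hN f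
      exact div_mem (evalXY_mem_adjoin u) (evalXY_mem_adjoin w)
    have hint : IsIntegral Qb⟮jEl N⟯ (jNEl N) := Algebra.IsIntegral.isIntegral _
    have hmin : (minpoly Qb⟮jEl N⟯ (jNEl N)).natDegree = N + 1 := by
      rw [← IntermediateField.adjoin.finrank hint, htop, IntermediateField.finrank_top',
        finrank_jEl_prime hN]
    have hroot : Polynomial.aeval (jNEl N) (r.map g) = 0 := by
      rw [Polynomial.aeval_def, Polynomial.eval₂_map, hgc]
      exact hrev
    have hle := Polynomial.natDegree_le_natDegree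
      (minpoly.degree_le_of_ne_zero Qb⟮jEl N⟯ (jNEl N) (p := r.map g) ?_ hroot)
    · rw [hmin, Polynomial.natDegree_map_eq_of_injective hginj] at hle
      have := Polynomial.natDegree_modByMonic_lt p hmon (fun h => by simp [h] at hdeg)
      rw [hdeg, ← hr] at this
      omega
    · exact (Polynomial.map_ne_zero_iff hginj).mpr hne
  have := congrArg (evalAB a b) (Polynomial.modByMonic_add_div p (curveEq N))
  rwa [hrem, zero_add, map_mul, hab, zero_mul, eq_comm] at this

/-- `[F : ℚ̄(j_N)] ≤ N + 1`. -/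
theorem finrank_jNEl_le (hN : N.Prime) : Module.finrank Qb⟮jNEl N⟯ (FN N) ≤ N + 1 := by
  obtain ⟨h0, h0', hmid, -⟩ := modularPoly_shape hN
  set t : Qb⟮jNEl N⟯ := ⟨jNEl N, mem_adjoin_simple_self Qb _⟩
  set p : Qb⟮jNEl N⟯[X] := ∑ i ∈ Finset.range (N + 2),
    ((modularPoly N).coeff i).map (Int.castRingHom _) * C (t ^ i) with hp
  have hcoef : ∀ i ∈ Finset.range (N + 2), i ≠ 0 →
      (((modularPoly N).coeff i).map (Int.castRingHom Qb⟮jNEl N⟯)).natDegree ≤ N := by
    intro i hi hi0
    rw [Finset.mem_range] at hi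
    refine Polynomial.natDegree_map_le.trans ?_
    by_cases h : i = N + 1
    · rw [h, coeff_modularPoly_succ hN, Polynomial.natDegree_one]; omega
    · exact hmid i (by omega) (by omega)
  have hpdeg : p.natDegree ≤ N + 1 := by
    refine Polynomial.natDegree_sum_le_of_forall_le _ _ fun i hi => ?_
    refine (Polynomial.natDegree_mul_C_le _ _).trans ?_
    rcases eq_or_ne i 0 with rfl | hi0
    · exact Polynomial.natDegree_map_le.trans h0
    · exact (hcoef i hi hi0).trans (by omega)
  have htop' : p.coeff (N + 1) = 1 := by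
    rw [hp, Polynomial.finsetSum_coeff, Finset.sum_eq_single 0]
    · simp [h0']
    · intro i hi hi0
      rw [Polynomial.coeff_mul_C, Polynomial.coeff_eq_zero_of_natDegree_lt
        (Nat.lt_succ_of_le (hcoef i hi hi0)), zero_mul]
    · simp
  have hp0 : p ≠ 0 := fun h => by simp [h] at htop'
  have hroot : Polynomial.aeval (jEl N) p = 0 := by
    rw [← phiAt_jEl N, phiAt, Polynomial.eval_map, Polynomial.eval₂_eq_sum_range' _ (n := N + 2)
      (by rw [modularPoly_natDegree_prime hN]; omega), hp, map_sum]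
    refine Finset.sum_congr rfl fun i _ => ?_
    rw [map_mul, Polynomial.aeval_C, map_pow, Polynomial.aeval_def, Polynomial.eval₂_map,
      Polynomial.coe_eval₂RingHom]
    congr 2
  have hint : IsIntegral Qb⟮jNEl N⟯ (jEl N) := isAlgebraic_iff_isIntegral.mp ⟨p, hp0, hroot⟩
  have htop : Qb⟮jNEl N⟯⟮jEl N⟯ = ⊤ := by
    refine eq_top_iff.mpr fun f _ => ?_
    obtain ⟨u, w, -, rfl⟩ := exists_frac_xy hN f
    have : ∀ r : Qb[X][X], evalXY (jEl N) (jNEl N) r ∈ Qb⟮jNEl N⟯⟮jEl N⟯ := fun r => by
      rw [evalXY, Polynomial.coe_eval₂RingHom, Polynomial.eval₂_eq_sum_range]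
      refine sum_mem fun i _ => mul_mem ?_ (pow_mem
        (Qb⟮jNEl N⟯⟮jEl N⟯.algebraMap_mem t) i)
      show Polynomial.aeval (jEl N) (r.coeff i) ∈ Qb⟮jNEl N⟯⟮jEl N⟯
      rw [Polynomial.aeval_eq_sum_range]
      refine sum_mem fun k _ => ?_
      rw [Algebra.smul_def, IsScalarTower.algebraMap_apply Qb Qb⟮jNEl N⟯ (FN N)]
      exact mul_mem (IntermediateField.algebraMap_mem _ _) (pow_mem (mem_adjoin_simple_self _ _) k)
    exact div_mem (this u) (this w)
  rw [← IntermediateField.finrank_top' (F := Qb⟮jNEl N⟯) (E := FN N), ← htop,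
    IntermediateField.adjoin.finrank hint]
  exact (Polynomial.natDegree_le_natDegree
    (minpoly.degree_le_of_ne_zero Qb⟮jNEl N⟯ (jEl N) hp0 hroot)).trans hpdeg

/-! ### The cusp `0` -/

omit [NeZero N] in
/-- `X₀(N)` has two cusps for prime `N`. -/
theorem cuspCount_prime (hN : N.Prime) : cuspCount N = 2 := by
  rw [cuspCount, hN.divisors, Finset.sum_pair hN.ne_one.symm, Nat.div_one,
    Nat.div_self hN.pos, Nat.gcd_one_right, Nat.gcd_one_left, Nat.totient_one]

omit [NeZero N] in
/-- Integers have no poles. -/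
theorem valuation_intCast_le_one (v : Place Qb (FN N)) (n : ℤ) :
    v.adicValuation (n : FN N) ≤ 1 := by
  rw [← map_intCast (algebraMap Qb (FN N)) n]
  exact v.adicValuation_algebraMap_le_one _

omit [NeZero N] in
/-- A valuation above `1` is a pole. -/
theorem one_lt_valuation_iff (v : Place Qb (FN N)) {f : FN N} (hf : f ≠ 0) :
    1 < v.adicValuation f ↔ v.ord f < 0 := by
  rw [v.adicValuation_eq_exp_neg_ord hf, ← WithZero.exp_zero, WithZero.exp_lt_exp]
  omega

end Fermat.Agent.MazurPoint
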