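import Fermat.Agent.MazurPoint.Wiring
import Fermat.Agent.OrdinaryEisenstein.Glue
import Fermat.Agent.LocalInertia.Cyclotomic

/-!
# The descent at `p` from a family of maps of roots of unity
-/

set_option autoImplicit false

noncomputable section

namespace Fermat.Agent.MazurPoint

open GaloisBasics EisensteinDescent EisensteinTate OrdinaryEisenstein
open ModularCurve (JZero)
open scoped IsMulCommutative

/-- The `p`-adic cyclotomic character is nontrivial on inertia at `p`. -/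
theorem exists_inertia_padicCyclo_ne_one {p : ℕ} [Fact p.Prime] {A : ValuationSubring Qbar}
    (hA : A.LiesOverPrime p) : ∃ s ∈ A.inertiaSubgroupIn ℚ, padicCyclo p s ≠ 1 := by
  have hp : p.Prime := Fact.out
  have : NeZero (p ^ 2) := ⟨pow_ne_zero 2 hp.ne_zero⟩
  obtain ⟨ζ, hζ⟩ := HasEnoughRootsOfUnity.exists_primitiveRoot Qbar (p ^ 2)
  obtain ⟨s, hs, hsζ⟩ := LocalInertia.exists_inertia_pow_on_rootsOfUnity hA hp 2
    (a := p + 1) (by simp)
  refine ⟨s, hs, fun h1 ↦ ?_⟩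
  set d := qmk ζ (hζ.ne_zero (NeZero.ne _))
  have hd : p ^ 2 • d = 0 :=
    qval_injective (by rw [qval_nsmul, qval_qmk, hζ.pow_eq_one, qval_zero])
  have h := congrArg qval (smul_eq_appr_nsmul (p := p) s hd)
  have happr : (padicCyclo p s).appr 2 = 1 := by
    have h2 : ((padicCyclo p s).appr 2 : ZMod (p ^ 2)) = 1 := by
      show PadicInt.toZModPow 2 (padicCyclo p s) = 1
      rw [h1, map_one]
    have hlt : 1 < p ^ 2 := Nat.one_lt_pow two_ne_zero hp.one_lt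
    have := congrArg ZMod.val h2
    rwa [ZMod.val_natCast_of_lt (PadicInt.appr_lt _ 2),
      ← Nat.cast_one, ZMod.val_natCast_of_lt hlt] at this
  rw [qval_smul, qval_nsmul, qval_qmk, happr, pow_one, hsζ ζ hζ.pow_eq_one] at h
  have hlt : p + 1 < p ^ 2 := by have := hp.two_le; nlinarith
  have h3 := hζ.pow_inj hlt (Nat.one_lt_pow two_ne_zero hp.one_lt) (by rw [pow_one]; exact h)
  have := hp.two_le
  omega

variable {p : ℕ} [Fact p.Prime] {T : Type} [CommRing T] {J : Type} [AddCommGroup J]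
  [DistribMulAction GalQ J] [Module T J] [SMulCommClass GalQ T J]
  {P : Ideal T} {tq : ℕ → T} {D : ℕ} {N : ℕ} {E : Type} [Field E] [CharZero E] [Algebra ℤ_[p] E]
  {ι : Type} [Fintype ι]

/-- **Eisenstein descent from a family of maps of roots of unity at `p`.** -/
theorem nsmul_eq_zero_of_family (H : DescentInputs p N J P tq) (h : HasTorsionRank J p D)
    (Eig : EigenData GalQ (primaryAct (J := J) (p := p) (P := P)) E)
    (hθ : ∀ i, ∀ q : ℕ, q.Prime → q ≠ N →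
      Eig.θ i (tq q) ≠ (q : E) + 1 ∧ Eig.θ i (tq q) ≠ -((q : E) + 1))
    {Ap : ValuationSubring Qbar} (hAp : Ap.LiesOverPrime p) {τ : GalQ}
    (hτ : τ ∈ Ap.decompositionSubgroup ℚ) (A : Module.End ℤ_[p] (primaryTate J p P))
    (a : Eig.ι → E) (hA : ∀ x i, Eig.coord (A x) i = a i • Eig.coord x i)
    (ha : ∀ i, a i ^ 2 - Eig.θ i (tq p) * a i + (p : E) = 0)
    (F : MuFamily p Ap J P ι)
    (hAτ : ∀ i r, (A (τ • F.elem i) : CarayolReduction.tateModule J p).1 r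
      = F.Φ i (muSmul τ (root p r)))
    (hnz : ∀ θ : Eig.ι, ∃ i, Eig.coord (F.elem i) θ ≠ 0)
    {y C : J} (hy : ∀ g : GalQ, g • y = y)
    (hykummer : ∀ r, ∃ (w : J) (v : ι → Qmul), p ^ r • w = y ∧
      (∀ i, p ^ r • v i ∈ unitsAt Ap) ∧
      ∃ htors : ∀ i, ∀ s ∈ Ap.inertiaSubgroupIn ℚ, p ^ r • (s • v i - v i) = 0,
        ∀ s (hs : s ∈ Ap.inertiaSubgroupIn ℚ),
          h.idem P r • (s • w - w) = ∑ i, F.Φ i ⟨s • v i - v i, mem_muPow (htors i s hs)⟩)
    (hFG : AddGroup.FG ↥(FixedPoints.addSubgroup GalQ J))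
    (N₀ N₁ : Submodule T J) (h₀y : y ∈ N₀) (h₁y : y - C ∈ N₁)
    (h₀inj : ∀ x ∈ N₀, ∀ k : ℕ, p ^ k • x = 0 → x = 0)
    (h₁inj : ∀ x ∈ N₁, ∀ k : ℕ, p ^ k • x = 0 → x = 0)
    {v n' : ℕ} (hC : p ^ v • n' • C = 0) (hCP : ∃ k, ∀ t ∈ P ^ k, t • n' • C = 0) :
    n' • C = 0 := by
  obtain ⟨AN, hAN⟩ := GaloisBasics.exists_liesOverPrime H.prime
  exact nsmul_eq_zero_of_inputs H h Eig hθ hAN hAp hτ (exists_inertia_padicCyclo_ne_one hAp) A a hA
    ha (F.hline Eig A hAτ hnz) hy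
    ⟨FixedPoints.addSubgroup GalQ J, (AddGroup.fg_iff_addSubgroup_fg _).mp hFG, fun _ hz ↦ hz⟩
    (F.hpcond Eig h hykummer) N₀ N₁ h₀y h₁y h₀inj h₁inj hC hCP

end Fermat.Agent.MazurPoint
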