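import Fermat.Agent.MazurPoint.DescentKills
import Fermat.Agent.EisensteinTate.JZero
import Fermat.Agent.EisensteinDescent.HeckeGalois

/-!
# The eigen decomposition of the Eisenstein part of the Tate module of `J₀(N)`
-/

set_option autoImplicit false

noncomputable section

namespace Fermat.Agent.MazurPoint

open GaloisBasics EisensteinDescent EisensteinTate
open ModularCurve (JZero)
open scoped IsMulCommutative

variable (N p : ℕ) [NeZero N] [Fact p.Prime] [IsMulCommutative (awayAlg N)]
  [SMulCommClass GalQ (awayAlg N) (JZero N)]

/-- **The eigen decomposition holds at every prime level.** -/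
theorem hasEigenDecomposition (hN : N.Prime) : HasEigenDecomposition N p := by
  have H := exists_eigenData_jZero (p := p) hN (eisensteinIdeal N p)
  obtain ⟨D, H⟩ := H
  obtain ⟨hinj, -, hθ⟩ := H
  exact ⟨AlgebraicClosure ℚ_[p], inferInstance, inferInstance, inferInstance, D, hinj, hθ⟩

end Fermat.Agent.MazurPoint
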