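import Fermat.Agent.MazurPoint.Wiring
import Fermat.Agent.XPoint.PhiZero

/-!
# The modular equation for a quotient by a cyclic subgroup
-/

set_option autoImplicit false

noncomputable section

open WeierstrassCurve
open scoped WeierstrassCurve.Affine Classical

namespace Fermat.Agent.MazurPoint

/-- `Φ_N(j(E/⟨Q⟩), j(E)) = 0` for a point `Q` of order `N`. -/
theorem quotientModularEquation : QuotientModularEquation := by
  intro N _ hN hN2 W hΔ Q _ _ hord jq hjq
  refine XPoint.phiAt_eval_rat hN (hN.odd_of_ne_two hN2) (AddSubgroup.zmultiples Q) ?_ ?_ hjq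
  · rw [Nat.card_zmultiples, hord]
  · exact algebraMap_jRat W

end Fermat.Agent.MazurPoint
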