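import Fermat.Agent.MazurPoint.CuspKernel
import Fermat.Agent.MazurPoint.DescentKills
import Fermat.Agent.MazurPoint.QuotientEquation
import Fermat.Agent.EisensteinDescent.HeckeGalois
import Fermat.Agent.MazurPoint.EigenDecomposition

/-!
# Mazur's third step from the ordinary family and unipotent inertia

The cusp kernels, the quotient modular equation and the Eisenstein descent are combined.
-/

set_option autoImplicit false

noncomputable section

namespace Fermat.Agent.MazurPoint

open GaloisBasics EisensteinDescent EisensteinTate
open ModularCurve (JZero)
open scoped IsMulCommutative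

/-- **Mazur's third step** from unipotent inertia and the ordinary families at `p`. -/
theorem mazurStep_of_family (hcore : UnipotentInertia.UnipotentAtSplitLevels)
    (hord : ∀ (N p : ℕ) [NeZero N] [Fact p.Prime], N.Prime → 11 ≤ N →
      p ∣ (N - 1) / Nat.gcd (N - 1) 12 → HasOrdinaryFamily N p) :
    FreyHeight.MazurStep := by
  refine mazurStep_of_descent quotientModularEquation (fun N _ _ ↦ inferInstance) ?_ ?_
  · intro N p q _ _ hN hp hq hqN hqp A hA
    exact hasCuspKernel N p q hN hp hq hqN hqp A hA
  · intro N p _ _ hN hp h11 hpn
    have := Fact.mk hp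
    have := Fact.mk hN
    have hpN : p ≠ N := by
      intro h
      subst h
      have h1 := Nat.le_of_dvd
        (Nat.div_pos (Nat.gcd_le_left _ (by omega)) (Nat.gcd_pos_of_pos_left _ (by omega))) hpn
      have h2 := Nat.div_le_self (p - 1) (Nat.gcd (p - 1) 12)
      omega
    intro _
    exact descentKills_of_ordinaryFamily N p hN (by omega) hpN
      (fun l hl hlN A hA ↦ Specialization.hasGaussModel_auxLevel N l hl hlN A hA) hcore
      (hasEigenDecomposition N p hN) (hord N p hN h11 hpn)

end Fermat.Agent.MazurPoint
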