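import Fermat.Agent.MazurPoint.Final
import Fermat.Agent.UnipotentInertia.Translate
import Fermat.Agent.TwoComp.Export

/-!
# Mazur's third step, given the ordinary families at `p`
-/

set_option autoImplicit false

noncomputable section

namespace Fermat.Agent.MazurPoint

open EisensteinDescent

/-- Unipotent inertia at the prime exactly dividing a split level. -/
theorem unipotentAtSplitLevels : UnipotentInertia.UnipotentAtSplitLevels :=
  UnipotentInertia.unipotentAtSplitLevels_of_twistRoot fun M r n hr hrM hM hn0 hn A hA σ hσ => by
    have : NeZero r := ⟨hr.ne_zero⟩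
    have : NeZero M := ⟨fun h => hrM (h ▸ dvd_zero r)⟩
    exact TwoComp.twistRoot hr hrM hM hn0 hn hA hσ

/-- **Mazur's third step** from the ordinary families. -/
theorem mazurStep_of_ordinary
    (hord : ∀ (N p : ℕ) [NeZero N] [Fact p.Prime], N.Prime → 11 ≤ N →
      p ∣ (N - 1) / Nat.gcd (N - 1) 12 → HasOrdinaryFamily N p) :
    FreyHeight.MazurStep :=
  mazurStep_of_family unipotentAtSplitLevels hord

end Fermat.Agent.MazurPoint
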